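import Fermat.Agent.DS.Red.Hecke
import Fermat.Agent.HeckeJ.Level

/-!
`J_H`: the Galois action commutes with the operators, and every point is defined over a number
field.
-/

set_option autoImplicit false
set_option synthInstance.maxHeartbeats 200000
set_option linter.unusedSectionVars false

noncomputable section

open ModularCurve AlgebraicCurve
open scoped Pointwise
open FLTAgent.Chebotarev (QBar GalQBar)
open FLTAgent.HeckeJ (HasLevel)

namespace FLTAgent.DS.Red

local notation "Kb" => AlgebraicClosure ℚ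

variable (N : Lvl)

theorem diamond_smul (d : (ZMod N.M)ˣ) (σ : GalQBar) (x : ↥(FBH N.M N.Δ)) :
    arithmeticGalois (F0H N.M N.Δ) σ • diamond N.neg_mem d x =
      diamond N.neg_mem d (arithmeticGalois (F0H N.M N.Δ) σ • x) :=
  (diamond_galois N.neg_mem d σ x).symm

theorem intertwines_alpha (p : ℕ) [NeZero p] (σ : GalQBar) :
    SemilinearAut.IntertwinesAlong (N.alpha p).toRingHom
      (arithmeticGalois (F0H N.M N.Δ) σ) (arithmeticGalois (F0H (N.up p).M (N.up p).Δ) σ) :=
  fun x => by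
    refine Subtype.ext ?_
    show _ = ((N.alpha p (arithmeticGalois (F0H N.M N.Δ) σ • x) :
      ↥(FBH (N.up p).M (N.up p).Δ)) : LaurentSeries Kb)
    rw [N.coe_alpha, coe_arithmeticGalois_smul, coe_arithmeticGalois_smul]
    exact congrArg _ (N.coe_alpha p x)

theorem intertwines_phi (p : ℕ) [NeZero p] (d : (ZMod N.M)ˣ) (σ : GalQBar) :
    SemilinearAut.IntertwinesAlong (N.phi p d).toRingHom
      (arithmeticGalois (F0H N.M N.Δ) σ) (arithmeticGalois (F0H (N.up p).M (N.up p).Δ) σ) :=
  fun x => by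
    refine Subtype.ext ?_
    show _ = ((N.phi p d (arithmeticGalois (F0H N.M N.Δ) σ • x) :
      ↥(FBH (N.up p).M (N.up p).Δ)) : LaurentSeries Kb)
    rw [N.coe_phi, ← diamond_smul, coe_arithmeticGalois_smul, coe_arithmeticGalois_smul,
      ← coeffMap_qExpand]
    exact congrArg _ (N.coe_phi p d x)

theorem diaSA_commute (d : (ZMod N.M)ˣ) (σ : GalQBar) :
    arithmeticGalois (F0H N.M N.Δ) σ * diaSA N d =
      diaSA N d * arithmeticGalois (F0H N.M N.Δ) σ := by
  refine Subtype.ext (Prod.ext (RingEquiv.ext fun x => ?_) ?_)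
  · exact diamond_smul N d σ x
  · exact RingEquiv.ext fun _ => rfl

theorem smul_heckeHom (p : ℕ) [NeZero p] (d : (ZMod N.M)ˣ) (σ : GalQBar) (x : JH N.M N.Δ) :
    σ • heckeHom N p d x = heckeHom N p d (σ • x) := by
  rw [galois_smul_pic0_def, galois_smul_pic0_def]
  exact HeckeJ.pic0_correspondence_smul _ _ _ _ _ _ _ (intertwines_phi N p d σ)
    (intertwines_alpha N p σ) x

theorem actH_opJH' (σ : GalQBar) (i : OpIdx N.M) : Commute (actH N σ) (opJH N i) := by
  refine LinearMap.ext fun x => ?_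
  rcases i with p | d
  · haveI : NeZero (p.1 : ℕ) := ⟨p.1.2.ne_zero⟩
    exact smul_heckeHom N (p.1 : ℕ) (unitP N p) σ x
  · show arithmeticGalois (F0H N.M N.Δ) σ • (diaSA N d • x) =
      diaSA N d • (arithmeticGalois (F0H N.M N.Δ) σ • x)
    rw [← mul_smul, ← mul_smul, diaSA_commute]

variable {N}

theorem hasLevel_fnH (f : ↥(FBH N.M N.Δ)) :
    HasLevel fun σ => arithmeticGalois (F0H N.M N.Δ) σ • f = f := by
  obtain ⟨x, hx⟩ := f
  suffices h : HasLevel fun σ : Kb ≃ₐ[ℚ] Kb => coeffMap (σ : Kb →+* Kb) x = x from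
    h.mono fun σ hσ => Subtype.ext hσ
  induction hx using IntermediateField.adjoin_induction with
  | mem y hy =>
    obtain ⟨z, -, rfl⟩ := hy
    exact .of_forall fun σ => coeffMap_coeffEmb σ z
  | algebraMap a =>
    exact (HeckeJ.hasLevel_const a).mono fun σ h => by
      rw [coeffMap_algebraMap]
      exact congrArg _ h
  | add x y _ _ hx hy => exact (hx.and hy).mono fun σ h => by rw [map_add, h.1, h.2]
  | inv x _ hx => exact hx.mono fun σ h => by rw [map_inv₀, h]
  | mul x y _ _ hx hy => exact (hx.and hy).mono fun σ h => by rw [map_mul, h.1, h.2]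

theorem hasLevel_placeH (w : Place Kb ↥(FBH N.M N.Δ)) :
    HasLevel fun σ => arithmeticGalois (F0H N.M N.Δ) σ • w = w := by
  obtain ⟨f, hf⟩ : ∃ f : ↥(FBH N.M N.Δ), 0 < w.ord f := by
    by_cases h : w.ord (jBarH N.M N.Δ) < 0
    · exact ⟨(jBarH N.M N.Δ)⁻¹, by rw [w.ord_inv]; omega⟩
    · obtain ⟨c, hc | hc⟩ := RR.exists_const_ord_pos (not_lt.mp h)
      · exact absurd (hc ▸ isAlgebraic_algebraMap c) transcendental_jBarH
      · exact ⟨_, hc⟩
  have hfT : Transcendental Kb f := RR.transcendental_of_ord_ne_zero (v := w) (by omega)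
  have hS : ∀ u ∈ RR.zeros (K := Kb) f, RR.Bd u f 0 := fun u hu => by
    have := RR.mem_zeros.mp hu
    rw [RR.bd_iff]
    exact Or.inr (by omega)
  obtain ⟨π, -, hπ⟩ := HeckeJ.exists_unif hfT _ hS w
  have hw : w ∈ RR.zeros (K := Kb) f := RR.mem_zeros.mpr hf
  refine ((hasLevel_fnH f).and (hasLevel_fnH π)).mono fun σ h => ?_
  set g := arithmeticGalois (F0H N.M N.Δ) σ
  have h1 : (g • w).ord f = w.ord f := by
    conv_lhs => rw [← h.1]
    exact SemilinearAut.ord_smul g w f
  have h2 : (g • w).ord π = w.ord π := by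
    conv_lhs => rw [← h.2]
    exact SemilinearAut.ord_smul g w π
  have hmem : g • w ∈ RR.zeros (K := Kb) f := RR.mem_zeros.mpr (h1 ▸ hf)
  by_contra hne
  rw [(hπ _ hmem).2 hne, (hπ w hw).1 rfl] at h2
  omega

theorem hasLevel_divisorH (D : Divisor Kb ↥(FBH N.M N.Δ)) :
    HasLevel fun σ => arithmeticGalois (F0H N.M N.Δ) σ • D = D := by
  induction D using Finsupp.induction with
  | zero => exact .of_forall fun σ => smul_zero _
  | single_add w n D _ _ ih =>
    exact ((hasLevel_placeH w).and ih).mono fun σ h => by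
      rw [smul_add, SemilinearAut.smul_single, h.1, h.2]

theorem exists_levelH' (x : JH N.M N.Δ) : ∃ L : IntermediateField ℚ QBar, FiniteDimensional ℚ L ∧
    ∀ σ : GalQBar, (∀ y ∈ L, σ y = y) → actH N σ x = x := by
  obtain ⟨D, rfl⟩ := Pic0.mk_surjective x
  refine (hasLevel_divisorH (D : Divisor Kb ↥(FBH N.M N.Δ))).mono fun σ h => ?_
  rw [actH_apply, galois_smul_pic0_def, SemilinearAut.pic0_smul_mk]
  exact congrArg Pic0.mk (Subtype.ext h)

end FLTAgent.DS.Red

end
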