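import Fermat.Agent.DS.Red.Kronecker
import Fermat.Agent.DS.Red.Galois

/-!
`J_H`: the fields of `JacData` proved by parcel DS6 (owner: helper9).
-/

set_option autoImplicit false
set_option synthInstance.maxHeartbeats 200000
set_option linter.unusedSectionVars false

noncomputable section

open ModularCurve AlgebraicCurve
open scoped Pointwise
open FLTAgent.Chebotarev (QBar GalQBar)

namespace FLTAgent.DS.Red

variable (N : Lvl)

theorem actH_opJH (σ : GalQBar) (i : OpIdx N.M) : Commute (actH N σ) (opJH N i) :=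
  actH_opJH' N σ i

theorem exists_levelH (x : JH N.M N.Δ) : ∃ L : IntermediateField ℚ QBar, FiniteDimensional ℚ L ∧
    ∀ σ : GalQBar, (∀ y ∈ L, σ y = y) → actH N σ x = x :=
  exists_levelH' x

theorem inertiaH (p n : ℕ) (hp : p.Prime) (hpM : ¬ p ∣ N.M) (hn : 0 < n) (hpn : ¬ p ∣ n)
    (B : ValuationSubring QBar) (hB : B.LiesOverPrime p) (σ : GalQBar)
    (hσ : σ ∈ B.inertiaSubgroupIn ℚ) (x : JH N.M N.Δ) (hx : n • x = 0) : actH N σ x = x := by
  have C : Ctx B N p := ⟨hp, hpM, hB⟩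
  refine sub_eq_zero.mp (eq_zero_of_torsion C hpn ?_ ?_)
  · rw [nsmul_sub, ← map_nsmul (actH N σ), hx, map_zero, sub_zero]
  · rw [map_sub, actH_apply, redJ_inertia C hσ, sub_self]

theorem frobeniusH (p : Nat.Primes) (hp : ¬ (p : ℕ) ∣ N.M) (n : ℕ) (hn : 0 < n)
    (hpn : ¬ (p : ℕ) ∣ n) (B : ValuationSubring QBar) (hB : B.LiesOverPrime p) (σ : GalQBar)
    (hσ : B.IsFrobeniusAt σ p) (x : JH N.M N.Δ) (hx : n • x = 0) :
    actH N σ (actH N σ x) - opJH N (Sum.inl ⟨p, hp⟩) (actH N σ x) +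
      (p : ℕ) • opJH N (Sum.inr (ZMod.unitOfCoprime (p : ℕ)
        ((Nat.Prime.coprime_iff_not_dvd p.2).2 hp))) x = 0 := by
  have : NeZero (p : ℕ) := ⟨p.2.ne_zero⟩
  have C : Ctx B N (p : ℕ) := ⟨p.2, hp, hB⟩
  have hst := stable_frobK C hσ
  set u : (ZMod N.M)ˣ := unitP N ⟨p, hp⟩
  have hu : (u : ZMod N.M) = ((p : ℕ) : ZMod N.M) := coe_unitP N ⟨p, hp⟩
  refine eq_zero_of_torsion C hpn ?_ ?_
  · have e : n • ((p : ℕ) • opJH N (Sum.inr u) x) = 0 := by
      rw [smul_comm, ← map_nsmul (opJH N (Sum.inr u)), hx, map_zero, smul_zero]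
    rw [nsmul_add, nsmul_sub, ← map_nsmul (opJH N (Sum.inl ⟨p, hp⟩)), ← map_nsmul (actH N σ),
      ← map_nsmul (actH N σ), hx, map_zero, map_zero, map_zero, sub_zero, zero_add]
    exact e
  · have hT : opJH N (Sum.inl ⟨p, hp⟩) (actH N σ x) = actH N σ (heckeHom N (p : ℕ) u x) :=
      (LinearMap.congr_fun (actH_opJH N σ (Sum.inl ⟨p, hp⟩)) x).symm
    rw [hT, map_add, map_sub, map_nsmul, actH_apply, actH_apply, actH_apply,
      redJ_frobenius C hσ, redJ_frobenius C hσ, redJ_frobenius C hσ, redJ_hecke C hst hu,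
      opJH_inr, redJ_diaJ C, smul_add]
    rw [show fullAut hst • ((p : ℕ) • ((fullAut hst)⁻¹ • (diaSS C u • redJ C x))) =
        (p : ℕ) • (diaSS C u • redJ C x) from
      (map_nsmul (DistribSMul.toAddMonoidHom (Pic0 (FLTAgent.Reduction.kA B) (FS B N))
        (fullAut hst)) (p : ℕ) _).trans
        (congrArg ((p : ℕ) • ·) (smul_inv_smul (fullAut hst) _))]
    show _ - _ + (p : ℕ) • (diaSS C u • redJ C x) = 0
    abel

end FLTAgent.DS.Red

end
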