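import Fermat.Agent.DS.Red.Lvl
import Fermat.Agent.Genus.Cosets
import Fermat.Agent.ModFun.FunctionField
import Fermat.Agent.HeckeJ.Along

/-!
The degree of `X_{H'} → X_H` at a prime `ℓ ∤ M`, and the embedding `W` of `ℚ̄(X_{H'})` in `ℂ((q))`
with `W (α f) = f(q^ℓ)` and `W (φ f) = f`: the pull back by `τ ↦ δ (ℓ τ)`, `δ = (1 b; M ℓr)`.
-/

set_option autoImplicit false
set_option linter.unusedSectionVars false
set_option linter.style.haveILetI false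
set_option synthInstance.maxHeartbeats 100000

noncomputable section

open ModularCurve AlgebraicCurve UpperHalfPlane CongruenceSubgroup ModularForm
open scoped MatrixGroups Manifold

namespace FLTAgent.DS.Red

open Genus (embC)
open ModFun (qx dil scale aff)

local notation "Kb" => AlgebraicClosure ℚ

/-! ### indices -/

theorem index_Gamma0_eq (M : ℕ) [NeZero M] : (Gamma0 M).index = dedekindPsi M := by
  rw [Subgroup.index, ← Genus.card_cosetSpace M]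

theorem index_grpH_eq (M : ℕ) [NeZero M] (Δ : Subgroup (ZMod M)ˣ) :
    (grpH M Δ).index = dedekindPsi M * Δ.index := by
  rw [grpH, Subgroup.index_map_subtype, Subgroup.index_comap_of_surjective _ dHom_surjective',
    index_Gamma0_eq, mul_comm]

variable {N : Lvl} {ℓ : ℕ} [NeZero ℓ]

theorem index_up (hℓ : ℓ.Prime) (hℓN : ¬ ℓ ∣ N.M) :
    (grpH (N.up ℓ).M (N.up ℓ).Δ).index = (ℓ + 1) * (grpH N.M N.Δ).index := by
  haveI : NeZero (N.M * ℓ) := ⟨mul_ne_zero (NeZero.ne _) (NeZero.ne _)⟩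
  rw [index_grpH_eq N.M N.Δ]
  show (grpH (N.M * ℓ) (N.Δ.comap (ZMod.unitsMap (dvd_mul_right N.M ℓ)))).index = _
  rw [index_grpH_eq, Subgroup.index_comap_of_surjective _ (ZMod.unitsMap_surjective _),
    Genus.dedekindPsi_mul (Nat.coprime_comm.mp (hℓ.coprime_iff_not_dvd.mpr hℓN)),
    show dedekindPsi ℓ = ℓ + 1 by simpa using Genus.dedekindPsi_prime_pow hℓ one_pos]
  ring

theorem coe_alpha_jBarH : N.alpha ℓ (jBarH N.M N.Δ) = jBarH (N.up ℓ).M (N.up ℓ).Δ :=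
  Subtype.ext (N.coe_alpha ℓ _)

/-- the degree of `X_{H'} → X_H` -/
theorem finrankAlong_alpha (hℓ : ℓ.Prime) (hℓN : ¬ ℓ ∣ N.M) :
    finrankAlong Kb (N.alpha ℓ) = ℓ + 1 := by
  letI := algebraAlong (N.alpha ℓ)
  haveI := isScalarTower_along (N.alpha ℓ)
  show Module.finrank ↥(FBH N.M N.Δ) ↥(FBH (N.up ℓ).M (N.up ℓ).Δ) = ℓ + 1
  have h := HeckeJ.ndeg_algebraMap (K := Kb) (F := ↥(FBH N.M N.Δ))
    (F' := ↥(FBH (N.up ℓ).M (N.up ℓ).Δ)) (jBarH N.M N.Δ)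
  rw [show algebraMap ↥(FBH N.M N.Δ) ↥(FBH (N.up ℓ).M (N.up ℓ).Δ) (jBarH N.M N.Δ) =
      jBarH (N.up ℓ).M (N.up ℓ).Δ from coe_alpha_jBarH,
    ndeg_jBarH (N.up ℓ).neg_mem, ndeg_jBarH N.neg_mem, index_up hℓ hℓN, mul_comm] at h
  exact (Nat.eq_of_mul_eq_mul_left index_grpH_pos h).symm

/-! ### the matrix -/

/-- `δ = (1 b; M ℓr)` and `γ' = (ℓ b; M r)` -/
structure Atk (N : Lvl) (ℓ : ℕ) where
  /-- `δ` -/
  δ : SL(2, ℤ)
  /-- `γ'` -/
  g : Gamma0 N.M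
  δ00 : δ 0 0 = 1
  δ10 : δ 1 0 = N.M
  g00 : (g : SL(2, ℤ)) 0 0 = ℓ
  g01 : (g : SL(2, ℤ)) 0 1 = δ 0 1
  g10 : (g : SL(2, ℤ)) 1 0 = N.M
  δ11 : δ 1 1 = ℓ * (g : SL(2, ℤ)) 1 1

theorem nonempty_atk (hℓ : ℓ.Prime) (hℓN : ¬ ℓ ∣ N.M) : Nonempty (Atk N ℓ) := by
  obtain ⟨r, b, h⟩ : IsCoprime (ℓ : ℤ) (N.M : ℤ) :=
    Nat.isCoprime_iff_coprime.mpr (hℓ.coprime_iff_not_dvd.mpr hℓN)
  let δ : SL(2, ℤ) := ⟨!![1, -b; (N.M : ℤ), (ℓ : ℤ) * r], by
    simp [Matrix.det_fin_two]; linear_combination h⟩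
  let g : SL(2, ℤ) := ⟨!![(ℓ : ℤ), -b; (N.M : ℤ), r], by
    simp [Matrix.det_fin_two]; linear_combination h⟩
  exact ⟨⟨δ, ⟨g, by rw [Gamma0_mem]; simp [g]⟩, by simp [δ], by simp [δ], by simp [g],
    by simp [g, δ], by simp [g], by simp [g, δ]⟩⟩

namespace Atk

variable (T : Atk N ℓ)

theorem det_g : (ℓ : ℤ) * (T.g : SL(2, ℤ)) 1 1 - T.δ 0 1 * (N.M : ℤ) = 1 := by
  have h := (T.g : SL(2, ℤ)).prop
  rw [Matrix.det_fin_two] at h
  rw [← T.g00, ← T.g01, ← T.g10]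
  exact h

theorem dHom_g_mul (u : (ZMod N.M)ˣ) (hu : (u : ZMod N.M) = ℓ) : dHom N.M T.g * u = 1 := by
  refine Units.ext ?_
  rw [Units.val_mul, coe_dHom, hu, Units.val_one]
  have h := congrArg (fun z : ℤ => (z : ZMod N.M)) T.det_g
  push_cast at h
  rw [ZMod.natCast_self, mul_zero, sub_zero, mul_comm] at h
  exact h

theorem mem_grp : T.δ ∈ grpH N.M N.Δ := by
  refine mem_grpH.mpr ⟨by rw [Gamma0_mem, T.δ10]; simp, ?_⟩
  convert one_mem N.Δ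
  refine Units.ext ?_
  rw [coe_dHom, Units.val_one]
  show ((T.δ 1 1 : ℤ) : ZMod N.M) = 1
  have h := congrArg (fun z : ℤ => (z : ZMod N.M)) T.det_g
  push_cast at h
  rw [ZMod.natCast_self, mul_zero, sub_zero] at h
  rw [T.δ11]
  push_cast
  exact h

theorem conj_mem : T.δ * ModularGroup.T ^ (ℓ : ℤ) * T.δ⁻¹ ∈ grpH (N.up ℓ).M (N.up ℓ).Δ := by
  refine Gamma1_le_grpH ?_
  rw [Gamma1_mem]
  show ((((T.δ * ModularGroup.T ^ (ℓ : ℤ) * T.δ⁻¹) 0 0 : ℤ) : ZMod (N.M * ℓ)) = 1) ∧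
    (((T.δ * ModularGroup.T ^ (ℓ : ℤ) * T.δ⁻¹) 1 1 : ℤ) : ZMod (N.M * ℓ)) = 1 ∧
    (((T.δ * ModularGroup.T ^ (ℓ : ℤ) * T.δ⁻¹) 1 0 : ℤ) : ZMod (N.M * ℓ)) = 0
  have hdet := T.δ.prop
  rw [Matrix.det_fin_two, T.δ00, T.δ10] at hdet
  have e : ∀ i j, (T.δ * ModularGroup.T ^ (ℓ : ℤ) * T.δ⁻¹) i j =
      !![1 - (ℓ : ℤ) * N.M, (ℓ : ℤ); -((ℓ : ℤ) * N.M * N.M), 1 + (ℓ : ℤ) * N.M] i j := by
    intro i j
    rw [Matrix.SpecialLinearGroup.coe_mul, Matrix.SpecialLinearGroup.coe_mul,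
      Matrix.SpecialLinearGroup.coe_inv, ModularGroup.coe_T_zpow, Matrix.adjugate_fin_two,
      T.δ00, T.δ10]
    fin_cases i <;> fin_cases j <;>
      simp [Matrix.mul_apply, Fin.sum_univ_two, T.δ00, T.δ10] <;>
      first
        | ring1
        | linear_combination hdet
  have hz : ((ℓ : ZMod (N.M * ℓ)) * (N.M : ZMod (N.M * ℓ))) = 0 := by
    rw [mul_comm, ← Nat.cast_mul, ZMod.natCast_self]
  refine ⟨?_, ?_, ?_⟩ <;> rw [e] <;> simp [hz]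

/-- `(F|δ)(ℓτ)` -/
def wFn (w : ℤ) (F : ℍ → ℂ) : ℍ → ℂ := dil ℓ (F ∣[w] T.δ)

theorem wFn_mul {w w' : ℤ} (F G : ℍ → ℂ) : T.wFn (w + w') (F * G) = T.wFn w F * T.wFn w' G := by
  rw [wFn, ModularForm.mul_slash_SL2]
  rfl

theorem wFn_add {w : ℤ} (F G : ℍ → ℂ) : T.wFn w (F + G) = T.wFn w F + T.wFn w G := by
  rw [wFn, SlashAction.add_slash]
  rfl

theorem good_wFn {w : ℤ} {F : ℍ → ℂ} (hF : IsMFH (N.up ℓ).M (N.up ℓ).Δ w F) :
    ModFun.Good (T.wFn w F) where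
  per := ModFun.periodic_ofComplex_of fun z hz hz' => by
    set τ : ℍ := ⟨z, hz⟩
    have hinv : (F ∣[w] T.δ) ∣[w] (ModularGroup.T ^ (ℓ : ℤ)) = F ∣[w] T.δ := by
      rw [← SlashAction.slash_mul,
        show T.δ * ModularGroup.T ^ (ℓ : ℤ) = (T.δ * ModularGroup.T ^ (ℓ : ℤ) * T.δ⁻¹) * T.δ by group,
        SlashAction.slash_mul, hF.inv _ T.conj_mem]
    have e : scale ℓ (⟨z + 1, hz'⟩ : ℍ) = ModularGroup.T ^ (ℓ : ℤ) • scale ℓ τ := by
      ext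
      rw [UpperHalfPlane.modular_T_zpow_smul]
      simp [ModFun.coe_scale, τ]
      ring
    have h := congrFun hinv (scale ℓ τ)
    rw [SL_slash_apply, ← e] at h
    have hd : denom ((ModularGroup.T ^ (ℓ : ℤ) : SL(2, ℤ)) : GL (Fin 2) ℝ)
        ((scale ℓ τ : ℍ) : ℂ) = 1 := by
      rw [ModularGroup.denom_apply, ModularGroup.coe_T_zpow]; simp
    rw [hd, one_zpow, mul_one] at h
    exact h
  holo := ModFun.mdiff_dil (ModFun.mdiff_slash hF.holo _ _) ℓ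
  bdd := (hF.bdd T.δ).comp_tendsto (ModFun.tendsto_aff ℓ 0 1)

/-- the expansion of `(F|δ)(ℓτ)` -/
def wNum (w : ℤ) (F : ℍ → ℂ) : LaurentSeries ℂ :=
  HahnSeries.ofPowerSeries ℤ ℂ (qx (T.wFn w F))

theorem wNum_mul {w w' : ℤ} {F G : ℍ → ℂ} (hF : IsMFH (N.up ℓ).M (N.up ℓ).Δ w F)
    (hG : IsMFH (N.up ℓ).M (N.up ℓ).Δ w' G) :
    T.wNum (w + w') (F * G) = T.wNum w F * T.wNum w' G := by
  rw [wNum, wFn_mul, ModFun.Good.qx_mul (T.good_wFn hF) (T.good_wFn hG), map_mul]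
  rfl

theorem wNum_ne_zero {w : ℤ} {F : ℍ → ℂ} (hF : IsMFH (N.up ℓ).M (N.up ℓ).Δ w F) (h0 : F ≠ 0) :
    T.wNum w F ≠ 0 := fun h => by
  rw [wNum, map_eq_zero_iff _ HahnSeries.ofPowerSeries_injective] at h
  have h1 : T.wFn w F = 0 := ModFun.Good.qx_inj (T.good_wFn hF) ModFun.Good.zero
    (h.trans (qExpansion_zero 1).symm)
  have h2 : F ∣[w] T.δ = 0 := funext fun τ => by
    have h3 := congrFun h1 (aff 1 0 ℓ τ)
    rw [wFn, dil, show scale ℓ (aff 1 0 ℓ τ) = τ from UpperHalfPlane.ext (by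
      rw [ModFun.coe_scale, ModFun.coe_aff]
      have : (ℓ : ℂ) ≠ 0 := Nat.cast_ne_zero.mpr (NeZero.ne ℓ)
      field_simp
      simp)] at h3
    exact h3
  apply h0
  have := congrArg (fun f => f ∣[w] (T.δ)⁻¹) h2
  simpa [← SlashAction.slash_mul] using this

theorem exists_quot (x : ↥(FBH (N.up ℓ).M (N.up ℓ).Δ)) :
    ∃ w F G, IsQuotH (N.up ℓ).M (N.up ℓ).Δ (x : LaurentSeries Kb) w F G :=
  exists_isQuotH x.2

/-- `W` as a function -/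
def wMap (x : ↥(FBH (N.up ℓ).M (N.up ℓ).Δ)) : LaurentSeries ℂ :=
  T.wNum (exists_quot x).choose (exists_quot x).choose_spec.choose /
    T.wNum (exists_quot x).choose (exists_quot x).choose_spec.choose_spec.choose

theorem wMap_eq {x : ↥(FBH (N.up ℓ).M (N.up ℓ).Δ)} {w : ℤ} {F G : ℍ → ℂ}
    (h : IsQuotH (N.up ℓ).M (N.up ℓ).Δ (x : LaurentSeries Kb) w F G) :
    T.wMap x = T.wNum w F / T.wNum w G := by
  rw [wMap]
  generalize (exists_quot x).choose_spec.choose_spec.choose_spec = h'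
  generalize (exists_quot x).choose_spec.choose_spec.choose = G' at h' ⊢
  generalize (exists_quot x).choose_spec.choose = F' at h' ⊢
  generalize (exists_quot x).choose = w' at h' ⊢
  have e0 : HahnSeries.ofPowerSeries ℤ ℂ (qx (F' * G)) =
      HahnSeries.ofPowerSeries ℤ ℂ (qx (F * G')) := by
    rw [ModFun.Good.qx_mul h'.num.good h.den.good, ModFun.Good.qx_mul h.num.good h'.den.good,
      map_mul, map_mul, ← h'.eq, ← h.eq]
    ring
  have e1 : F' * G = F * G' := ModFun.Good.qx_inj (h'.num.good.mul h.den.good)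
    (h.num.good.mul h'.den.good) (HahnSeries.ofPowerSeries_injective e0)
  rw [div_eq_div_iff (T.wNum_ne_zero h'.den h'.den_ne) (T.wNum_ne_zero h.den h.den_ne),
    ← T.wNum_mul h'.num h.den, ← T.wNum_mul h.num h'.den, e1, add_comm]

/-- `W` -/
def wHom : ↥(FBH (N.up ℓ).M (N.up ℓ).Δ) →+* LaurentSeries ℂ where
  toFun := T.wMap
  map_one' := by
    have h : IsQuotH (N.up ℓ).M (N.up ℓ).Δ
        ((1 : ↥(FBH (N.up ℓ).M (N.up ℓ).Δ)) : LaurentSeries Kb) 0 ((1 : ℂ) • 1) 1 := by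
      show IsQuotC _ _ (coeffMap embC ((1 : ↥(FBH (N.up ℓ).M (N.up ℓ).Δ)) : LaurentSeries Kb)) _ _ _
      rw [OneMemClass.coe_one, map_one, ← map_one (algebraMap ℂ (LaurentSeries ℂ))]
      exact IsQuotC.const 1
    rw [T.wMap_eq h, one_smul, div_self]
    exact T.wNum_ne_zero h.den h.den_ne
  map_mul' x y := by
    obtain ⟨w, F, G, h⟩ := exists_quot x
    obtain ⟨w', F', G', h'⟩ := exists_quot y
    have h2 : IsQuotH (N.up ℓ).M (N.up ℓ).Δ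
        ((x * y : ↥(FBH (N.up ℓ).M (N.up ℓ).Δ)) : LaurentSeries Kb) (w + w') (F * F') (G * G') := by
      show IsQuotC _ _ (coeffMap embC _) _ _ _
      rw [MulMemClass.coe_mul, map_mul]
      exact h.mul h'
    rw [T.wMap_eq h, T.wMap_eq h', T.wMap_eq h2, T.wNum_mul h.num h'.num, T.wNum_mul h.den h'.den,
      mul_div_mul_comm]
  map_zero' := by
    have h : IsQuotH (N.up ℓ).M (N.up ℓ).Δ
        ((0 : ↥(FBH (N.up ℓ).M (N.up ℓ).Δ)) : LaurentSeries Kb) 0 0 1 := by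
      show IsQuotC _ _ (coeffMap embC ((0 : ↥(FBH (N.up ℓ).M (N.up ℓ).Δ)) : LaurentSeries Kb)) _ _ _
      rw [ZeroMemClass.coe_zero, map_zero, ← map_zero (algebraMap ℂ (LaurentSeries ℂ)),
        ← zero_smul ℂ (1 : ℍ → ℂ)]
      exact IsQuotC.const 0
    rw [T.wMap_eq h, wNum, show T.wFn 0 (0 : ℍ → ℂ) = 0 by
      rw [wFn, SlashAction.zero_slash]; rfl, show qx (0 : ℍ → ℂ) = 0 from qExpansion_zero 1,
      map_zero, zero_div]
  map_add' x y := by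
    obtain ⟨w, F, G, h⟩ := exists_quot x
    obtain ⟨w', F', G', h'⟩ := exists_quot y
    have h2 : IsQuotH (N.up ℓ).M (N.up ℓ).Δ
        ((x + y : ↥(FBH (N.up ℓ).M (N.up ℓ).Δ)) : LaurentSeries Kb) (w + w')
        (F * G' + G * F') (G * G') := by
      show IsQuotC _ _ (coeffMap embC _) _ _ _
      rw [AddMemClass.coe_add, map_add]
      exact h.add h'
    rw [T.wMap_eq h, T.wMap_eq h', T.wMap_eq h2, T.wNum_mul h.den h'.den,
      div_add_div _ _ (T.wNum_ne_zero h.den h.den_ne) (T.wNum_ne_zero h'.den h'.den_ne),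
      ← T.wNum_mul h.num h'.den, ← T.wNum_mul h.den h'.num, wNum, wFn_add,
      ModFun.Good.qx_add (T.good_wFn (h.num.mul h'.den)) (T.good_wFn (h.den.mul h'.num)), map_add]
    rfl

theorem wHom_apply (x : ↥(FBH (N.up ℓ).M (N.up ℓ).Δ)) : T.wHom x = T.wMap x := rfl

theorem wHom_alpha (x : ↥(FBH N.M N.Δ)) :
    T.wHom (N.alpha ℓ x) = qExpand ℂ ℓ (coeffMap embC (x : LaurentSeries Kb)) := by
  obtain ⟨w, F, G, h⟩ := exists_isQuotH x.2
  have h2 : IsQuotH (N.up ℓ).M (N.up ℓ).Δ (N.alpha ℓ x : LaurentSeries Kb) w F G := by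
    rw [N.coe_alpha]
    exact h.mono (N.grpH_up_le ℓ)
  have key : ∀ {F : ℍ → ℂ}, IsMFH N.M N.Δ w F → T.wNum w F =
      qExpand ℂ ℓ (HahnSeries.ofPowerSeries ℤ ℂ (qx F)) := fun {F} hF => by
    rw [wNum, wFn, hF.inv _ T.mem_grp, qx_dil_series hF.good]
  rw [wHom_apply, T.wMap_eq h2, key h.num, key h.den, ← map_div₀, ← h.eq, mul_div_assoc,
    div_self (h.den.qx_ne_zero h.den_ne), mul_one]

theorem wHom_beta (x : ↥(FBH N.M N.Δ)) :
    T.wHom (N.beta ℓ x) =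
      coeffMap embC (diamond N.neg_mem (dHom N.M T.g) x : LaurentSeries Kb) := by
  obtain ⟨w, F, G, h⟩ := exists_isQuotH x.2
  have h2 : IsQuotH (N.up ℓ).M (N.up ℓ).Δ (N.beta ℓ x : LaurentSeries Kb) w (dil ℓ F) (dil ℓ G) := by
    show IsQuotC _ _ (coeffMap embC _) _ _ _
    rw [N.coe_beta, ModFun.coeffMap_qExpand]
    exact h.dilate ℓ (mul_comm ℓ N.M ▸ dvd_rfl : ℓ * N.M ∣ N.M * ℓ) (fun _ hu => hu)
  have h3 := isQuotH_diamond N.neg_mem T.g x w F G h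
  have key : ∀ F : ℍ → ℂ, T.wFn w (dil ℓ F) = ((ℓ : ℂ) ^ (-w)) • (F ∣[w] (T.g : SL(2, ℤ))) := by
    intro F
    funext τ
    rw [wFn, dil, dil_slash F w ℓ T.δ T.g 1 0 ℓ (by rw [T.δ00, T.g00]; simp)
      (by rw [T.g00, T.g01]; ring) (by rw [T.δ10, T.g10]; simp)
      (by rw [T.δ11]; ring) (scale ℓ τ)]
    rw [show aff 1 0 ℓ (scale ℓ τ) = τ from UpperHalfPlane.ext (by
      rw [ModFun.coe_aff, ModFun.coe_scale]
      have : (ℓ : ℂ) ≠ 0 := Nat.cast_ne_zero.mpr (NeZero.ne ℓ)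
      field_simp
      simp)]
    rfl
  have hℓ0 : ((ℓ : ℂ) ^ (-w)) ≠ 0 := zpow_ne_zero _ (Nat.cast_ne_zero.mpr (NeZero.ne ℓ))
  rw [wHom_apply, T.wMap_eq h2, wNum, wNum, key, key, ModFun.Good.qx_smul _ h3.num.good,
    ModFun.Good.qx_smul _ h3.den.good, PowerSeries.smul_eq_C_mul, PowerSeries.smul_eq_C_mul,
    map_mul, map_mul, ← h3.eq, HahnSeries.ofPowerSeries_C]
  rw [mul_div_mul_left _ _ ((_root_.map_ne_zero _).mpr hℓ0), mul_div_assoc,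
    div_self (h3.den.qx_ne_zero h3.den_ne), mul_one]

theorem wHom_phi {u : (ZMod N.M)ˣ} (hu : (u : ZMod N.M) = ℓ) (x : ↥(FBH N.M N.Δ)) :
    T.wHom (N.phi ℓ u x) = coeffMap embC (x : LaurentSeries Kb) := by
  show T.wHom (N.beta ℓ (diamond N.neg_mem u x)) = _
  rw [T.wHom_beta, ← AlgEquiv.mul_apply, ← map_mul, T.dHom_g_mul u hu, map_one, AlgEquiv.one_apply]

end Atk

end FLTAgent.DS.Red
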