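import Fermat.Agent.DS.Red.Lattice

/-!
Arbitrarily precise approximate roots in both charts give a global section.
-/

set_option autoImplicit false
set_option linter.unusedSectionVars false
set_option synthInstance.maxHeartbeats 100000

noncomputable section

open ModularCurve AlgebraicCurve Polynomial IsLocalRing
open FLTAgent.RR (Bd KK)

namespace FLTAgent.DS.Red

open FLTAgent.Reduction

variable {A : ValuationSubring Qb} {N : Lvl} {ℓ : ℕ}

theorem bd_not {P : PB N} {s : Bool} (h : ¬ Bd P (tB N s) 0) : Bd P (tB N (!s)) 0 := by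
  rw [tB_not]; exact (bd_inv_of_not_bd h).mono (by norm_num)

/-- clearing the poles of the coordinate -/
theorem exists_pow_mem_Lat (s : Bool) (D : Divisor Qb (FB N)) {y : FB N}
    (hy : ∀ P : PB N, Bd P (tB N s) 0 → Bd P (tB N (!s)) 0 → Bd P y (-D P)) :
    ∃ n : ℕ, tB N s ^ n * y ∈ Lat s D := by
  classical
  rcases eq_or_ne y 0 with rfl | hy0
  · exact ⟨0, by simpa using zero_mem (Lat s D)⟩
  set S := (dv y).support ∪ D.support with hS
  refine ⟨∑ P ∈ S, (D P - P.ord y).toNat, mem_Lat.mpr fun P hP => ?_⟩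
  have ht := tB_ne_zero N s
  rw [RR.bd_iff_ord (mul_ne_zero (pow_ne_zero _ ht) hy0), P.ord_mul (pow_ne_zero _ ht) hy0,
    RR.ord_pow, neg_neg]
  have hP' := (RR.bd_iff_ord ht).mp hP
  rcases eq_or_lt_of_le (show 0 ≤ P.ord (tB N s) by omega) with h0 | hpos
  · have h1 : Bd P (tB N (!s)) 0 := by
      rw [tB_not]; exact RR.bd_iff.mpr (Or.inr (by rw [P.ord_inv]; omega))
    have h2 := (RR.bd_iff_ord hy0).mp (hy P hP h1)
    rw [← h0, mul_zero, zero_add]
    omega
  · have h3 : ((∑ P' ∈ S, (D P' - P'.ord y).toNat : ℕ) : ℤ) ≤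
        ((∑ P' ∈ S, (D P' - P'.ord y).toNat : ℕ) : ℤ) * P.ord (tB N s) :=
      le_mul_of_one_le_right (by positivity) (by omega)
    by_cases hPS : P ∈ S
    · have h1 : (D P - P.ord y).toNat ≤ ∑ P' ∈ S, (D P' - P'.ord y).toNat :=
        Finset.single_le_sum (f := fun P' => (D P' - P'.ord y).toNat) (fun i _ => Nat.zero_le _) hPS
      have h2 := Int.self_le_toNat (D P - P.ord y)
      have h4 : ((D P - P.ord y).toNat : ℤ) ≤ ((∑ P' ∈ S, (D P' - P'.ord y).toNat : ℕ) : ℤ) := by
        exact_mod_cast h1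
      linarith
    · simp only [hS, Finset.mem_union, Finsupp.mem_support_iff, not_or, not_not, dv_apply] at hPS
      rw [hPS.1, hPS.2]
      linarith [mul_nonneg (show (0 : ℤ) ≤ ((∑ P' ∈ S, (D P' - P'.ord y).toNat : ℕ) : ℤ) by positivity)
        hpos.le]

/-- `p ↦ ∑ pᵢ(t) bᵢ`, linearly -/
def lcHom (s : Bool) {ι : Type*} [Fintype ι] (b : ι → FB N) : (ι → Qb[X]) →ₗ[Qb] FB N where
  toFun := lc s b
  map_add' p q := by
    simp only [lc, Pi.add_apply, map_add, add_mul, Finset.sum_add_distrib]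
  map_smul' c p := by
    simp only [lc, Pi.smul_apply, map_smul, RingHom.id_apply, Finset.smul_sum, smul_mul_assoc]

/-- multiplication of the coefficients by `Xⁿ` -/
theorem lc_X_pow_mul (s : Bool) {ι : Type*} [Fintype ι] (b : ι → FB N) (p : ι → Qb[X]) (n : ℕ) :
    lc s b (fun i => Polynomial.X ^ n * p i) = tB N s ^ n * lc s b p := by
  simp only [lc, Finset.mul_sum, map_mul, map_pow, aeval_X, mul_assoc]

variable (C : Ctx A N ℓ)
include C

set_option maxHeartbeats 1600000 in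
theorem exists_nonzero_section {D : Divisor Qb (FB N)} {n₀ : ℕ}
    (hD0 : ∀ P : PB N, Bd P (tB N false) 0 → 0 ≤ D P)
    (hD1 : ∀ P : PB N, Bd P (tB N true) 0 → 0 ≤ D P + n₀ * P.ord (tB N true))
    {φ : FS A N} (hφ0 : φ ≠ 0)
    (happrox : ∀ a : Qb, a ≠ 0 → ∃ x₀ x₁ : FB N, x₀ ∈ Lat false D ∧ x₁ ∈ Lat true D ∧
      x₀ ∈ GR A N ∧ red A N x₀ = φ ∧ Sm A a (x₀ - x₁)) :
    ∃ h : FB N, h ≠ 0 ∧ h ∈ Lat false D ∧ h ∈ Lat true D := by
  classical
  by_contra hno
  push Not at hno
  obtain ⟨r, b, γ₀, hγ₀, hb, hbspan, hbinj, hbbd⟩ :=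
    exists_lattice_basis C false D 0 (fun P hP => by simpa using hD0 P hP)
  obtain ⟨q, β, γ₁, hγ₁, hβ, hβspan, hβinj, hβbd⟩ := exists_lattice_basis C true D n₀ hD1
  have hboth : ∀ i, ∀ P : PB N, Bd P (tB N true) 0 → Bd P (tB N (!true)) 0 →
      Bd P (b i) (-D P) := fun i P _ h => mem_Lat.mp (hb i) P h
  choose ni hni using fun i => exists_pow_mem_Lat true D (hboth i)
  set n := ∑ i, ni i with hn
  have hbn : ∀ i, tB N true ^ n * b i ∈ Lat true D := by
    intro i
    obtain ⟨k, hk⟩ : ∃ k, n = k + ni i := ⟨n - ni i, by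
      have : ni i ≤ n := Finset.single_le_sum (f := ni) (fun j _ => Nat.zero_le _) (Finset.mem_univ i)
      omega⟩
    rw [hk, pow_add, mul_assoc]
    exact regOn_mul_mem_Lat (Subalgebra.pow_mem _ (self_mem_regOn _) _) (hni i)
  -- bounded sizes of the basis
  obtain ⟨cb, hcb, hcbb⟩ : ∃ cb : Qb, cb ≠ 0 ∧ ∀ i, Sm A cb (b i) := by
    have hne : ∀ i, b i ≠ 0 := by
      intro i h0
      have h2 : lc false b (Pi.single i 1) = lc false b 0 := by
        simp [lc, Pi.single_apply, h0, apply_ite (Polynomial.aeval (R := Qb) (tB N false))]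
      exact absurd (show (1 : Qb[X]) = 0 by simpa using congrFun (hbinj h2) i) one_ne_zero
    choose c u hc hu he using fun i => exists_scale_UG C (hne i)
    by_cases hr : (Finset.univ : Finset (Fin r)).Nonempty
    · obtain ⟨i₀, -, hmax⟩ := Finset.univ.exists_max_image (fun i => A.valuation (c i)) hr
      exact ⟨c i₀, hc i₀, fun i =>
        (show Sm A (c i) (b i) from ⟨u i, (hu i).1, he i⟩).mono (hmax i (Finset.mem_univ i))⟩
    · exact ⟨1, one_ne_zero, fun i => absurd ⟨i, Finset.mem_univ i⟩ hr⟩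
  -- the finite space of global sections of the twist
  set Φ := lcHom (N := N) true β with hΦ
  set V : Submodule Qb (FB N) :=
    Lat false D ⊓ (Lat true D).comap (LinearMap.mulLeft Qb (tB N true ^ n)) with hV
  set W : Submodule Qb (Fin q → Qb[X]) :=
    Submodule.comap Φ (Submodule.map (LinearMap.mulLeft Qb (tB N true ^ n)) V) with hW
  set π : (Fin q → Qb[X]) →ₗ[Qb] (Fin q × Fin n → Qb) :=
    { toFun := fun p x => (p x.1).coeff x.2
      map_add' := fun p p' => by funext x; simp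
      map_smul' := fun c p => by funext x; simp } with hπ
  have hker : LinearMap.ker (π.comp W.subtype) = ⊥ := by
    rw [LinearMap.ker_eq_bot']
    rintro ⟨p, hp⟩ h
    obtain ⟨v, hv, hvp⟩ := hp
    have hdiv : ∀ i, ∃ p' : Qb[X], p i = Polynomial.X ^ n * p' := fun i => by
      obtain ⟨p', hp'⟩ : Polynomial.X ^ n ∣ p i := Polynomial.X_pow_dvd_iff.mpr fun d hd => by
        simpa [hπ] using congrFun h (i, ⟨d, hd⟩)
      exact ⟨p', hp'⟩
    choose p' hp' using hdiv
    have hv' : v = lc true β p' := by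
      refine mul_left_cancel₀ (pow_ne_zero n (tB_ne_zero N true)) ?_
      rw [← lc_X_pow_mul, ← funext hp']
      exact hvp
    have hv1 : v ∈ Lat true D := by
      rw [hv', lc]
      refine Submodule.sum_mem _ fun i _ => regOn_mul_mem_Lat ?_ (hβ i)
      exact Algebra.adjoin_le (Set.singleton_subset_iff.mpr (self_mem_regOn _))
        (Polynomial.aeval_mem_adjoin_singleton Qb _)
    have hv0 : v = 0 := by
      by_contra h0
      exact hno v h0 hv.1 hv1
    have hp0 : p = 0 := hβinj (by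
      show Φ p = Φ 0
      rw [← hvp, hv0, map_zero, map_zero])
    exact Subtype.ext hp0
  obtain ⟨L, hL⟩ := (π.comp W.subtype).exists_leftInverse_of_injective hker
  set g : Fin q × Fin n → FB N :=
    fun x => Φ ((L (Pi.single x 1)) : Fin q → Qb[X]) * tB N false ^ n with hg
  obtain ⟨cg, hcg, hcgg⟩ : ∃ cg : Qb, cg ≠ 0 ∧ ∀ x, Sm A cg (g x) := by
    have hsc : ∀ y : FB N, ∃ c : Qb, c ≠ 0 ∧ Sm A c y := by
      intro y
      rcases eq_or_ne y 0 with rfl | hy
      · exact ⟨1, one_ne_zero, Sm_zero 1⟩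
      · obtain ⟨c, u, hc, hu, rfl⟩ := exists_scale_UG C hy
        exact ⟨c, hc, u, hu.1, rfl⟩
    choose c hc hcs using fun x => hsc (g x)
    by_cases hr : (Finset.univ : Finset (Fin q × Fin n)).Nonempty
    · obtain ⟨i₀, -, hmax⟩ := Finset.univ.exists_max_image (fun i => A.valuation (c i)) hr
      exact ⟨c i₀, hc i₀, fun i => (hcs i).mono (hmax i (Finset.mem_univ i))⟩
    · exact ⟨1, one_ne_zero, fun i => absurd ⟨i, Finset.mem_univ i⟩ hr⟩
  -- the precision
  obtain ⟨a, ha0, ha1, ha2⟩ : ∃ a : Qb, a ≠ 0 ∧ A.valuation (a * γ₀ * cb) < 1 ∧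
      A.valuation (a * γ₀ * cb * γ₁ * cg) < 1 := by
    set v := A.valuation
    have hℓ1 := valuation_ell_lt_one A C.lies
    have hℓ0 : (ℓ : Qb) ≠ 0 := Nat.cast_ne_zero.mpr C.prime.ne_zero
    have h1 : γ₀ * cb ≠ 0 := mul_ne_zero hγ₀ hcb
    have h2 : γ₀ * cb * γ₁ * cg ≠ 0 := mul_ne_zero (mul_ne_zero h1 hγ₁) hcg
    obtain ⟨k₁, hk₁⟩ := exists_pow_le A C.prime C.lies hℓ1 (inv_ne_zero h1)
    obtain ⟨k₂, hk₂⟩ := exists_pow_le A C.prime C.lies hℓ1 (inv_ne_zero h2)
    refine ⟨(ℓ : Qb) ^ (max k₁ k₂ + 1), pow_ne_zero _ hℓ0, ?_, ?_⟩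
    · rw [mul_assoc, map_mul, map_pow, pow_succ']
      calc v ℓ * v ℓ ^ max k₁ k₂ * v (γ₀ * cb) ≤ v ℓ * v (γ₀ * cb)⁻¹ * v (γ₀ * cb) :=
            mul_le_mul_left (mul_le_mul_right
              ((pow_le_pow_of_le_one zero_le hℓ1.le (le_max_left _ _)).trans hk₁) _) _
        _ = v ℓ := by rw [mul_assoc, ← map_mul, inv_mul_cancel₀ h1, map_one, mul_one]
        _ < 1 := hℓ1
    · rw [show (ℓ : Qb) ^ (max k₁ k₂ + 1) * γ₀ * cb * γ₁ * cg =
          (ℓ : Qb) ^ (max k₁ k₂ + 1) * (γ₀ * cb * γ₁ * cg) by ring, map_mul, map_pow, pow_succ']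
      calc v ℓ * v ℓ ^ max k₁ k₂ * v (γ₀ * cb * γ₁ * cg)
          ≤ v ℓ * v (γ₀ * cb * γ₁ * cg)⁻¹ * v (γ₀ * cb * γ₁ * cg) :=
            mul_le_mul_left (mul_le_mul_right
              ((pow_le_pow_of_le_one zero_le hℓ1.le (le_max_right _ _)).trans hk₂) _) _
        _ = v ℓ := by rw [mul_assoc, ← map_mul, inv_mul_cancel₀ h2, map_one, mul_one]
        _ < 1 := hℓ1
  obtain ⟨x₀, x₁, hx₀, hx₁, hx₀G, hx₀r, hd⟩ := happrox a ha0
  -- decompose the difference
  obtain ⟨M, hM⟩ := exists_pow_mem_Lat false D (y := x₀ - x₁) (fun P h0 h1 =>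
    (mem_Lat.mp hx₀ P h0).sub (mem_Lat.mp hx₁ P h1))
  obtain ⟨p, hp⟩ := hbspan _ hM
  have hsmp : Sm A a (lc false b p) := by
    rw [hp, mul_comm]
    exact hd.mul_mem (pow_mem (tB_mem false) M)
  have hcoef := hbbd p a hsmp
  -- high and low part
  set hi : Fin r → Qb[X] := fun i =>
    ∑ k ∈ Finset.range ((p i).natDegree + 1), if M ≤ k then
      Polynomial.C ((p i).coeff k) * Polynomial.X ^ (k - M) else 0 with hhi
  set lo : FB N := ∑ i, ∑ k ∈ Finset.range ((p i).natDegree + 1), if k < M then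
      cB N ((p i).coeff k) * (tB N true ^ (M - k) * b i) else 0 with hlo
  have hsplit : x₀ - x₁ = lc false b hi + lo := by
    refine mul_left_cancel₀ (pow_ne_zero M (tB_ne_zero N false)) ?_
    rw [← hp, hlo, lc, lc, mul_add, Finset.mul_sum, Finset.mul_sum, ← Finset.sum_add_distrib]
    refine Finset.sum_congr rfl fun i _ => ?_
    conv_lhs => rw [(p i).as_sum_range_C_mul_X_pow]
    rw [hhi, map_sum, map_sum, Finset.sum_mul, Finset.sum_mul, Finset.mul_sum, Finset.mul_sum,
      ← Finset.sum_add_distrib]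
    refine Finset.sum_congr rfl fun k _ => ?_
    have hj := tB_ne_zero N false
    have ht : tB N true = (tB N false)⁻¹ := by simpa using tB_not N false
    by_cases hk : M ≤ k
    · rw [if_pos hk, if_neg (not_lt.mpr hk), mul_zero, add_zero, map_mul, map_mul, map_pow, map_pow,
        aeval_C, aeval_X, show tB N false ^ k = tB N false ^ M * tB N false ^ (k - M) by
          rw [← pow_add]; congr 1; omega]
      ring
    · rw [if_neg hk, if_pos (not_le.mp hk), map_zero, zero_mul, mul_zero, zero_add, map_mul,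
        map_pow, aeval_C, aeval_X, ht, inv_pow,
        show tB N false ^ M = tB N false ^ (M - k) * tB N false ^ k by
          rw [← pow_add]; congr 1; omega]
      field_simp
  have hcb' : A.valuation (cb : Qb) ≠ 0 := (Valuation.ne_zero_iff _).mpr hcb
  have hsmall : ∀ i k, ∀ w ∈ GR A N, Sm A (a * γ₀ * cb) (cB N ((p i).coeff k) * (w * b i)) := by
    intro i k w hw
    have h1 := ((hcbb i).mul_mem hw).const_mul ((p i).coeff k)
    rw [mul_comm (b i) w] at h1
    refine h1.mono ?_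
    rw [map_mul, map_mul _ (a * γ₀)]
    exact mul_le_mul_left (hcoef i k) _
  have hhism : Sm A (a * γ₀ * cb) (lc false b hi) := by
    refine Sm.sum _ _ fun i _ => ?_
    rw [hhi, map_sum, Finset.sum_mul]
    refine Sm.sum _ _ fun k _ => ?_
    split_ifs with h
    · rw [map_mul, map_pow, aeval_C, aeval_X, mul_assoc (algebraMap Qb (FB N) _)]
      exact hsmall i k _ (pow_mem (tB_mem false) _)
    · rw [map_zero, zero_mul]; exact Sm_zero _
  have hlosm : Sm A (a * γ₀ * cb) lo := by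
    refine Sm.sum _ _ fun i _ => Sm.sum _ _ fun k _ => ?_
    split_ifs with h
    · exact hsmall i k _ (pow_mem (tB_mem true) _)
    · exact Sm_zero _
  set x := x₀ - lc false b hi with hx
  have hxr : red A N x = φ := by
    rw [hx, red_sub C hx₀G (hhism.mem_GR ha1.le), hx₀r, hhism.red_eq_zero C ha1, sub_zero]
  have hx1 : x = x₁ + lo := by rw [hx, eq_add_of_sub_eq' hsplit]; abel
  have hlo1 : tB N true ^ n * lo ∈ Lat true D := by
    rw [hlo, Finset.mul_sum]
    refine Submodule.sum_mem _ fun i _ => ?_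
    rw [Finset.mul_sum]
    refine Submodule.sum_mem _ fun k _ => ?_
    split_ifs with h
    · rw [show tB N true ^ n * (cB N ((p i).coeff k) * (tB N true ^ (M - k) * b i)) =
        (cB N ((p i).coeff k) * tB N true ^ (M - k)) * (tB N true ^ n * b i) by ring]
      exact regOn_mul_mem_Lat (Subalgebra.mul_mem _ ((regOn Qb (tB N true)).algebraMap_mem _)
        (Subalgebra.pow_mem _ (self_mem_regOn _) _)) (hbn i)
    · rw [mul_zero]; exact zero_mem _
  have hxV : x ∈ V := by
    refine ⟨?_, ?_⟩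
    · refine Submodule.sub_mem _ hx₀ (Submodule.sum_mem _ fun i _ => regOn_mul_mem_Lat ?_ (hb i))
      exact Algebra.adjoin_le (Set.singleton_subset_iff.mpr (self_mem_regOn _))
        (Polynomial.aeval_mem_adjoin_singleton Qb _)
    · show tB N true ^ n * x ∈ Lat true D
      rw [hx1, mul_add]
      exact add_mem (regOn_mul_mem_Lat (Subalgebra.pow_mem _ (self_mem_regOn _) _) hx₁) hlo1
  obtain ⟨p₁, hp₁⟩ := hβspan x₁ hx₁
  obtain ⟨p₂, hp₂⟩ := hβspan _ hlo1
  set w : Fin q → Qb[X] := (fun i => Polynomial.X ^ n * p₁ i) + p₂ with hw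
  have hwx : Φ w = tB N true ^ n * x := by
    rw [hw, map_add, hx1, mul_add, ← hp₁, ← hp₂, ← lc_X_pow_mul]
    rfl
  have hwW : w ∈ W := ⟨x, hxV, hwx.symm⟩
  have hπw : ∀ y, π w y = (p₂ y.1).coeff y.2 := by
    intro y
    show (w y.1).coeff y.2 = _
    rw [hw]
    rw [Pi.add_apply, Polynomial.coeff_add, Polynomial.coeff_X_pow_mul']
    have := y.2.isLt
    rw [if_neg (by omega), zero_add]
  have hp₂sm : Sm A (a * γ₀ * cb) (lc true β p₂) := by
    rw [hp₂, mul_comm (tB N true ^ n)]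
    exact hlosm.mul_mem (pow_mem (tB_mem true) n)
  have hwL : w = ∑ y, π w y • ((L (Pi.single y 1)) : Fin q → Qb[X]) := by
    have h1 : L (π w) = ⟨w, hwW⟩ := LinearMap.congr_fun hL ⟨w, hwW⟩
    have h2 : π w = ∑ y, π w y • (Pi.single y (1 : Qb) : Fin q × Fin n → Qb) := by
      funext z
      simp [Finset.sum_apply, Pi.single_apply]
    rw [h2, map_sum] at h1
    simp only [map_smul] at h1
    have h3 := congrArg Subtype.val h1
    rw [AddSubmonoidClass.coe_finset_sum] at h3
    exact h3.symm.trans (by simp only [SetLike.val_smul])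
  have hxsm : Sm A (a * γ₀ * cb * γ₁ * cg) x := by
    have hxe : x = ∑ y, cB N (π w y) * g y := by
      refine mul_left_cancel₀ (pow_ne_zero n (tB_ne_zero N true)) ?_
      rw [← hwx]
      conv_lhs => rw [hwL]
      rw [map_sum, Finset.mul_sum]
      refine Finset.sum_congr rfl fun y _ => ?_
      rw [map_smul, Algebra.smul_def, hg]
      have ht : tB N true = (tB N false)⁻¹ := by simpa using tB_not N false
      have hj := tB_ne_zero N false
      rw [ht, inv_pow]
      field_simp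
    rw [hxe]
    refine Sm.sum _ _ fun y _ => ((hcgg y).const_mul (π w y)).mono ?_
    rw [map_mul, map_mul _ _ cg, hπw]
    exact mul_le_mul_left (hβbd p₂ _ hp₂sm y.1 y.2) _
  exact hφ0 (hxr.symm.trans (hxsm.red_eq_zero C ha2))

end FLTAgent.DS.Red
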