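import Fermat.Agent.DS.Red.Pic
import Fermat.Agent.Reduction.Twist

/-!
The action of Frobenius on the special fibre, and compatibility of the reduction with the Galois
action.
-/

set_option autoImplicit false
set_option linter.unusedSectionVars false
set_option synthInstance.maxHeartbeats 200000

noncomputable section

open ModularCurve AlgebraicCurve IsLocalRing
open scoped Pointwise

namespace FLTAgent.DS.Red

open FLTAgent.Reduction

/-- `σ` induces `τ` on the residue field -/
def Induces (A : ValuationSubring Qb) (σ : Qb ≃ₐ[ℚ] Qb) (τ : kA A ≃+* kA A) : Prop :=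
  ∀ a : A, ∃ h : σ (a : Qb) ∈ A, residue A ⟨σ a, h⟩ = τ (residue A a)

theorem induces_of_smul {A : ValuationSubring Qb} {σ : Qb ≃ₐ[ℚ] Qb}
    (hσ : σ ∈ A.decompositionSubgroup ℚ) {τ : kA A ≃+* kA A}
    (h : ∀ r, (⟨σ, hσ⟩ : A.decompositionSubgroup ℚ) • r = τ r) : Induces A σ τ := fun a => by
  have h1 := h (residue A a)
  rw [← IsLocalRing.ResidueField.residue_smul] at h1
  exact ⟨((⟨σ, hσ⟩ : A.decompositionSubgroup ℚ) • a).2, h1⟩

section Full

variable {A : ValuationSubring Qb} {N : Lvl}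

/-- `τ` maps the special fibre onto itself -/
structure Stable (A : ValuationSubring Qb) (N : Lvl) (τ : kA A ≃+* kA A) : Prop where
  map : ∀ x ∈ FSH N.M N.Δ A, coeffMap (τ : kA A →+* kA A) x ∈ FSH N.M N.Δ A
  map_symm : ∀ x ∈ FSH N.M N.Δ A, coeffMap (τ.symm : kA A →+* kA A) x ∈ FSH N.M N.Δ A

theorem stable_of_smul {σ : Qb ≃ₐ[ℚ] Qb} (hσ : σ ∈ A.decompositionSubgroup ℚ)
    {τ : kA A ≃+* kA A} (h : ∀ r, (⟨σ, hσ⟩ : A.decompositionSubgroup ℚ) • r = τ r) :
    Stable A N τ where
  map _ hx := coeffMap_mem_FSH A σ τ (induces_of_smul hσ h) hx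
  map_symm _ hx := coeffMap_mem_FSH A σ⁻¹ τ.symm (induces_of_smul (inv_mem hσ) fun r => by
    have h1 := h (((⟨σ, hσ⟩ : A.decompositionSubgroup ℚ))⁻¹ • r)
    rw [smul_inv_smul] at h1
    show (⟨σ, hσ⟩ : A.decompositionSubgroup ℚ)⁻¹ • r = _
    conv_rhs => rw [h1, RingEquiv.symm_apply_apply]) hx

variable {τ : kA A ≃+* kA A} (hτ : Stable A N τ)

/-- the ring automorphism of the special fibre function field given by an automorphism of constants -/
def fullRingAut : FS A N ≃+* FS A N where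
  toFun x := ⟨coeffMap (τ : kA A →+* kA A) (x : LaurentSeries (kA A)), hτ.map _ x.2⟩
  invFun x := ⟨coeffMap (τ.symm : kA A →+* kA A) (x : LaurentSeries (kA A)), hτ.map_symm _ x.2⟩
  left_inv x := Subtype.ext <| by
    show coeffMap _ (coeffMap _ (x : LaurentSeries (kA A))) = (x : LaurentSeries (kA A))
    rw [coeffMap_coeffMap, coeffMap_congr (g := RingHom.id (kA A))
      (RingHom.ext fun a => τ.symm_apply_apply a) (x : LaurentSeries (kA A)), coeffMap_id]
  right_inv x := Subtype.ext <| by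
    show coeffMap _ (coeffMap _ (x : LaurentSeries (kA A))) = (x : LaurentSeries (kA A))
    rw [coeffMap_coeffMap, coeffMap_congr (g := RingHom.id (kA A))
      (RingHom.ext fun a => τ.apply_symm_apply a) (x : LaurentSeries (kA A)), coeffMap_id]
  map_mul' x y := Subtype.ext (map_mul (coeffMap (τ : kA A →+* kA A)) _ _)
  map_add' x y := Subtype.ext (map_add (coeffMap (τ : kA A →+* kA A)) _ _)

/-- as a semilinear automorphism -/
def fullAut : SemilinearAut (kA A) (FS A N) :=
  ⟨(fullRingAut hτ, τ), fun a => Subtype.ext (by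
    show coeffMap (τ : kA A →+* kA A) (algebraMap (kA A) (LaurentSeries (kA A)) a) =
      algebraMap (kA A) (LaurentSeries (kA A)) (τ a)
    rw [algebraMap_laurentSeries_eq_single, algebraMap_laurentSeries_eq_single, coeffMap_single]
    rfl)⟩

theorem coe_fullAut_smul (x : FS A N) :
    ((fullAut hτ • x : FS A N) : LaurentSeries (kA A)) =
      coeffMap (τ : kA A →+* kA A) (x : LaurentSeries (kA A)) := rfl

theorem coe_fullAut_inv_smul (x : FS A N) :
    (((fullAut hτ)⁻¹ • x : FS A N) : LaurentSeries (kA A)) =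
      coeffMap (τ.symm : kA A →+* kA A) (x : LaurentSeries (kA A)) := rfl

theorem fullAut_refl (h : Stable A N (RingEquiv.refl (kA A))) : fullAut h = 1 :=
  Subtype.ext (Prod.ext (RingEquiv.ext fun x => Subtype.ext
    ((coeffMap_congr (g := RingHom.id (kA A)) (RingHom.ext fun _ => rfl) _).trans (coeffMap_id _))) rfl)

end Full

section Divisors

variable {K F : Type*} [Field K] [Field F] [Algebra K F]

/-- the divisor of the image function -/
theorem smul_divisor_eq_ord (g : SemilinearAut K F) {E : Divisor K F} {f : F}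
    (hE : ∀ P, E P = P.ord f) (w : Place K F) : (g • E) w = w.ord (g • f) := by
  rw [SemilinearAut.divisor_smul_apply, hE]
  have h := SemilinearAut.ord_smul g (g⁻¹ • w) f
  rw [smul_inv_smul] at h
  exact h.symm

end Divisors

variable {A : ValuationSubring Qb} {N : Lvl} {ℓ : ℕ} (C : Ctx A N ℓ)
include C

set_option maxHeartbeats 1000000 in
/-- the reduction of places commutes with the Galois action, on divisors of degree zero -/
theorem mapDomain_rP_smul {σ : Qb ≃ₐ[ℚ] Qb} {τ : kA A ≃+* kA A} (hσ : Induces A σ τ)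
    (hτ : Stable A N τ) (D : Divisor Qb (FB N)) (hD : Divisor.degree D = 0) :
    Finsupp.mapDomain (rP C) (arithmeticGalois (F0H N.M N.Δ) σ • D) =
      fullAut hτ • Finsupp.mapDomain (rP C) D := by
  classical
  set g := arithmeticGalois (F0H N.M N.Δ) σ with hg
  set Φ := fullAut hτ with hΦ
  set r : Divisor Qb (FB N) →+ Divisor (kA A) (FS A N) := Finsupp.mapDomain.addMonoidHom (rP C)
  set E0 : Divisor Qb (FB N) →+ (PS A N →₀ ℤ) :=
    r.comp (DistribSMul.toAddMonoidHom _ g) -
      (DistribSMul.toAddMonoidHom (Divisor (kA A) (FS A N)) Φ).comp r with hΔ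
  have happ : ∀ D, E0 D =
      Finsupp.mapDomain (rP C) (g • D) - Φ • Finsupp.mapDomain (rP C) D := fun D => rfl
  let σA : A →+* A :=
    { toFun := fun a => ⟨σ (a : Qb), (hσ a).1⟩
      map_one' := Subtype.ext (map_one σ)
      map_mul' := fun a b => Subtype.ext (map_mul σ _ _)
      map_zero' := Subtype.ext (map_zero σ)
      map_add' := fun a b => Subtype.ext (map_add σ _ _) }
  have hint : ∀ E ∈ IntPD A N, E0 E = 0 := by
    rintro E ⟨f, hfT, hfU, rfl⟩
    obtain ⟨y, x, hy, hx, -⟩ := exists_series_BT C false hfT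
    have hr : red A N f = x := Subtype.ext (by rw [coe_red C hfU.1, redS_series hy, hx])
    have h1 : up A (coeffMap σA y) = ((g • f : FB N) : LaurentSeries Qb) := by
      rw [coe_arithmeticGalois_smul, ← hy]
      simp only [up, coeffMap_coeffMap]
      exact coeffMap_congr (RingHom.ext fun _ => rfl) y
    have h2 : red A N (g • f) = Φ • red A N f := by
      refine Subtype.ext ?_
      rw [coe_red C (mem_GR_of_series h1), redS_series h1, coe_fullAut_smul, hr, hx]
      simp only [dn, coeffMap_coeffMap]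
      exact coeffMap_congr (RingHom.ext fun a => (hσ a).2) y
    have hU : UG A N (g • f) :=
      ⟨mem_GR_of_series h1, by rw [h2]; exact (smul_ne_zero_iff_ne Φ).mpr hfU.2⟩
    rw [happ, sub_eq_zero]
    refine Finsupp.ext fun Q => ?_
    rw [show g • dv f = dv (g • f) from Finsupp.ext fun P => by
        rw [dv_apply, smul_divisor_eq_ord g (dv_apply f)],
      mapDomain_rP_dv C hU, h2, smul_divisor_eq_ord Φ (mapDomain_rP_dv C hfU)]
  have hp : ∀ E ∈ Divisor.principal (K := Qb) (F := FB N), E0 E = 0 := fun E hE =>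
    (AddSubgroup.closure_le E0.ker).mpr hint (principalGenerated C hE)
  have h := eq_zero_of_bounded E0 hp 2 (fun P Q => by
    rw [happ, SemilinearAut.smul_single, Finsupp.mapDomain_single, Finsupp.mapDomain_single,
      SemilinearAut.smul_single, Finsupp.sub_apply]
    refine (abs_sub _ _).trans ?_
    simp only [Finsupp.single_apply]
    split_ifs <;> simp) D hD
  rwa [happ, sub_eq_zero] at h

/-- reduction is equivariant -/
theorem redJ_smul {σ : Qb ≃ₐ[ℚ] Qb} {τ : kA A ≃+* kA A} (hσ : Induces A σ τ)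
    (hτ : Stable A N τ) (x : JH N.M N.Δ) : redJ C (σ • x) = fullAut hτ • redJ C x := by
  obtain ⟨D, rfl⟩ := Pic0.mk_surjective x
  rw [galois_smul_pic0_def, SemilinearAut.pic0_smul_mk, redJ_mk C,
    redJ_mk C, SemilinearAut.pic0_smul_mk]
  exact congrArg Pic0.mk (Subtype.ext (mapDomain_rP_smul C hσ hτ D.1 (Divisor.mem_degZero.mp D.2)))

/-- Frobenius of the residue field -/
def frobK : kA A ≃+* kA A :=
  haveI := Fact.mk C.prime
  haveI := charP_residue A C.prime C.lies
  RingEquiv.ofBijective (frobenius (kA A) ℓ) ⟨frobenius_inj (kA A) ℓ, fun y =>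
    IsAlgClosed.exists_pow_nat_eq y C.prime.pos⟩

theorem frobK_apply (x : kA A) : frobK C x = x ^ ℓ := rfl

theorem smul_eq_frobK {σ : Qb ≃ₐ[ℚ] Qb} (hσ : A.IsFrobeniusAt σ ℓ) (r : kA A) :
    (⟨σ, hσ.mem_decompositionSubgroup⟩ : A.decompositionSubgroup ℚ) • r = frobK C r :=
  (hσ.smul_residue_eq r).trans (frobK_apply C r).symm

theorem stable_frobK {σ : Qb ≃ₐ[ℚ] Qb} (hσ : A.IsFrobeniusAt σ ℓ) : Stable A N (frobK C) :=
  stable_of_smul hσ.mem_decompositionSubgroup (smul_eq_frobK C hσ)

theorem redJ_frobenius {σ : Qb ≃ₐ[ℚ] Qb} (hσ : A.IsFrobeniusAt σ ℓ) (x : JH N.M N.Δ) :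
    redJ C (σ • x) = fullAut (stable_frobK C hσ) • redJ C x :=
  redJ_smul C (induces_of_smul hσ.mem_decompositionSubgroup (smul_eq_frobK C hσ)) _ x

theorem redJ_inertia {σ : Qb ≃ₐ[ℚ] Qb} (hσ : σ ∈ A.inertiaSubgroupIn ℚ) (x : JH N.M N.Δ) :
    redJ C (σ • x) = redJ C x := by
  obtain ⟨s, hs, rfl⟩ := Subgroup.mem_map.mp hσ
  have h0 : MulSemiringAction.toRingAut (A.decompositionSubgroup ℚ) (kA A) s = 1 :=
    MonoidHom.mem_ker.mp hs
  have h1 : ∀ r : kA A, s • r = RingEquiv.refl (kA A) r := fun r =>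
    congrArg (fun e : RingAut (kA A) => e r) h0
  show redJ C ((s : Qb ≃ₐ[ℚ] Qb) • x) = _
  rw [redJ_smul C (induces_of_smul s.2 h1) (stable_of_smul s.2 h1) x, fullAut_refl, one_smul]

end FLTAgent.DS.Red
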