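import Fermat.Agent.DS.Red.Setup

/-!
The Gauss valuation on `ℚ̄(X_H)` and its reduction map to the special fibre.
-/

set_option autoImplicit false
set_option linter.unusedSectionVars false
set_option synthInstance.maxHeartbeats 100000

noncomputable section

open ModularCurve AlgebraicCurve Polynomial IsLocalRing
open FLTAgent.RR (Bd KK)

namespace FLTAgent.DS.Red

open FLTAgent.Reduction

variable (A : ValuationSubring Qb) (N : Lvl)

/-- constants -/
abbrev cB (c : Qb) : FB N := algebraMap Qb (FB N) c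

theorem coe_cB (c : Qb) :
    ((cB N c : FB N) : LaurentSeries Qb) = HahnSeries.single 0 c := by
  rw [← algebraMap_laurentSeries_eq_single]
  rfl

theorem coe_cB_A (a : A) :
    ((cB N (a : Qb) : FB N) : LaurentSeries Qb) = up A (HahnSeries.single 0 a) := by
  rw [coe_cB, coeffMap_single]
  rfl

theorem dn_one : dn A 1 ≠ 0 := by rw [map_one]; exact one_ne_zero

/-- the Gauss valuation ring -/
def GR : Subring (FB N) where
  carrier := {y | ∃ G H : LaurentSeries A, dn A H ≠ 0 ∧ (y : LaurentSeries Qb) * up A H = up A G}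
  mul_mem' := by
    rintro y z ⟨G, H, hH, h⟩ ⟨G', H', hH', h'⟩
    refine ⟨G * G', H * H', by rw [map_mul]; exact mul_ne_zero hH hH', ?_⟩
    rw [map_mul, map_mul, ← h, ← h', MulMemClass.coe_mul]
    ring
  one_mem' := ⟨1, 1, dn_one A, by simp⟩
  add_mem' := by
    rintro y z ⟨G, H, hH, h⟩ ⟨G', H', hH', h'⟩
    refine ⟨G * H' + G' * H, H * H', by rw [map_mul]; exact mul_ne_zero hH hH', ?_⟩
    rw [map_mul, map_add, map_mul, map_mul, ← h, ← h', AddMemClass.coe_add]
    ring
  zero_mem' := ⟨0, 1, dn_one A, by simp⟩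
  neg_mem' := by
    rintro y ⟨G, H, hH, h⟩
    refine ⟨-G, H, hH, ?_⟩
    rw [map_neg, ← h]
    simp

open scoped Classical in
/-- reduction of a Gauss integral element -/
def redS (y : FB N) : LaurentSeries (kA A) :=
  if h : y ∈ GR A N then dn A h.choose / dn A h.choose_spec.choose else 0

open scoped Classical in
/-- reduction, in the function field of the special fibre -/
def red (y : FB N) : FS A N :=
  if h : redS A N y ∈ (FSH N.M N.Δ A) then ⟨redS A N y, h⟩ else 0

/-- Gauss units -/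
def UG (y : FB N) : Prop := y ∈ GR A N ∧ red A N y ≠ 0

variable {A N}

theorem mem_GR_of_series {y : FB N} {G : LaurentSeries A} (h : up A G = (y : LaurentSeries Qb)) :
    y ∈ GR A N :=
  ⟨G, 1, dn_one A, by rw [map_one, mul_one, h]⟩

theorem redS_eq {y : FB N} {G H : LaurentSeries A} (hH : dn A H ≠ 0)
    (h : (y : LaurentSeries Qb) * up A H = up A G) : redS A N y = dn A G / dn A H := by
  have hy : y ∈ GR A N := ⟨G, H, hH, h⟩
  rw [redS, dif_pos hy]
  have key : ∀ G' H' : LaurentSeries A, dn A H' ≠ 0 →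
      (y : LaurentSeries Qb) * up A H' = up A G' → dn A G' / dn A H' = dn A G / dn A H := by
    intro G' H' hH' h'
    rw [div_eq_div_iff hH' hH, ← map_mul, ← map_mul]
    congr 1
    refine toBar_injective A ?_
    show up A _ = up A _
    rw [map_mul, map_mul, ← h, ← h']
    ring
  exact key _ _ hy.choose_spec.choose_spec.1 hy.choose_spec.choose_spec.2

theorem redS_series {y : FB N} {G : LaurentSeries A} (h : up A G = (y : LaurentSeries Qb)) :
    redS A N y = dn A G := by
  rw [redS_eq (dn_one A) (G := G) (by rw [map_one, mul_one, h]), map_one, div_one]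

theorem redS_mul {y z : FB N} (hy : y ∈ GR A N) (hz : z ∈ GR A N) :
    redS A N (y * z) = redS A N y * redS A N z := by
  obtain ⟨G, H, hH, h⟩ := hy
  obtain ⟨G', H', hH', h'⟩ := hz
  rw [redS_eq hH h, redS_eq hH' h', redS_eq (G := G * G') (H := H * H')
    (by rw [map_mul]; exact mul_ne_zero hH hH')
    (by rw [map_mul, map_mul, ← h, ← h', MulMemClass.coe_mul]; ring), map_mul, map_mul,
    mul_div_mul_comm]

theorem redS_add {y z : FB N} (hy : y ∈ GR A N) (hz : z ∈ GR A N) :
    redS A N (y + z) = redS A N y + redS A N z := by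
  obtain ⟨G, H, hH, h⟩ := hy
  obtain ⟨G', H', hH', h'⟩ := hz
  rw [redS_eq hH h, redS_eq hH' h', redS_eq (G := G * H' + G' * H) (H := H * H')
    (by rw [map_mul]; exact mul_ne_zero hH hH')
    (by rw [map_mul, map_add, map_mul, map_mul, ← h, ← h', AddMemClass.coe_add]; ring),
    map_add, map_mul, map_mul, map_mul, div_add_div _ _ hH hH', mul_comm (dn A H) (dn A G')]

theorem redS_one : redS A N 1 = 1 := by
  rw [redS_series (G := 1) (by simp), map_one]

theorem redS_zero : redS A N 0 = 0 := by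
  rw [redS_series (G := 0) (by simp), map_zero]

theorem cB_mem {a : Qb} (ha : a ∈ A) : cB N a ∈ GR A N :=
  mem_GR_of_series (coe_cB_A A N ⟨a, ha⟩).symm

theorem redS_cB (a : A) :
    redS A N (cB N (a : Qb)) = algebraMap (kA A) (LaurentSeries (kA A)) (residue A a) := by
  rw [redS_series (coe_cB_A A N a).symm, coeffMap_single, algebraMap_laurentSeries_eq_single]

theorem tB_mem (s : Bool) : tB N s ∈ GR A N :=
  mem_GR_of_series (y := tB N s) (G := tA A s) (up_tA A N s)

theorem redS_tB (s : Bool) : redS A N (tB N s) = (tS A N s : LaurentSeries (kA A)) := by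
  rw [redS_series (y := tB N s) (G := tA A s) (up_tA A N s), dn_tA A N]

theorem phiA_mem (s : Bool) (p : A[X]) : phiA A N s p ∈ GR A N := by
  induction p using Polynomial.induction_on' with
  | add p q hp hq => rw [map_add]; exact add_mem hp hq
  | monomial n a =>
      rw [← Polynomial.C_mul_X_pow_eq_monomial, map_mul, map_pow]
      refine mul_mem ?_ (pow_mem ?_ n)
      · simpa [phiA] using cB_mem (N := N) a.2
      · simpa [phiA] using tB_mem (A := A) (N := N) s

theorem redS_phiA (s : Bool) (p : A[X]) :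
    redS A N (phiA A N s p) =
      ((Polynomial.aeval (tS A N s) (p.map (residue A)) : FS A N) : LaurentSeries (kA A)) := by
  induction p using Polynomial.induction_on' with
  | add p q hp hq =>
      rw [map_add, redS_add (phiA_mem s p) (phiA_mem s q), hp, hq, Polynomial.map_add, map_add]
      rfl
  | monomial n a =>
      have hX : phiA A N s Polynomial.X = tB N s := by simp [phiA]
      have hC : phiA A N s (Polynomial.C a) = cB N (a : Qb) := by simp [phiA]
      have hpow : ∀ m : ℕ, redS A N (tB N s ^ m) = (tS A N s : LaurentSeries (kA A)) ^ m := by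
        intro m
        induction m with
        | zero => simp [redS_one]
        | succ m ih => rw [pow_succ, redS_mul (pow_mem (tB_mem s) m) (tB_mem s), ih, redS_tB, pow_succ]
      rw [← Polynomial.C_mul_X_pow_eq_monomial, map_mul, map_pow, hX, hC,
        redS_mul (cB_mem a.2) (pow_mem (tB_mem s) n), redS_cB, hpow, Polynomial.map_mul,
        Polynomial.map_pow, Polynomial.map_C, Polynomial.map_X, map_mul, map_pow, aeval_C,
        aeval_X]
      rfl

/-- scale a family of polynomials so that the coefficients are integral, one being a unit -/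
theorem exists_normalize {ι : Type*} [Fintype ι] (p : ι → Qb[X]) (hp : ∃ i, p i ≠ 0) :
    ∃ (γ : Qb) (P : ι → A[X]), γ ≠ 0 ∧
      (∀ i, Polynomial.C γ * (P i).map A.subtype = p i) ∧ ∃ i, (P i).map (residue A) ≠ 0 := by
  classical
  obtain ⟨i, hi⟩ := hp
  set s : Finset ((_ : ι) × ℕ) := Finset.univ.sigma fun i => (p i).support with hs
  obtain ⟨i₀, hi₀, hne, hdiv⟩ := exists_max A s (fun x => (p x.1).coeff x.2)
    ⟨⟨i, (p i).natDegree⟩, by
      simp only [hs, Finset.mem_sigma, Finset.mem_univ, true_and, Polynomial.mem_support_iff]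
      exact Polynomial.leadingCoeff_ne_zero.mpr hi, Polynomial.leadingCoeff_ne_zero.mpr hi⟩
  set γ := (p i₀.1).coeff i₀.2 with hγ
  have hall : ∀ i n, (p i).coeff n / γ ∈ A := by
    intro i n
    by_cases h : (p i).coeff n = 0
    · rw [h, zero_div]; exact A.zero_mem
    · exact hdiv ⟨i, n⟩ (by simp [hs, h])
  have hlift : ∀ i, ∃ P : A[X], P.map A.subtype = Polynomial.C γ⁻¹ * p i := by
    intro i
    refine (Polynomial.mem_lifts _).mp ((Polynomial.lifts_iff_coeff_lifts _).mpr fun n => ?_)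
    refine ⟨⟨_, hall i n⟩, ?_⟩
    rw [Polynomial.coeff_C_mul]
    exact div_eq_inv_mul _ _
  choose P hP using hlift
  refine ⟨γ, P, hne, fun i => ?_, i₀.1, fun h => ?_⟩
  · rw [hP, ← mul_assoc, ← Polynomial.C_mul, mul_inv_cancel₀ hne, map_one, one_mul]
  · have h1 := congrArg (fun q => Polynomial.coeff q i₀.2) h
    simp only [Polynomial.coeff_map, Polynomial.coeff_zero] at h1
    have h2 : ((P i₀.1).coeff i₀.2 : Qb) = 1 := by
      have := congrArg (fun q => Polynomial.coeff q i₀.2) (hP i₀.1)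
      simp only [Polynomial.coeff_map, Polynomial.coeff_C_mul] at this
      rw [← hγ, inv_mul_cancel₀ hne] at this
      exact this
    have h3 : (P i₀.1).coeff i₀.2 = 1 := Subtype.ext h2
    rw [h3, map_one] at h1
    exact one_ne_zero h1

variable {ℓ : ℕ} (C : Ctx A N ℓ)
include C

/-- elements of a chart reduce into the chart of the special fibre -/
theorem exists_series_BT (s : Bool) {b : FB N} (hb : BT A N s b) :
    ∃ (G : LaurentSeries A) (x : FS A N), up A G = (b : LaurentSeries Qb) ∧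
      (x : LaurentSeries (kA A)) = dn A G ∧ BS A N s x := by
  cases s
  · obtain ⟨G, hG, hx⟩ := exists_series_of_inFinH A C.prime C.not_dvd C.lies N.neg_mem
      ((BT_fin_iff A N b).mp hb)
    exact ⟨G, ⟨_, hx.1⟩, hG, rfl, (BS_fin_iff A N _).mpr hx⟩
  · obtain ⟨G, hG, hx⟩ := exists_series_of_inInfH A C.prime C.not_dvd C.lies N.neg_mem
      ((BT_inf_iff A N b).mp hb)
    exact ⟨G, ⟨_, hx.1⟩, hG, rfl, (BS_inf_iff A N _).mpr hx⟩

theorem BT.mem_GR {s : Bool} {b : FB N} (hb : BT A N s b) : b ∈ GR A N := by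
  obtain ⟨G, x, hG, -, -⟩ := exists_series_BT C s hb
  exact mem_GR_of_series hG

theorem BT.redS_mem {s : Bool} {b : FB N} (hb : BT A N s b) :
    redS A N b ∈ (FSH N.M N.Δ A) := by
  obtain ⟨G, x, hG, hx, -⟩ := exists_series_BT C s hb
  rw [redS_series hG, ← hx]
  exact x.2

theorem exists_lift_BS (s : Bool) {x : FS A N} (hx : BS A N s x) :
    ∃ b : FB N, BT A N s b ∧ redS A N b = (x : LaurentSeries (kA A)) := by
  cases s
  · obtain ⟨G, hG, hGx⟩ := exists_lift_inFinResH A C.prime C.not_dvd C.lies N.neg_mem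
      ((BS_fin_iff A N x).mp hx)
    exact ⟨⟨_, hG.1⟩, (BT_fin_iff A N _).mpr hG,
      (redS_series (y := ⟨_, hG.1⟩) (G := G) rfl).trans hGx⟩
  · obtain ⟨G, hG, hGx⟩ := exists_lift_inInfResH A C.prime C.not_dvd C.lies N.neg_mem
      ((BS_inf_iff A N x).mp hx)
    exact ⟨⟨_, hG.1⟩, (BT_inf_iff A N _).mpr hG,
      (redS_series (y := ⟨_, hG.1⟩) (G := G) rfl).trans hGx⟩

/-- lifts of a basis of the special chart -/
theorem exists_basis : ∃ e : Fin (idx N) → FB N, (∀ i, BT A N false (e i)) ∧
    ∀ P : Fin (idx N) → A[X], ∑ i, redS A N (phiA A N false (P i) * e i) = 0 →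
      ∀ i, (P i).map (residue A) = 0 := by
  haveI := finite_tS C false
  haveI := separable_tS C false
  obtain ⟨f, hf, hind⟩ : ∃ f : Fin (idx N) → FS A N, (∀ i, BS A N false (f i)) ∧
      ∀ p : Fin (idx N) → (kA A)[X],
        ∑ i, Polynomial.aeval (tS A N false) (p i) * f i = 0 → ∀ i, p i = 0 := by
    refine with_sepChart (transcendental_tS A N false) ?_
    intro _ _ _ _ _ _ hp hxv hn
    rw [ndeg_tS C false] at hn
    set b := RR.Chart.bA (kA A) (FS A N)
    obtain ⟨eq⟩ : Nonempty (Fin (idx N) ≃ RR.Chart.Idx (kA A) (FS A N)) :=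
      ⟨(Fintype.equivFinOfCardEq (by
        rw [← Module.finrank_eq_card_chooseBasisIndex, RR.Chart.finrank_A, hn])).symm⟩
    refine ⟨fun i => (b (eq i) : FS A N), fun i => ?_, fun p hsum i => ?_⟩
    · show (Polynomial.aeval (R := kA A) (tS A N false)).toRingHom.IsIntegralElem _
      rw [show (Polynomial.aeval (R := kA A) (tS A N false)).toRingHom =
        algebraMap (kA A)[X] (FS A N) from RingHom.ext fun q => (hp q).symm]
      exact (b (eq i)).2
    · have h0 : ∑ j, p (eq.symm j) • b j = 0 := by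
        rw [← eq.sum_comp]
        refine Subtype.ext ?_
        rw [AddSubmonoidClass.coe_finset_sum, ZeroMemClass.coe_zero, ← hsum]
        refine Finset.sum_congr rfl fun j _ => ?_
        rw [Equiv.symm_apply_apply, ← hp]
        exact Algebra.smul_def _ _
      have := Fintype.linearIndependent_iff.mp b.linearIndependent _ h0 (eq i)
      simpa using this
  choose e he hred using fun i => exists_lift_BS C false (hf i)
  refine ⟨e, he, fun P hP => ?_⟩
  refine hind (fun i => (P i).map (residue A)) (Subtype.ext ?_)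
  rw [AddSubmonoidClass.coe_finset_sum, ZeroMemClass.coe_zero, ← hP]
  refine Finset.sum_congr rfl fun i _ => ?_
  rw [redS_mul (phiA_mem false _) (BT.mem_GR C (he i)), redS_phiA, hred, MulMemClass.coe_mul]

omit C

/-- the data of a lifted basis -/
structure Basis0 (A : ValuationSubring Qb) (N : Lvl) where
  /-- the functions -/
  e : Fin (idx N) → FB N
  bt : ∀ i, BT A N false (e i)
  indep : ∀ P : Fin (idx N) → A[X], ∑ i, redS A N (phiA A N false (P i) * e i) = 0 →
      ∀ i, (P i).map (residue A) = 0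

include C

theorem nonempty_basis0 : Nonempty (Basis0 A N) := by
  obtain ⟨e, he, h⟩ := exists_basis C
  exact ⟨⟨e, he, h⟩⟩

omit C

namespace Basis0

variable (B : Basis0 A N)

/-- `∑ Pᵢ(j) eᵢ` -/
def comb (P : Fin (idx N) → A[X]) : FB N := ∑ i, phiA A N false (P i) * B.e i

end Basis0

include C

theorem redS_sum {ι : Type*} (S : Finset ι) (f : ι → FB N) (hf : ∀ i ∈ S, f i ∈ GR A N) :
    redS A N (∑ i ∈ S, f i) = ∑ i ∈ S, redS A N (f i) := by
  classical
  induction S using Finset.induction_on with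
  | empty => simp [redS_zero]
  | insert a S ha ih =>
      rw [Finset.sum_insert ha, Finset.sum_insert ha,
        redS_add (hf a (Finset.mem_insert_self a S))
          (sum_mem fun i hi => hf i (Finset.mem_insert_of_mem hi)),
        ih fun i hi => hf i (Finset.mem_insert_of_mem hi)]

theorem comb_mem (B : Basis0 A N) (P : Fin (idx N) → A[X]) : B.comb P ∈ GR A N :=
  sum_mem fun i _ => mul_mem (phiA_mem false _) (BT.mem_GR C (B.bt i))

theorem redS_comb (B : Basis0 A N) (P : Fin (idx N) → A[X]) :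
    redS A N (B.comb P) ∈ (FSH N.M N.Δ A) ∧
      (redS A N (B.comb P) = 0 → ∀ i, (P i).map (residue A) = 0) := by
  have hsum := redS_sum C Finset.univ (fun i => phiA A N false (P i) * B.e i)
    fun i _ => mul_mem (phiA_mem false _) (BT.mem_GR C (B.bt i))
  refine ⟨?_, fun h => B.indep P (hsum.symm.trans h)⟩
  rw [Basis0.comb, hsum]
  refine sum_mem fun i _ => ?_
  rw [redS_mul (phiA_mem false _) (BT.mem_GR C (B.bt i)), redS_phiA]
  exact mul_mem (SetLike.coe_mem _) (BT.redS_mem C (B.bt i))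

/-- every element is a quotient of normalised chart elements, up to a constant -/
theorem exists_repr (B : Basis0 A N) {y : FB N} (hy : y ≠ 0) :
    ∃ (c : Qb) (Q : A[X]) (P : Fin (idx N) → A[X]), c ≠ 0 ∧ Q.map (residue A) ≠ 0 ∧
      (∃ i, (P i).map (residue A) ≠ 0) ∧ y * phiA A N false Q = cB N c * B.comb P := by
  classical
  obtain ⟨q, p, hne, hrel⟩ : ∃ (q : Qb[X]) (p : Fin (idx N) → Qb[X]),
      (q ≠ 0 ∨ ∃ i, p i ≠ 0) ∧ Polynomial.aeval (tB N false) q * y
        = ∑ i, Polynomial.aeval (tB N false) (p i) * B.e i := by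
    haveI := finite_tB N false
    haveI := separable_tB N false
    refine with_sepChart (transcendental_tB N false) ?_
    intro _ _ _ _ _ _ hp hxv hn
    rw [ndeg_tB] at hn
    have hnot : ¬ LinearIndependent Qb[X] (fun i : Option (Fin (idx N)) => i.elim y B.e) := by
      intro hli
      have := ((LinearIndependent.iff_fractionRing Qb[X] (RatFunc Qb)).mp hli).fintype_card_le_finrank
      rw [hn] at this
      simp at this
    rw [Fintype.linearIndependent_iff] at hnot
    push Not at hnot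
    obtain ⟨g, hg, o, ho⟩ := hnot
    refine ⟨-g none, fun i => g (some i), ?_, ?_⟩
    · cases o with
      | none => exact Or.inl (neg_ne_zero.mpr ho)
      | some i => exact Or.inr ⟨i, ho⟩
    · rw [Fintype.sum_option] at hg
      simp only [Option.elim_none, Option.elim_some, Algebra.smul_def, hp] at hg
      rw [map_neg, neg_mul]
      linear_combination -hg
  have hQ0 : q ≠ 0 := by
    intro h0
    subst h0
    obtain ⟨i, hi⟩ := hne.resolve_left (fun h => h rfl)
    obtain ⟨γ, P, hγ, hP, i', hi'⟩ := exists_normalize (A := A) p ⟨i, hi⟩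
    apply hi'
    refine (redS_comb C B P).2 ?_ i'
    have h1 : cB N γ * B.comb P = 0 := by
      rw [Basis0.comb, Finset.mul_sum]
      refine (Finset.sum_congr rfl fun j _ => ?_).trans (hrel.symm.trans (by simp))
      rw [← hP j, map_mul, aeval_C, phiA_apply, mul_assoc]
    rcases mul_eq_zero.mp h1 with h | h
    · exact absurd ((algebraMap Qb (FB N)).injective (h.trans (map_zero _).symm)) hγ
    · rw [h, redS_zero]
  have hp0 : ∃ i, p i ≠ 0 := by
    by_contra hc
    push Not at hc
    simp only [hc, map_zero, zero_mul, Finset.sum_const_zero, mul_eq_zero] at hrel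
    exact hQ0 ((transcendental_iff.mp (transcendental_tB N false)) q (hrel.resolve_right hy))
  obtain ⟨γ, P, hγ, hP, hPi⟩ := exists_normalize (A := A) p hp0
  obtain ⟨δ, Q, hδ, hQ, _, hQi⟩ := exists_normalize (A := A) (fun _ : Unit => q) ⟨(), hQ0⟩
  refine ⟨γ / δ, Q (), P, div_ne_zero hγ hδ, hQi, hPi, ?_⟩
  have hδ' : cB N δ ≠ 0 := (_root_.map_ne_zero _).mpr hδ
  refine mul_left_cancel₀ hδ' ?_
  rw [← mul_assoc, ← mul_assoc, ← map_mul, mul_div_cancel₀ _ hδ, mul_comm (cB N δ) y, mul_assoc]
  have hq : cB N δ * phiA A N false (Q ()) = Polynomial.aeval (tB N false) q := by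
    rw [← hQ (), map_mul, aeval_C, phiA_apply]
  rw [hq, mul_comm, hrel, Basis0.comb, Finset.mul_sum]
  refine Finset.sum_congr rfl fun j _ => ?_
  rw [← hP j, map_mul, aeval_C, phiA_apply, mul_assoc]

theorem aeval_tS_ne_zero (s : Bool) {Q : A[X]} (hQ : Q.map (residue A) ≠ 0) :
    redS A N (phiA A N s Q) ≠ 0 := by
  rw [redS_phiA]
  intro h
  exact hQ ((transcendental_iff.mp (transcendental_tS A N s)) _ (Subtype.ext h))

theorem mem_GR_of_mul_eq {y H G : FB N} (hH : H ∈ GR A N) (hH0 : redS A N H ≠ 0)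
    (hG : G ∈ GR A N) (h : y * H = G) :
    y ∈ GR A N ∧ redS A N y = redS A N G / redS A N H := by
  obtain ⟨G₁, H₁, hH₁, h₁⟩ := hH
  obtain ⟨G₂, H₂, hH₂, h₂⟩ := hG
  rw [redS_eq hH₁ h₁] at hH0
  have hG1 : dn A G₁ ≠ 0 := fun h => hH0 (by rw [h, zero_div])
  have e : (y : LaurentSeries Qb) * up A (G₁ * H₂) = up A (G₂ * H₁) := by
    rw [map_mul, map_mul, ← h₁, ← h₂, ← h, MulMemClass.coe_mul]
    ring
  have hne : dn A (G₁ * H₂) ≠ 0 := by rw [map_mul]; exact mul_ne_zero hG1 hH₂
  refine ⟨⟨_, _, hne, e⟩, ?_⟩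
  rw [redS_eq hne e, redS_eq hH₁ h₁, redS_eq hH₂ h₂, map_mul, map_mul, div_div_div_eq]
  ring

/-- every nonzero element is a constant times a Gauss unit with reduction in the function field -/
theorem exists_scale {y : FB N} (hy : y ≠ 0) :
    ∃ (c : Qb) (u : FB N), c ≠ 0 ∧ u ∈ GR A N ∧ redS A N u ≠ 0 ∧
      redS A N u ∈ (FSH N.M N.Δ A) ∧ y = cB N c * u := by
  obtain ⟨B⟩ := nonempty_basis0 C
  obtain ⟨c, Q, P, hc, hQ, ⟨i, hi⟩, h⟩ := exists_repr C B hy
  have hQ0 := aeval_tS_ne_zero C false hQ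
  have hQF : phiA A N false Q ≠ 0 := fun h0 => hQ0 (by rw [h0, redS_zero])
  obtain ⟨hu, hru⟩ := mem_GR_of_mul_eq C (y := B.comb P / phiA A N false Q)
    (phiA_mem false Q) hQ0 (comb_mem C B P) (div_mul_cancel₀ _ hQF)
  refine ⟨c, _, hc, hu, ?_, ?_, ?_⟩
  · rw [hru]
    exact div_ne_zero (fun h0 => hi ((redS_comb C B P).2 h0 i)) hQ0
  · rw [hru]
    exact div_mem (redS_comb C B P).1 (by rw [redS_phiA]; exact SetLike.coe_mem _)
  · rw [mul_div_assoc', ← h, mul_div_assoc, div_self hQF, mul_one]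

theorem mem_A_of_cB_mul {c : Qb} {u : FB N} (hu : u ∈ GR A N) (hu0 : redS A N u ≠ 0)
    (h : cB N c * u ∈ GR A N) : c ∈ A := by
  by_contra hc
  have hc0 : c ≠ 0 := fun h0 => hc (h0 ▸ A.zero_mem)
  have hinv : c⁻¹ ∈ A := (A.mem_or_inv_mem c).resolve_left hc
  have h1 : residue A ⟨c⁻¹, hinv⟩ = 0 := by
    rw [res_eq_zero_iff]
    show A.valuation c⁻¹ < 1
    rw [map_inv₀, inv_lt_one_iff₀]
    exact Or.inr (lt_of_not_ge fun h => hc ((A.valuation_le_one_iff c).mp h))
  have h2 : u = cB N c⁻¹ * (cB N c * u) := by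
    rw [← mul_assoc, ← map_mul, inv_mul_cancel₀ hc0, map_one, one_mul]
  apply hu0
  rw [h2, redS_mul (cB_mem hinv) h, redS_cB ⟨c⁻¹, hinv⟩, h1, map_zero, zero_mul]

theorem redS_mem {y : FB N} (hy : y ∈ GR A N) :
    redS A N y ∈ (FSH N.M N.Δ A) := by
  rcases eq_or_ne y 0 with rfl | hy0
  · rw [redS_zero]; exact zero_mem _
  obtain ⟨c, u, hc, hu, hu0, hum, rfl⟩ := exists_scale C hy0
  have hcA := mem_A_of_cB_mul C hu hu0 hy
  rw [redS_mul (cB_mem hcA) hu, redS_cB ⟨c, hcA⟩]
  exact mul_mem (IntermediateField.algebraMap_mem _ _) hum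

theorem coe_red {y : FB N} (hy : y ∈ GR A N) :
    (red A N y : LaurentSeries (kA A)) = redS A N y := by
  rw [red, dif_pos (redS_mem C hy)]

theorem red_add {y z : FB N} (hy : y ∈ GR A N) (hz : z ∈ GR A N) :
    red A N (y + z) = red A N y + red A N z :=
  Subtype.ext (by
    rw [AddMemClass.coe_add, coe_red C (add_mem hy hz), coe_red C hy, coe_red C hz, redS_add hy hz])

theorem red_mul {y z : FB N} (hy : y ∈ GR A N) (hz : z ∈ GR A N) :
    red A N (y * z) = red A N y * red A N z :=
  Subtype.ext (by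
    rw [MulMemClass.coe_mul, coe_red C (mul_mem hy hz), coe_red C hy, coe_red C hz, redS_mul hy hz])

theorem red_one : red A N 1 = 1 :=
  Subtype.ext (by rw [OneMemClass.coe_one, coe_red C (one_mem _), redS_one])

theorem red_zero : red A N 0 = 0 :=
  Subtype.ext (by rw [ZeroMemClass.coe_zero, coe_red C (zero_mem _), redS_zero])

theorem red_neg {y : FB N} (hy : y ∈ GR A N) : red A N (-y) = -red A N y := by
  have h := red_add C hy (neg_mem hy)
  rw [add_neg_cancel, red_zero C] at h
  exact eq_neg_of_add_eq_zero_right h.symm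

theorem red_sub {y z : FB N} (hy : y ∈ GR A N) (hz : z ∈ GR A N) :
    red A N (y - z) = red A N y - red A N z := by
  rw [sub_eq_add_neg, red_add C hy (neg_mem hz), red_neg C hz, sub_eq_add_neg]

theorem red_pow {y : FB N} (hy : y ∈ GR A N) (n : ℕ) : red A N (y ^ n) = red A N y ^ n := by
  induction n with
  | zero => simp [red_one C]
  | succ n ih => rw [pow_succ, red_mul C (pow_mem hy n) hy, ih, pow_succ]

theorem red_prod {ι : Type*} (S : Finset ι) (f : ι → FB N) (hf : ∀ i ∈ S, f i ∈ GR A N) :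
    red A N (∏ i ∈ S, f i) = ∏ i ∈ S, red A N (f i) := by
  classical
  induction S using Finset.induction_on with
  | empty => simp [red_one C]
  | insert a S ha ih =>
      rw [Finset.prod_insert ha, Finset.prod_insert ha,
        red_mul C (hf a (Finset.mem_insert_self a S))
          (prod_mem fun i hi => hf i (Finset.mem_insert_of_mem hi)),
        ih fun i hi => hf i (Finset.mem_insert_of_mem hi)]

theorem red_cB (a : A) :
    red A N (cB N (a : Qb)) = algebraMap (kA A) (FS A N) (residue A a) :=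
  Subtype.ext (by rw [coe_red C (cB_mem a.2), redS_cB]; rfl)

theorem red_tB (s : Bool) : red A N (tB N s) = tS A N s :=
  Subtype.ext (by rw [coe_red C (tB_mem s), redS_tB])

theorem red_phiA (s : Bool) (p : A[X]) :
    red A N (phiA A N s p) = Polynomial.aeval (tS A N s) (p.map (residue A)) :=
  Subtype.ext (by rw [coe_red C (phiA_mem s p), redS_phiA])

theorem red_BS {s : Bool} {b : FB N} (hb : BT A N s b) : BS A N s (red A N b) := by
  obtain ⟨G, x, hG, hx, hxs⟩ := exists_series_BT C s hb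
  have : red A N b = x :=
    Subtype.ext (by rw [coe_red C (BT.mem_GR C hb), redS_series hG, hx])
  rwa [this]

theorem exists_lift {s : Bool} {x : FS A N} (hx : BS A N s x) :
    ∃ b : FB N, BT A N s b ∧ red A N b = x := by
  obtain ⟨b, hb, h⟩ := exists_lift_BS C s hx
  exact ⟨b, hb, Subtype.ext (by rw [coe_red C (BT.mem_GR C hb), h])⟩

/-- every nonzero element is a constant times a Gauss unit -/
theorem exists_scale_UG {y : FB N} (hy : y ≠ 0) :
    ∃ (c : Qb) (u : FB N), c ≠ 0 ∧ UG A N u ∧ y = cB N c * u := by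
  obtain ⟨c, u, hc, hu, hu0, -, rfl⟩ := exists_scale C hy
  exact ⟨c, u, hc, ⟨hu, fun h => hu0 (by rw [← coe_red C hu, h]; rfl)⟩, rfl⟩

omit C in
theorem UG.ne_zero {u : FB N} (h : UG A N u) (C : Ctx A N ℓ) : u ≠ 0 :=
  fun h0 => h.2 (by rw [h0, red_zero C])

theorem UG.mul {u w : FB N} (hu : UG A N u) (hw : UG A N w) : UG A N (u * w) :=
  ⟨mul_mem hu.1 hw.1, by rw [red_mul C hu.1 hw.1]; exact mul_ne_zero hu.2 hw.2⟩

theorem UG_one : UG A N 1 := ⟨one_mem _, by rw [red_one C]; exact one_ne_zero⟩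

theorem UG.inv {u : FB N} (hu : UG A N u) :
    UG A N u⁻¹ ∧ red A N u⁻¹ = (red A N u)⁻¹ := by
  have hS : redS A N u ≠ 0 := fun h => hu.2 (Subtype.ext (by rw [coe_red C hu.1, h]; rfl))
  obtain ⟨hm, -⟩ := mem_GR_of_mul_eq C (y := u⁻¹) hu.1 hS (one_mem _)
    (inv_mul_cancel₀ (hu.ne_zero C))
  have h1 : red A N u⁻¹ * red A N u = 1 := by
    rw [← red_mul C hm hu.1, inv_mul_cancel₀ (hu.ne_zero C), red_one C]
  exact ⟨⟨hm, left_ne_zero_of_mul (h1 ▸ one_ne_zero)⟩, eq_inv_of_mul_eq_one_left h1⟩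

theorem UG_tB (s : Bool) : UG A N (tB N s) :=
  ⟨tB_mem s, by rw [red_tB C]; exact tS_ne_zero A N s⟩

theorem mem_A_of_UG_mul {c : Qb} {u : FB N} (hu : UG A N u) (h : cB N c * u ∈ GR A N) : c ∈ A :=
  mem_A_of_cB_mul C hu.1 (fun h0 => hu.2 (Subtype.ext (by rw [coe_red C hu.1, h0]; rfl))) h

/-- a nonzero element with reduction zero is a small constant times an integral one -/
theorem exists_small {y : FB N} (hy : y ∈ GR A N) (hr : red A N y = 0) :
    ∃ (c : Qb) (z : FB N), A.valuation c < 1 ∧ z ∈ GR A N ∧ y = cB N c * z := by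
  rcases eq_or_ne y 0 with rfl | hy0
  · exact ⟨0, 0, by simp, zero_mem _, by simp⟩
  obtain ⟨c, u, hc, hu, rfl⟩ := exists_scale_UG C hy0
  have hcA := mem_A_of_UG_mul C hu hy
  rw [red_mul C (cB_mem hcA) hu.1, red_cB C ⟨c, hcA⟩, mul_eq_zero] at hr
  refine ⟨c, u, ?_, hu.1, rfl⟩
  have := (algebraMap (kA A) (FS A N)).injective ((hr.resolve_right hu.2).trans (map_zero _).symm)
  exact (res_eq_zero_iff A ⟨c, hcA⟩).mp this

/-- the Gauss valuation ring as a valuation subring -/
theorem mem_or_inv_mem_GR (y : FB N) : y ∈ GR A N ∨ y⁻¹ ∈ GR A N := by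
  rcases eq_or_ne y 0 with rfl | hy
  · exact Or.inl (zero_mem _)
  obtain ⟨c, u, hc, hu, rfl⟩ := exists_scale_UG C hy
  rcases A.mem_or_inv_mem c with h | h
  · exact Or.inl (mul_mem (cB_mem h) hu.1)
  · right
    rw [mul_inv, ← map_inv₀]
    exact mul_mem (cB_mem h) ((UG.inv C hu).1.1)

end FLTAgent.DS.Red
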