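import Fermat.Agent.DS.Red.Lvl
import Fermat.Agent.DS.JacDefs
import Fermat.Agent.HeckeJ.Galois

/-!
`J_H`: Galois action, diamonds and the Hecke operators `T_p` for `p ∤ M`.

On divisors of functions: `T_p (div f) = div (∏_b f((τ + b)/p) · (<p> f)(pτ))` and
`<d> (div f) = div (<d> f)`, where `<d>(F/G) = (F|γ)/(G|γ)`, `γ ≡ (* *; 0 d)`.
-/

set_option autoImplicit false
set_option synthInstance.maxHeartbeats 200000
set_option linter.unusedSectionVars false

noncomputable section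

open ModularCurve AlgebraicCurve
open scoped Pointwise
open FLTAgent.Chebotarev (QBar GalQBar)

namespace FLTAgent.DS.Red

local notation "Kb" => AlgebraicClosure ℚ

variable (N : Lvl)

/-- the semilinear automorphism of a diamond -/
def diaSA : (ZMod N.M)ˣ →* SemilinearAut Kb ↥(FBH N.M N.Δ) :=
  SemilinearAut.ofAlgAut.comp (diamond N.neg_mem)

/-- the diamond operators -/
def diaJ (d : (ZMod N.M)ˣ) : Module.End ℤ (JH N.M N.Δ) :=
  AddMonoidHom.toIntLinearMap (DistribSMul.toAddMonoidHom (JH N.M N.Δ) (diaSA N d))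

theorem diaJ_apply (d : (ZMod N.M)ˣ) (x : JH N.M N.Δ) : diaJ N d x = diaSA N d • x := rfl

section Hecke

variable (p : ℕ) [NeZero p]

instance hasPrincipalDivisorsUp : HasPrincipalDivisors Kb ↥(FBH (N.up p).M (N.up p).Δ) :=
  RR.hasPrincipalDivisors

/-- the correspondence defining `T_p` -/
def heckeHom (d : (ZMod N.M)ˣ) : JH N.M N.Δ →+ JH N.M N.Δ :=
  Pic0.correspondence (N.phi p d) (N.alpha p) (HeckeJ.isIntegralAlong _) (HeckeJ.isIntegralAlong _)
    (HeckeJ.fundamentalIdentityAlong _ _) (HeckeJ.finiteAlong _) (HeckeJ.normFormulaAlong _ _)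

end Hecke

/-- the unit `p mod M` -/
def unitP (p : {p : Nat.Primes // ¬ (p : ℕ) ∣ N.M}) : (ZMod N.M)ˣ :=
  ZMod.unitOfCoprime (p.1 : ℕ) ((Nat.Prime.coprime_iff_not_dvd p.1.2).2 p.2)

theorem coe_unitP (p : {p : Nat.Primes // ¬ (p : ℕ) ∣ N.M}) :
    ((unitP N p : (ZMod N.M)ˣ) : ZMod N.M) = ((p.1 : ℕ) : ZMod N.M) := rfl

/-- `T_p` -/
def heckeJ (p : {p : Nat.Primes // ¬ (p : ℕ) ∣ N.M}) : Module.End ℤ (JH N.M N.Δ) :=
  haveI : NeZero (p.1 : ℕ) := ⟨p.1.2.ne_zero⟩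
  AddMonoidHom.toIntLinearMap (heckeHom N (p.1 : ℕ) (unitP N p))

theorem heckeJ_apply (p : {p : Nat.Primes // ¬ (p : ℕ) ∣ N.M}) [NeZero (p.1 : ℕ)]
    (x : JH N.M N.Δ) : heckeJ N p x = heckeHom N (p.1 : ℕ) (unitP N p) x := rfl

/-- the operators on `J_H` -/
def opJH : OpIdx N.M → Module.End ℤ (JH N.M N.Δ)
  | Sum.inl p => heckeJ N p
  | Sum.inr d => diaJ N d

theorem opJH_inl (p : {p : Nat.Primes // ¬ (p : ℕ) ∣ N.M}) :
    opJH N (Sum.inl p) = heckeJ N p := rfl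

theorem opJH_inr (d : (ZMod N.M)ˣ) : opJH N (Sum.inr d) = diaJ N d := rfl

/-- the Galois action -/
def actH : GalQBar →* Module.End ℤ (JH N.M N.Δ) where
  toFun σ := AddMonoidHom.toIntLinearMap (DistribSMul.toAddMonoidHom (JH N.M N.Δ) σ)
  map_one' := LinearMap.ext fun x => one_smul GalQBar x
  map_mul' σ τ := LinearMap.ext fun x => mul_smul σ τ x

theorem actH_apply (σ : GalQBar) (x : JH N.M N.Δ) : actH N σ x = σ • x := rfl

end FLTAgent.DS.Red

end
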