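import Fermat.Agent.DS.Red.Compat
import Fermat.Agent.Reduction.Rigid
import Fermat.Agent.Reduction.Constants
import Fermat.Prelude.Def_AlgebraicCurve_BaseChangeGalois

/-!
The reduction map on `J_H`, and constants of the special fibre.
-/

set_option autoImplicit false
set_option linter.unusedSectionVars false
set_option synthInstance.maxHeartbeats 100000

noncomputable section

open ModularCurve AlgebraicCurve Polynomial IsLocalRing

namespace FLTAgent.DS.Red

open FLTAgent.Reduction

variable {A : ValuationSubring Qb} {N : Lvl} {ℓ : ℕ} (C : Ctx A N ℓ)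
include C

theorem degree_mapDomain_rP (D : Divisor Qb (FB N)) :
    Divisor.degree (Finsupp.mapDomain (rP C) D) = Divisor.degree D := by
  induction D using Finsupp.induction with
  | zero => simp
  | single_add P n D _ _ ih =>
    rw [Finsupp.mapDomain_add, map_add, map_add, ih, Finsupp.mapDomain_single,
      Divisor.degree_single, Divisor.degree_single, deg_rP C]

/-- reduction of divisors of degree zero -/
def redD : Divisor.degZero (K := Qb) (F := FB N) →+ Divisor.degZero (K := kA A) (F := FS A N) :=
  ((Finsupp.mapDomain.addMonoidHom (rP C)).domRestrict _).codRestrict _ fun D =>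
    Divisor.mem_degZero.mpr ((degree_mapDomain_rP C D.1).trans (Divisor.mem_degZero.mp D.2))

theorem coe_redD (D : Divisor.degZero (K := Qb) (F := FB N)) :
    (redD C D : Divisor (kA A) (FS A N)) = Finsupp.mapDomain (rP C) (D : Divisor Qb (FB N)) := rfl

theorem mapDomain_rP_principal {D : Divisor Qb (FB N)}
    (hD : D ∈ Divisor.principal (K := Qb) (F := FB N)) :
    Finsupp.mapDomain (rP C) D ∈ Divisor.principal (K := kA A) (F := FS A N) := by
  obtain ⟨f, hf, hfD⟩ := hD
  obtain ⟨c, u, hc, hu, rfl⟩ := exists_scale_UG C hf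
  refine ⟨red A N u, hu.2, fun Q => ?_⟩
  rw [← mapDomain_rP_dv C hu Q]
  refine congrArg (fun E => Finsupp.mapDomain (rP C) E Q) (Finsupp.ext fun P => ?_)
  rw [dv_apply, hfD, P.ord_mul ((_root_.map_ne_zero _).mpr hc) (hu.ne_zero C), RR.ord_algebraMap,
    zero_add]

/-- the reduction map on `J_H` -/
def redJ : Pic0 Qb (FB N) →+ Pic0 (kA A) (FS A N) :=
  QuotientAddGroup.map _ _ (redD C) (by
    rintro ⟨D, hD0⟩ hD
    simp only [AddSubgroup.mem_addSubgroupOf] at hD ⊢
    exact mapDomain_rP_principal C hD)

theorem redJ_mk (D : Divisor.degZero (K := Qb) (F := FB N)) :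
    redJ C (Pic0.mk D) = Pic0.mk (redD C D) := rfl

/-- functions on the special fibre without zeros and poles are constant -/
theorem exists_const_of_ord_eq_zero {x : FS A N} (hx : x ≠ 0) (h : ∀ Q : PS A N, Q.ord x = 0) :
    ∃ c : kA A, c ≠ 0 ∧ x = algebraMap (kA A) (FS A N) c := by
  have hb : ∀ s, x ∈ regOn (kA A) (tS A N s) := fun s Q _ =>
    RR.bd_iff.mpr (Or.inr (by rw [h Q]; simp))
  have h1 : BS A N true x := (BS_iff C).mpr (hb true)
  have halg := isAlgebraic_of_isIntegral_both (K := kA A) (t := jS A N) (x := x)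
    ((BS_iff C).mpr (hb false)) h1
  have hd := IsAlgClosed.degree_eq_one_of_irreducible (kA A) (minpoly.irreducible halg.isIntegral)
  obtain ⟨c, hc⟩ := minpoly.mem_range_of_degree_eq_one (kA A) x hd
  refine ⟨c, fun h0 => hx ?_, hc.symm⟩
  rw [← hc, h0]
  exact map_zero _

end FLTAgent.DS.Red
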