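import Fermat.Agent.DS.Red.Descend
import Fermat.Agent.DS.Red.Pic
import Fermat.Agent.Reduction.Rigid

/-!
Reduction is injective on torsion of order prime to the residue characteristic.
-/

set_option autoImplicit false
set_option linter.unusedSectionVars false
set_option synthInstance.maxHeartbeats 100000

noncomputable section

open ModularCurve AlgebraicCurve Polynomial IsLocalRing
open FLTAgent.RR (Bd KK)

namespace FLTAgent.DS.Red

open FLTAgent.Reduction

variable {A : ValuationSubring Qb} {N : Lvl} {ℓ : ℕ}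

theorem dv_mem_principal {y : FB N} (hy : y ≠ 0) :
    dv y ∈ Divisor.principal (K := Qb) (F := FB N) :=
  ⟨y, hy, dv_apply y⟩

theorem degree_dv {y : FB N} (hy : y ≠ 0) : Divisor.degree (dv y) = 0 :=
  RR.degree_divisor hy (dv_apply y)

/-- every class of degree zero has a representative that is bounded below in both charts -/
theorem exists_bounded_rep {D0 : Divisor Qb (FB N)} (h0 : Divisor.degree D0 = 0) :
    ∃ (n₀ : ℕ) (D : Divisor Qb (FB N)), Divisor.degree D = 0 ∧
      D - D0 ∈ Divisor.principal (K := Qb) (F := FB N) ∧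
      (∀ P : PB N, Bd P (tB N false) 0 → 0 ≤ D P) ∧
      ∀ P : PB N, Bd P (tB N true) 0 → 0 ≤ D P + n₀ * P.ord (tB N true) := by
  obtain ⟨g, hg⟩ := exists_effective (K := Qb) (F := FB N)
  have ht := tB_ne_zero N false
  have hdeg : (g : ℤ) ≤ Divisor.degree (D0 + (g : ℤ) • RR.Pol (K := Qb) (tB N false)) := by
    rw [map_add, map_zsmul, h0, zero_add, RR.degree_Pol (transcendental_tB N false), smul_eq_mul]
    exact le_mul_of_one_le_right (by positivity)
      (by exact_mod_cast RR.ndeg_pos (transcendental_tB N false))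
  obtain ⟨f, hf, heff⟩ := hg _ hdeg
  refine ⟨g, D0 + dv f, by rw [map_add, h0, degree_dv hf, add_zero],
    by rw [add_sub_cancel_left]; exact dv_mem_principal hf, fun P hP => ?_, fun P hP => ?_⟩
  · have h1 := heff P
    rw [Finsupp.add_apply, Finsupp.smul_apply, RR.Pol_apply, smul_eq_mul] at h1
    have h2 := (RR.bd_iff_ord ht).mp hP
    rw [max_eq_right (show -P.ord (tB N false) ≤ 0 by omega), mul_zero, add_zero] at h1
    rw [Finsupp.add_apply, dv_apply]
    exact h1
  · have h1 := heff P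
    rw [Finsupp.add_apply, Finsupp.smul_apply, RR.Pol_apply, smul_eq_mul] at h1
    have h3 : tB N true = (tB N false)⁻¹ := by simpa using tB_not N false
    rw [h3] at hP ⊢
    have h2 := (RR.bd_iff_ord (inv_ne_zero ht)).mp hP
    rw [P.ord_inv] at h2 ⊢
    rw [max_eq_left (show (0 : ℤ) ≤ -P.ord (tB N false) by omega)] at h1
    rw [Finsupp.add_apply, dv_apply]
    linarith

variable (C : Ctx A N ℓ)
include C

set_option maxHeartbeats 1000000 in
theorem eq_zero_of_torsion {m : ℕ} (hm : ¬ ℓ ∣ m) {z : Pic0 Qb (FB N)} (hmz : m • z = 0)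
    (hz : redJ C z = 0) : z = 0 := by
  classical
  have hm0 : m ≠ 0 := fun h => hm (h ▸ dvd_zero ℓ)
  obtain ⟨⟨D0, hD0⟩, rfl⟩ := Pic0.mk_surjective z
  obtain ⟨n₀, D, hdeg, hDD, hb0, hb1⟩ := exists_bounded_rep (Divisor.mem_degZero.mp hD0)
  have hcl : Pic0.mk (⟨D0, hD0⟩ : Divisor.degZero (K := Qb) (F := FB N)) =
      Pic0.mk ⟨D, Divisor.mem_degZero.mpr hdeg⟩ := by
    refine QuotientAddGroup.eq.mpr ?_
    show -D0 + D ∈ Divisor.principal (K := Qb) (F := FB N)
    rwa [neg_add_eq_sub]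
  rw [hcl] at hmz hz ⊢
  -- the function with divisor `m • D`
  have hmD : m • D ∈ Divisor.principal (K := Qb) (F := FB N) := by
    have h := (QuotientAddGroup.eq_zero_iff _).mp
      (show ((m • (⟨D, Divisor.mem_degZero.mpr hdeg⟩ :
        Divisor.degZero (K := Qb) (F := FB N)) : Divisor.degZero (K := Qb) (F := FB N)) :
          Pic0 Qb (FB N)) = 0 by rw [QuotientAddGroup.mk_nsmul]; exact hmz)
    exact h
  obtain ⟨f₀, hf₀, hf₀D⟩ := hmD
  obtain ⟨c, f, hc, hf, hfe⟩ := exists_scale_UG C hf₀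
  have hfD : ∀ P : PB N, P.ord f = m * D P := by
    intro P
    have := hf₀D P
    rw [Finsupp.smul_apply, nsmul_eq_mul, hfe, P.ord_mul
      (map_ne_zero_iff _ (RingHom.injective _) |>.mpr hc) (hf.ne_zero C), RR.ord_algebraMap,
      zero_add] at this
    exact this.symm
  have hdvf : dv f = m • D := Finsupp.ext fun P => by
    rw [dv_apply, hfD, Finsupp.smul_apply, nsmul_eq_mul]
  -- its reduction is an `m`-th power
  rw [redJ_mk C] at hz
  have hz' : Finsupp.mapDomain (rP C) D ∈ Divisor.principal (K := kA A) (F := FS A N) :=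
    (QuotientAddGroup.eq_zero_iff
      (redD C ⟨D, Divisor.mem_degZero.mpr hdeg⟩)).mp hz
  obtain ⟨φ₁, hφ₁, hφ₁D⟩ := hz'
  have hord : ∀ Q : PS A N, Q.ord (red A N f) = m * Q.ord φ₁ := fun Q => by
    have h1 := defect_eq_zero C hf Q
    rw [defect, sub_eq_zero, hdvf] at h1
    rw [← h1, Finsupp.mapDomain_smul, Finsupp.smul_apply, nsmul_eq_mul, hφ₁D]
  obtain ⟨d, hd, hde⟩ := exists_const_of_ord_eq_zero C
    (div_ne_zero hf.2 (pow_ne_zero m hφ₁)) (fun Q => by
      rw [div_eq_mul_inv, Q.ord_mul hf.2 (inv_ne_zero (pow_ne_zero _ hφ₁)), Q.ord_inv, RR.ord_pow,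
        hord]
      ring)
  obtain ⟨e, he⟩ := IsAlgClosed.exists_pow_nat_eq d (Nat.pos_of_ne_zero hm0)
  set φ := algebraMap (kA A) (FS A N) e * φ₁ with hφdef
  have he0 : algebraMap (kA A) (FS A N) e ≠ 0 := by
    refine (map_ne_zero_iff _ (RingHom.injective _)).mpr fun h => hd ?_
    rw [← he, h, zero_pow hm0]
  have hφ : φ ≠ 0 := mul_ne_zero he0 hφ₁
  have hfφ : red A N f = φ ^ m := by
    rw [hφdef, mul_pow, ← map_pow, he, ← hde, div_mul_cancel₀ _ (pow_ne_zero _ hφ₁)]
  have hdiv : ∀ Q, Finsupp.mapDomain (rP C) D Q = Q.ord φ := fun Q => by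
    rw [hφdef, Q.ord_mul he0 hφ₁, RR.ord_algebraMap, zero_add]
    exact hφ₁D Q
  -- roots in the two charts, arbitrarily close
  obtain ⟨b₀, hb₀, hb₀G, hb₀r⟩ := exists_base C (s := false) (n := 0)
    (fun P hP => by simpa using hb0 P hP) hφ hdiv
  obtain ⟨b₁, hb₁, hb₁G, hb₁r⟩ := exists_base C (s := true) (n := n₀) hb1 hφ hdiv
  obtain ⟨h, hh0, hhf, hht⟩ := exists_nonzero_section C hb0 hb1 hφ (fun a ha => by
    obtain ⟨y₀, hy₀, hy₀G, hy₀r, hy₀s⟩ := exists_root C hm hf hfD hfφ hφ hb₀ hb₀G hb₀r ha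
    obtain ⟨y₁, hy₁, hy₁G, hy₁r, hy₁s⟩ := exists_root C hm hf hfD hfφ hφ hb₁ hb₁G hb₁r ha
    exact ⟨y₀, y₁, hy₀, hy₁, hy₀G, hy₀r, roots_close C hf hm hy₀G hy₁G (hy₀r.trans hy₁r.symm)
      (by rw [hy₀r]; exact hφ) hy₀s hy₁s⟩)
  -- a global section forces `D` to be principal
  have hnn : ∀ P : PB N, 0 ≤ (dv h - D) P := by
    intro P
    rw [Finsupp.sub_apply, dv_apply, sub_nonneg]
    by_cases hP : Bd P (tB N false) 0
    · exact ord_le_of_mem_Lat hhf hh0 hP
    · exact ord_le_of_mem_Lat hht hh0 (by simpa using bd_not hP)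
  have hdeg0 : Divisor.degree (dv h - D) = 0 := by rw [map_sub, degree_dv hh0, hdeg, sub_zero]
  have hDh : D = dv h := by
    refine Finsupp.ext fun P => ?_
    have h1 : ((dv h - D).sum fun v n => n * (Place.deg v : ℤ)) = 0 := by
      rw [← hdeg0]; rfl
    rw [Finsupp.sum, Finset.sum_eq_zero_iff_of_nonneg
      (fun v _ => mul_nonneg (hnn v) (by positivity))] at h1
    by_contra hne
    have h2 : (dv h - D) P ≠ 0 := by rw [Finsupp.sub_apply, sub_ne_zero]; exact Ne.symm hne
    have h3 := h1 P (Finsupp.mem_support_iff.mpr h2)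
    rw [RR.deg_place] at h3
    simp only [Nat.cast_one, mul_one] at h3
    exact h2 h3
  refine (QuotientAddGroup.eq_zero_iff _).mpr ?_
  show D ∈ Divisor.principal (K := Qb) (F := FB N)
  rw [hDh]
  exact dv_mem_principal hh0

end FLTAgent.DS.Red
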