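import Fermat.Agent.DS.Red.Norm
import Fermat.Agent.DS.Red.Torsion
import Fermat.Agent.DS.Red.Hecke
import Fermat.Agent.Reduction.Rigid

/-!
Kronecker's congruence on `J_H`: `red ∘ T_ℓ = (Φ + ℓ Φ⁻¹ <ℓ>) ∘ red`, and reduction of diamonds.
-/

set_option autoImplicit false
set_option linter.unusedSectionVars false
set_option linter.style.haveILetI false
set_option synthInstance.maxHeartbeats 200000

noncomputable section

open ModularCurve AlgebraicCurve IsLocalRing
open scoped Pointwise

namespace FLTAgent.DS.Red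

open FLTAgent.Reduction

theorem mapDomain_nonneg_leH {α β : Type*} (r : α → β) (D : α →₀ ℤ) (hD : ∀ a, 0 ≤ D a) (b : β) :
    0 ≤ Finsupp.mapDomain r D b ∧ Finsupp.mapDomain r D b ≤ D.sum fun _ n => n := by
  classical
  rw [mapDomain_apply_eq_sum r D b D.support subset_rfl]
  exact ⟨Finset.sum_nonneg fun a _ => hD a,
    Finset.sum_le_sum_of_subset_of_nonneg (Finset.filter_subset _ _) fun a _ _ => hD a⟩

theorem correspondence_single_nonnegH {K F F' : Type*} [Field K] [Field F] [Field F'] [Algebra K F]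
    [Algebra K F'] [HasPrincipalDivisors K F'] (φ ψ : F →ₐ[K] F')
    (hφ : φ.toRingHom.IsIntegral) (hψ : ψ.toRingHom.IsIntegral) (P : Place K F) (w : Place K F) :
    0 ≤ Divisor.correspondence φ ψ hφ hψ (Finsupp.single P 1) w := by
  classical
  rw [Divisor.correspondence_apply, Divisor.pullbackAlong_single, map_sum, Finset.sum_apply']
  refine Finset.sum_nonneg fun W _ => ?_
  rw [Divisor.pushforwardAlong_single, Finsupp.single_apply]
  split_ifs <;> positivity

variable {A : ValuationSubring Qb} {N : Lvl} {ℓ : ℕ} [NeZero ℓ] (C : Ctx A N ℓ)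
include C

/-- automorphisms compatible with reduction on Gauss units of the finite chart -/
theorem mapDomain_rP_aut (g : SemilinearAut Qb (FB N)) (Φ : SemilinearAut (kA A) (FS A N))
    (hg : ∀ b, BT A N false b → UG A N b →
      g • b ∈ GR A N ∧ red A N (g • b) = Φ • red A N b)
    (D : Divisor Qb (FB N)) (hD : Divisor.degree D = 0) :
    Finsupp.mapDomain (rP C) (g • D) = Φ • Finsupp.mapDomain (rP C) D := by
  classical
  set r : Divisor Qb (FB N) →+ Divisor (kA A) (FS A N) := Finsupp.mapDomain.addMonoidHom (rP C)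
  set E0 : Divisor Qb (FB N) →+ (PS A N →₀ ℤ) :=
    r.comp (DistribSMul.toAddMonoidHom _ g) -
      (DistribSMul.toAddMonoidHom (Divisor (kA A) (FS A N)) Φ).comp r with hΔ
  have happ : ∀ D, E0 D =
      Finsupp.mapDomain (rP C) (g • D) - Φ • Finsupp.mapDomain (rP C) D := fun D => rfl
  have hint : ∀ E ∈ IntPD A N, E0 E = 0 := by
    rintro E ⟨f, hfT, hfU, rfl⟩
    obtain ⟨h1, h2⟩ := hg f hfT hfU
    have hU : UG A N (g • f) := ⟨h1, by rw [h2]; exact (smul_ne_zero_iff_ne Φ).mpr hfU.2⟩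
    rw [happ, sub_eq_zero]
    refine Finsupp.ext fun Q => ?_
    rw [show g • dv f = dv (g • f) from Finsupp.ext fun P => by
        rw [dv_apply, smul_divisor_eq_ord g (dv_apply f)],
      mapDomain_rP_dv C hU, h2, smul_divisor_eq_ord Φ (mapDomain_rP_dv C hfU)]
  have hp : ∀ E ∈ Divisor.principal (K := Qb) (F := FB N), E0 E = 0 := fun E hE =>
    (AddSubgroup.closure_le E0.ker).mpr hint (principalGenerated C hE)
  have h := eq_zero_of_bounded E0 hp 2 (fun P Q => by
    rw [happ, SemilinearAut.smul_single, Finsupp.mapDomain_single, Finsupp.mapDomain_single,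
      SemilinearAut.smul_single, Finsupp.sub_apply]
    refine (abs_sub _ _).trans ?_
    simp only [Finsupp.single_apply]
    split_ifs <;> simp) D hD
  rwa [happ, sub_eq_zero] at h

/-- the diamond on the special fibre, semilinear -/
def diaSS (d : (ZMod N.M)ˣ) : SemilinearAut (kA A) (FS A N) :=
  SemilinearAut.ofAlgAut (diaS C d)

/-- reduction commutes with diamonds -/
theorem redJ_diaJ (d : (ZMod N.M)ˣ) (x : JH N.M N.Δ) :
    redJ C (diaJ N d x) = diaSS C d • redJ C x := by
  obtain ⟨D, rfl⟩ := Pic0.mk_surjective x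
  rw [diaJ_apply, SemilinearAut.pic0_smul_mk, redJ_mk C, redJ_mk C, SemilinearAut.pic0_smul_mk]
  refine congrArg Pic0.mk (Subtype.ext ?_)
  refine mapDomain_rP_aut C (diaSA N d) (diaSS C d) (fun b hb _ => ?_) D.1
    (Divisor.mem_degZero.mp D.2)
  exact ⟨BT.mem_GR C (BT_diamond C hb d), red_diamond C hb d⟩

variable (hst : Stable A N (frobK C))

set_option maxHeartbeats 1600000 in
/-- the divisor form of Kronecker's congruence -/
theorem mapDomain_rP_correspondence {u : (ZMod N.M)ˣ} (hu : (u : ZMod N.M) = ℓ)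
    (D : Divisor Qb (FB N)) (hD : Divisor.degree D = 0) :
    Finsupp.mapDomain (rP C)
        (Divisor.correspondence (N.phi ℓ u) (N.alpha ℓ) (HeckeJ.isIntegralAlong _)
          (HeckeJ.isIntegralAlong _) D) =
      fullAut hst • Finsupp.mapDomain (rP C) D +
        ℓ • ((fullAut hst)⁻¹ • (diaSS C u • Finsupp.mapDomain (rP C) D)) := by
  classical
  set T := Divisor.correspondence (N.phi ℓ u) (N.alpha ℓ) (HeckeJ.isIntegralAlong _)
    (HeckeJ.isIntegralAlong _) with hT
  set r : Divisor Qb (FB N) →+ Divisor (kA A) (FS A N) := Finsupp.mapDomain.addMonoidHom (rP C)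
  set Φ := fullAut hst with hΦ
  set E0 : Divisor Qb (FB N) →+ (PS A N →₀ ℤ) :=
    r.comp T - ((DistribSMul.toAddMonoidHom (Divisor (kA A) (FS A N)) Φ).comp r +
      ℓ • (((DistribSMul.toAddMonoidHom (Divisor (kA A) (FS A N)) Φ⁻¹).comp
        (DistribSMul.toAddMonoidHom (Divisor (kA A) (FS A N)) (diaSS C u))).comp r)) with hΔ
  have happ : ∀ E, E0 E = Finsupp.mapDomain (rP C) (T E) -
      (Φ • Finsupp.mapDomain (rP C) E +
        ℓ • (Φ⁻¹ • (diaSS C u • Finsupp.mapDomain (rP C) E))) := fun E => rfl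
  have hint : ∀ E ∈ IntPD A N, E0 E = 0 := by
    rintro E ⟨f, hfT, hfU, rfl⟩
    have hf0 : f ≠ 0 := hfU.ne_zero C
    obtain ⟨hgG, hgr⟩ := red_normPhiW C hst hu hfT
    set fr := red A N f
    have hd0 : diaS C u fr ≠ 0 := (map_ne_zero_iff _ (diaS C u).injective).mpr hfU.2
    have h0 : Φ • fr ≠ 0 := (smul_ne_zero_iff_ne Φ).mpr hfU.2
    have h0' : Φ⁻¹ • diaS C u fr ≠ 0 := (smul_ne_zero_iff_ne Φ⁻¹).mpr hd0
    have hgU : UG A N (normPhiW N ℓ u f) :=
      ⟨hgG, by rw [hgr]; exact mul_ne_zero h0 (pow_ne_zero _ h0')⟩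
    have hpush : T (dv f) = dv (normPhiW N ℓ u f) := by
      refine Finsupp.ext fun v => ?_
      rw [dv_apply, hT, Divisor.correspondence_apply]
      letI := algebraAlong (N.alpha ℓ)
      haveI := isScalarTower_along (N.alpha ℓ)
      haveI := isIntegral_along (N.alpha ℓ) (HeckeJ.isIntegralAlong _)
      haveI : Module.Finite (FB N) (FB (N.up ℓ)) := HeckeJ.finiteAlong (N.alpha ℓ)
      refine HeckeJ.normFormulaAlong (N.alpha ℓ) (HeckeJ.finiteAlong _) (N.phi ℓ u f)
        ((map_ne_zero _).mpr hf0) _ (fun w => ?_) v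
      rw [Divisor.pullbackAlong_apply, dv_apply, Place.ord_restrictAlong _ (HeckeJ.isIntegralAlong _)]
    have h4 := mapDomain_rP_dv C hfU
    rw [happ, sub_eq_zero]
    refine Finsupp.ext fun Q => ?_
    rw [hpush, mapDomain_rP_dv C hgU, hgr, Finsupp.add_apply, Finsupp.smul_apply,
      smul_divisor_eq_ord Φ h4,
      smul_divisor_eq_ord Φ⁻¹ (fun P => smul_divisor_eq_ord (diaSS C u) h4 P),
      Q.ord_mul h0 (pow_ne_zero _ h0'), RR.ord_pow, nsmul_eq_mul]
    rfl
  have hp : ∀ E ∈ Divisor.principal (K := Qb) (F := FB N), E0 E = 0 := fun E hE =>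
    (AddSubgroup.closure_le E0.ker).mpr hint (principalGenerated C hE)
  set B := finrankAlong Qb (N.phi ℓ u) with hB
  have h := eq_zero_of_bounded E0 hp (B + 1 + ℓ) (fun P Q => by
    have hnn := correspondence_single_nonnegH (N.phi ℓ u) (N.alpha ℓ) (HeckeJ.isIntegralAlong _)
      (HeckeJ.isIntegralAlong _) P
    have hdeg : (T (Finsupp.single P 1)).sum (fun _ n => n) = (B : ℤ) := by
      have h1 := Divisor.degree_correspondence (N.phi ℓ u) (N.alpha ℓ) (HeckeJ.isIntegralAlong _)
        (HeckeJ.isIntegralAlong _) (HeckeJ.fundamentalIdentityAlong _ _) (Finsupp.single P 1)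
      rw [Divisor.degree_single, RR.deg_place, Nat.cast_one, mul_one, mul_one] at h1
      rw [hB, ← h1]
      exact Finset.sum_congr rfl fun w _ => ((fun n => by rw [RR.deg_place, Nat.cast_one, mul_one]) :
        ∀ n : ℤ, n = n * (w.deg : ℤ)) _
    obtain ⟨h1, h2⟩ := mapDomain_nonneg_leH (rP C) _ hnn Q
    rw [hdeg] at h2
    rw [happ, Finsupp.mapDomain_single, SemilinearAut.smul_single, SemilinearAut.smul_single,
      SemilinearAut.smul_single,
      Finsupp.sub_apply, Finsupp.add_apply, Finsupp.smul_apply, Finsupp.single_apply,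
      Finsupp.single_apply, nsmul_eq_mul]
    rw [abs_le]
    push_cast
    split_ifs <;> constructor <;> linarith) D hD
  rwa [happ, sub_eq_zero] at h

set_option maxHeartbeats 1600000 in
/-- Kronecker's congruence -/
theorem redJ_hecke {u : (ZMod N.M)ˣ} (hu : (u : ZMod N.M) = ℓ) (x : JH N.M N.Δ) :
    redJ C (heckeHom N ℓ u x) =
      fullAut hst • redJ C x + ℓ • ((fullAut hst)⁻¹ • (diaSS C u • redJ C x)) := by
  obtain ⟨D, rfl⟩ := Pic0.mk_surjective x
  rw [heckeHom, Pic0.correspondence_mk, redJ_mk C, redJ_mk C, SemilinearAut.pic0_smul_mk,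
    SemilinearAut.pic0_smul_mk, SemilinearAut.pic0_smul_mk]
  show Pic0.mk _ = Pic0.mk _ + ℓ • (QuotientAddGroup.mk _ : Pic0 _ _)
  rw [← QuotientAddGroup.mk_nsmul]
  show Pic0.mk _ = Pic0.mk (_ + _)
  refine congrArg Pic0.mk (Subtype.ext ?_)
  rw [AddSubgroup.coe_add, AddSubgroupClass.coe_nsmul]
  exact mapDomain_rP_correspondence C hst hu D.1 (Divisor.mem_degZero.mp D.2)

end FLTAgent.DS.Red
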