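import Fermat.Agent.DS.Red.Root

/-!
Bases of chart lattices with bounded coordinates.
-/

set_option autoImplicit false
set_option linter.unusedSectionVars false
set_option synthInstance.maxHeartbeats 100000

noncomputable section

open ModularCurve AlgebraicCurve Polynomial IsLocalRing
open FLTAgent.RR (Bd KK)

namespace FLTAgent.DS.Red

open FLTAgent.Reduction

variable {A : ValuationSubring Qb} {N : Lvl} {ℓ : ℕ}

/-- `∑ pᵢ(t) bᵢ` -/
def lc (s : Bool) {ι : Type*} [Fintype ι] (b : ι → FB N) (p : ι → Qb[X]) : FB N :=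
  ∑ i, Polynomial.aeval (tB N s) (p i) * b i

/-- polynomials clearing finitely many functions into the lattice -/
theorem exists_poly_clear (s : Bool) (D : Divisor Qb (FB N)) (y : FB N) :
    ∃ q : Qb[X], q ≠ 0 ∧ Polynomial.aeval (tB N s) q * y ∈ Lat s D := by
  classical
  rcases eq_or_ne y 0 with rfl | hy
  · exact ⟨1, one_ne_zero, by rw [mul_zero]; exact zero_mem _⟩
  set S := (D.support ∪ (dv y).support).filter (fun P => Bd P (tB N s) 0) with hS
  have hS' : ∀ P ∈ S, ∃ d, Val P (tB N s) d := fun P hP =>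
    val_exists_B (Finset.mem_filter.mp hP).2
  choose! d hd using hS'
  set q := ∏ P ∈ S, (Polynomial.X - Polynomial.C (d P)) ^ (D P - P.ord y).toNat with hq
  refine ⟨q, Finset.prod_ne_zero_iff.mpr fun P _ => pow_ne_zero _ (Polynomial.X_sub_C_ne_zero _), ?_⟩
  have hne : ∀ P : PB N, Polynomial.aeval (tB N s) (Polynomial.X - Polynomial.C (d P)) ≠ 0 :=
    fun P h => Polynomial.X_sub_C_ne_zero (d P) (transcendental_iff.mp (transcendental_tB N s) _ h)
  have he : Polynomial.aeval (tB N s) q = ∏ P ∈ S,
      Polynomial.aeval (tB N s) (Polynomial.X - Polynomial.C (d P)) ^ (D P - P.ord y).toNat := by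
    rw [hq, map_prod]
    simp only [map_pow]
  refine mem_Lat.mpr fun P hP => ?_
  have hq0 : Polynomial.aeval (tB N s) q ≠ 0 := by
    rw [he]; exact Finset.prod_ne_zero_iff.mpr fun P' _ => pow_ne_zero _ (hne P')
  rw [RR.bd_iff_ord (mul_ne_zero hq0 hy), P.ord_mul hq0 hy, he,
    RR.ord_prod P _ _ fun P' _ => pow_ne_zero _ (hne P')]
  simp only [RR.ord_pow, neg_neg]
  have hterm : ∀ P' ∈ S, 0 ≤ (((D P' - P'.ord y).toNat : ℕ) : ℤ) *
      P.ord (Polynomial.aeval (tB N s) (Polynomial.X - Polynomial.C (d P'))) := fun P' _ => by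
    refine mul_nonneg (by positivity) ?_
    have h : Polynomial.aeval (tB N s) (Polynomial.X - Polynomial.C (d P')) ∈ regOn Qb (tB N s) :=
      Algebra.adjoin_le (Set.singleton_subset_iff.mpr (self_mem_regOn _))
        (Polynomial.aeval_mem_adjoin_singleton Qb _)
    have := (RR.bd_iff_ord (hne P')).mp (h P hP)
    omega
  have hnn := Finset.sum_nonneg hterm
  by_cases hPS : P ∈ S
  · have h1 := Finset.single_le_sum hterm hPS
    have h2 : 1 ≤ P.ord (Polynomial.aeval (tB N s) (Polynomial.X - Polynomial.C (d P))) := by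
      refine Val.ord_pos ?_ (hne P)
      have := (hd P hPS).aeval (Polynomial.X - Polynomial.C (d P))
      simpa using this
    have h3 : ((D P - P.ord y).toNat : ℤ) ≤ ((D P - P.ord y).toNat : ℤ) *
        P.ord (Polynomial.aeval (tB N s) (Polynomial.X - Polynomial.C (d P))) :=
      le_mul_of_one_le_right (by positivity) h2
    have h4 := Int.self_le_toNat (D P - P.ord y)
    exact (show D P ≤ ((D P - P.ord y).toNat : ℤ) + P.ord y by omega).trans
      (add_le_add (h3.trans h1) le_rfl)
  · simp only [hS, Finset.mem_filter, Finset.mem_union, Finsupp.mem_support_iff, hP, and_true,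
      not_or, not_not, dv_apply] at hPS
    rw [hPS.1, hPS.2, add_zero]
    exact hnn

/-- rewriting a polynomial in `j` as one in the chart's coordinate -/
theorem exists_conv : ∀ (s : Bool) (P : A[X]) (M : ℕ), P.natDegree ≤ M →
    ∃ R : A[X], phiA A N s R = tB N s ^ M * phiA A N false P
  | false, P, M, _ => ⟨Polynomial.X ^ M * P, by rw [map_mul, map_pow]; simp [phiA]⟩
  | true, P, M, hM => by
      refine ⟨∑ i ∈ Finset.range (M + 1), Polynomial.C (P.coeff i) * Polynomial.X ^ (M - i), ?_⟩
      have hP : phiA A N false P =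
          ∑ i ∈ Finset.range (M + 1), cB N ((P.coeff i : A) : Qb) * tB N false ^ i := by
        conv_lhs => rw [P.as_sum_range' (M + 1) (by omega)]
        rw [map_sum]
        refine Finset.sum_congr rfl fun i _ => ?_
        rw [← Polynomial.C_mul_X_pow_eq_monomial, map_mul, map_pow]
        simp [phiA]
      rw [hP, map_sum, Finset.mul_sum]
      refine Finset.sum_congr rfl fun i hi => ?_
      rw [Finset.mem_range] at hi
      have hj := tB_ne_zero N false
      have ht : tB N true = (tB N false)⁻¹ := by simpa using tB_not N false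
      rw [map_mul, map_pow, show phiA A N true Polynomial.X = tB N true by simp [phiA],
        show phiA A N true (Polynomial.C (P.coeff i)) = cB N ((P.coeff i : A) : Qb) by simp [phiA],
        ht, inv_pow, inv_pow, show M = (M - i) + i by omega, pow_add, Nat.add_sub_cancel]
      field_simp

/-- Gauss's lemma for coefficient bounds -/
theorem valuation_coeff_le {P R : A[X]} (hP : P.map (residue A) ≠ 0) {p : Qb[X]} {c : Qb}
    (h : P.map A.subtype * p = Polynomial.C c * R.map A.subtype) (k : ℕ) :
    A.valuation (p.coeff k) ≤ A.valuation c := by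
  rcases eq_or_ne p 0 with rfl | hp
  · simp
  obtain ⟨μ, p₀, hμ, hp₀, _, hp₀'⟩ := exists_normalize (A := A) (fun _ : Unit => p) ⟨(), hp⟩
  have hne : (P * p₀ ()).map (residue A) ≠ 0 := by
    rw [Polynomial.map_mul]; exact mul_ne_zero hP hp₀'
  obtain ⟨i, hi⟩ : ∃ i, residue A ((P * p₀ ()).coeff i) ≠ 0 := by
    by_contra hc
    push Not at hc
    exact hne (Polynomial.ext fun i => by rw [Polynomial.coeff_map, hc, Polynomial.coeff_zero])
  have h2 : Polynomial.C μ * (P * p₀ ()).map A.subtype = Polynomial.C c * R.map A.subtype := by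
    rw [← h, ← hp₀ (), Polynomial.map_mul]
    ring
  have h3 := congrArg (fun q => A.valuation (Polynomial.coeff q i)) h2
  simp only [Polynomial.coeff_C_mul, Polynomial.coeff_map, map_mul] at h3
  rw [show A.valuation (A.subtype ((P * p₀ ()).coeff i)) = 1 from (res_ne_zero_iff A _).mp hi,
    mul_one] at h3
  calc A.valuation (p.coeff k) = A.valuation μ * A.valuation (A.subtype ((p₀ ()).coeff k)) := by
        rw [← hp₀ (), Polynomial.coeff_C_mul, Polynomial.coeff_map, map_mul]
    _ ≤ A.valuation μ * 1 := mul_le_mul_right (val_le_one_of_mem ((p₀ ()).coeff k).2) _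
    _ = A.valuation c * A.valuation (A.subtype (R.coeff i)) := by rw [mul_one, h3]
    _ ≤ A.valuation c * 1 := mul_le_mul_right (val_le_one_of_mem (R.coeff i).2) _
    _ = A.valuation c := mul_one _

variable (C : Ctx A N ℓ)
include C

/-- coordinates of a Gauss integral element in the lifted basis, in any chart -/
theorem exists_repr_chart (B : Basis0 A N) (s : Bool) {z : FB N} (hz : z ∈ GR A N) :
    ∃ (Q : A[X]) (P : Fin (idx N) → A[X]), Q.map (residue A) ≠ 0 ∧
      z * phiA A N s Q = ∑ i, phiA A N s (P i) * B.e i := by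
  classical
  rcases eq_or_ne z 0 with rfl | hz0
  · exact ⟨1, 0, by simp, by simp⟩
  obtain ⟨c, Q, P, hc, hQ, ⟨i, hi⟩, h⟩ := exists_repr C B hz0
  have hcA : c ∈ A := mem_A_of_cB_mul C (comb_mem C B P)
    (fun h0 => hi ((redS_comb C B P).2 h0 i)) (h ▸ mul_mem hz (phiA_mem false Q))
  set M := max Q.natDegree (Finset.univ.sup fun j => (Polynomial.C (⟨c, hcA⟩ : A) * P j).natDegree)
  obtain ⟨Q', hQ'⟩ := exists_conv (A := A) (N := N) s Q M (le_max_left _ _)
  have hP' : ∀ j, ∃ R : A[X], phiA A N s R =
      tB N s ^ M * phiA A N false (Polynomial.C (⟨c, hcA⟩ : A) * P j) := fun j =>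
    exists_conv s _ M (le_trans
      (Finset.le_sup (f := fun j => (Polynomial.C (⟨c, hcA⟩ : A) * P j).natDegree) (Finset.mem_univ j))
      (le_max_right _ _))
  choose R hR using hP'
  refine ⟨Q', R, fun h0 => ?_, ?_⟩
  · have h1 := red_phiA C s Q'
    rw [h0, map_zero, hQ', red_mul C (pow_mem (tB_mem s) M) (phiA_mem false Q),
      red_pow C (tB_mem s), red_tB C, red_phiA C, mul_eq_zero] at h1
    rcases h1 with h1 | h1
    · exact pow_ne_zero _ (tS_ne_zero A N s) h1
    · exact hQ (transcendental_iff.mp (transcendental_tS A N false) _ h1)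
  · rw [hQ', mul_left_comm, h, Basis0.comb, Finset.mul_sum, Finset.mul_sum]
    refine Finset.sum_congr rfl fun j _ => ?_
    rw [hR j, map_mul, show phiA A N false (Polynomial.C (⟨c, hcA⟩ : A)) = cB N c by simp [phiA]]
    ring

/-- a basis of the lattice with bounded coordinates -/
theorem exists_lattice_basis (s : Bool) (D : Divisor Qb (FB N)) (n : ℕ)
    (hn : ∀ P : PB N, Bd P (tB N s) 0 → 0 ≤ D P + n * P.ord (tB N s)) :
    ∃ (r : ℕ) (b : Fin r → FB N) (γ : Qb), γ ≠ 0 ∧ (∀ i, b i ∈ Lat s D) ∧
      (∀ y ∈ Lat s D, ∃ p : Fin r → Qb[X], lc s b p = y) ∧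
      Function.Injective (lc s b) ∧
      ∀ (p : Fin r → Qb[X]) (a : Qb), Sm A a (lc s b p) →
        ∀ i k, A.valuation ((p i).coeff k) ≤ A.valuation (a * γ) := by
  classical
  haveI := finite_tB N s
  haveI := separable_tB N s
  obtain ⟨B⟩ := nonempty_basis0 C
  refine with_sepChart (transcendental_tB N s) ?_
  intro _ _ _ _ _ _ hp hxv _
  let L : Submodule Qb[X] (FB N) :=
    { carrier := {y | y ∈ Lat s D}
      add_mem' := fun ha hb => (Lat s D).add_mem ha hb
      zero_mem' := (Lat s D).zero_mem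
      smul_mem' := fun q y hy => by
        show q • y ∈ Lat s D
        rw [Algebra.smul_def, hp]
        exact regOn_mul_mem_Lat (Algebra.adjoin_le (Set.singleton_subset_iff.mpr (self_mem_regOn _))
          (Polynomial.aeval_mem_adjoin_singleton Qb _)) hy }
  have hint : ∀ y : L, IsIntegral Qb[X] (tB N s ^ n * (y : FB N)) := by
    intro y
    refine RR.Chart.mem_A_of_bd (K := Qb) fun v hv => ?_
    have hv' : Bd v (tB N s) 0 := by rw [← hxv]; exact hv
    rcases eq_or_ne (y : FB N) 0 with h0 | h0
    · rw [h0, mul_zero]; exact RR.Bd.zero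
    · rw [RR.bd_iff_ord (mul_ne_zero (pow_ne_zero _ (tB_ne_zero N s)) h0),
        v.ord_mul (pow_ne_zero _ (tB_ne_zero N s)) h0, RR.ord_pow]
      have h1 := ord_le_of_mem_Lat y.2 h0 hv'
      have h2 := hn v hv'
      omega
  let f : L →ₗ[Qb[X]] RR.Chart.A Qb (FB N) :=
    { toFun := fun y => ⟨tB N s ^ n * (y : FB N), hint y⟩
      map_add' := fun y y' => Subtype.ext (by simp [mul_add])
      map_smul' := fun q y => Subtype.ext (by
        show tB N s ^ n * (q • (y : FB N)) = q • (tB N s ^ n * (y : FB N))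
        exact mul_smul_comm q _ _) }
  have hf : Function.Injective f := fun y y' h => Subtype.ext
    (mul_left_cancel₀ (pow_ne_zero n (tB_ne_zero N s)) (congrArg Subtype.val h))
  obtain ⟨r, b0⟩ := Submodule.basisOfPid (RR.Chart.bA Qb (FB N)) (LinearMap.range f)
  set bL : Module.Basis (Fin r) Qb[X] L := b0.map (LinearEquiv.ofInjective f hf).symm
  set b : Fin r → FB N := fun i => (bL i : FB N) with hb
  have hlc : ∀ p : Fin r → Qb[X], lc s b p = ((∑ i, p i • bL i : L) : FB N) := by
    intro p
    rw [lc, AddSubmonoidClass.coe_finset_sum]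
    refine Finset.sum_congr rfl fun i _ => ?_
    rw [SetLike.val_smul, Algebra.smul_def, hp]
  have hinj : Function.Injective (lc s b) := by
    intro p p' h
    rw [hlc, hlc] at h
    funext i
    have := congrArg (fun y => bL.repr y i) (Subtype.ext h :
      (∑ i, p i • bL i : L) = ∑ i, p' i • bL i)
    simpa [Finsupp.single_apply] using this
  have hspan : ∀ y ∈ Lat s D, ∃ p : Fin r → Qb[X], lc s b p = y := fun y hy =>
    ⟨fun i => bL.repr ⟨y, hy⟩ i, by rw [hlc, bL.sum_repr]⟩
  choose q hq0 hq using fun l => exists_poly_clear s D (B.e l)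
  set qq := ∏ l, q l with hqq
  have hqq0 : qq ≠ 0 := Finset.prod_ne_zero_iff.mpr fun l _ => hq0 l
  have hqe : ∀ l, ∃ p : Fin r → Qb[X], lc s b p = Polynomial.aeval (tB N s) qq * B.e l := fun l => by
    refine hspan _ ?_
    rw [hqq, ← Finset.mul_prod_erase _ _ (Finset.mem_univ l), mul_comm (q l), map_mul, mul_assoc]
    exact regOn_mul_mem_Lat (Algebra.adjoin_le (Set.singleton_subset_iff.mpr (self_mem_regOn _))
      (Polynomial.aeval_mem_adjoin_singleton Qb _)) (hq l)
  choose ql hql using hqe
  obtain ⟨δ, qA, hδ, hqA, _, hqA'⟩ := exists_normalize (A := A) (fun _ : Unit => qq) ⟨(), hqq0⟩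
  obtain ⟨μ, hμ, hμA⟩ : ∃ μ : Qb, μ ≠ 0 ∧
      ∀ l i, ∃ R : A[X], Polynomial.C μ * R.map A.subtype = ql l i := by
    by_cases h : ∃ x : Fin (idx N) × Fin r, ql x.1 x.2 ≠ 0
    · obtain ⟨μ, R, hμ, hR, -⟩ := exists_normalize (A := A)
        (fun x : Fin (idx N) × Fin r => ql x.1 x.2) h
      exact ⟨μ, hμ, fun l i => ⟨R (l, i), hR (l, i)⟩⟩
    · push Not at h
      exact ⟨1, one_ne_zero, fun l i => ⟨0, by simpa using (h (l, i)).symm⟩⟩
  choose R hR using hμA
  refine ⟨r, b, μ / δ, div_ne_zero hμ hδ, fun i => (bL i).2, hspan, hinj, fun p a hsm i k => ?_⟩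
  obtain ⟨z, hz, hze⟩ := hsm
  obtain ⟨Q, P, hQ, hQP⟩ := exists_repr_chart C B s hz
  have key : lc s b (fun i => Q.map A.subtype * qq * p i) =
      lc s b (fun i => ∑ l, Polynomial.C a * (P l).map A.subtype * ql l i) := by
    calc lc s b (fun i => Q.map A.subtype * qq * p i)
        = phiA A N s Q * Polynomial.aeval (tB N s) qq * lc s b p := by
          simp only [lc, Finset.mul_sum, phiA_apply, map_mul, mul_assoc]
      _ = cB N a * (Polynomial.aeval (tB N s) qq * ∑ l, phiA A N s (P l) * B.e l) := by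
          rw [hze, ← hQP]; ring
      _ = ∑ l, cB N a * phiA A N s (P l) * lc s b (ql l) := by
          rw [Finset.mul_sum, Finset.mul_sum]
          refine Finset.sum_congr rfl fun l _ => ?_
          rw [hql]; ring
      _ = lc s b (fun i => ∑ l, Polynomial.C a * (P l).map A.subtype * ql l i) := by
          simp only [lc, map_sum, Finset.sum_mul, Finset.mul_sum]
          rw [Finset.sum_comm]
          refine Finset.sum_congr rfl fun i _ => Finset.sum_congr rfl fun l _ => ?_
          rw [phiA_apply, map_mul, map_mul, aeval_C]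
          ring
  have hi := congrFun (hinj key) i
  have hfin : (Q * qA ()).map A.subtype * p i =
      Polynomial.C (a * (μ / δ)) * (∑ l, P l * R l i).map A.subtype := by
    refine mul_left_cancel₀ (Polynomial.C_ne_zero.mpr hδ) ?_
    rw [← mul_assoc, Polynomial.map_mul, mul_left_comm, hqA, hi, ← mul_assoc,
      ← Polynomial.C_mul, show δ * (a * (μ / δ)) = a * μ by field_simp, Polynomial.map_sum,
      Finset.mul_sum]
    refine Finset.sum_congr rfl fun l _ => ?_
    rw [← hR l i, Polynomial.map_mul, Polynomial.C_mul]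
    ring
  exact valuation_coeff_le (by rw [Polynomial.map_mul]; exact mul_ne_zero hQ hqA') hfin k

end FLTAgent.DS.Red
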