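import Fermat.Agent.DS.CurveAPI

/-!
The levels `(M, Δ)` with `-1 ∈ Δ`, the level `(M p, Δ')` above, and the two degeneracy maps
`α` (inclusion) and `φ = β ∘ <p>`, `β f = f(pτ)`.
-/

set_option autoImplicit false
set_option synthInstance.maxHeartbeats 100000
set_option linter.unusedSectionVars false

noncomputable section

open ModularCurve AlgebraicCurve CongruenceSubgroup
open scoped MatrixGroups

namespace FLTAgent.DS.Red

/-- the algebraic closure of `ℚ` -/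
local notation "Kb" => AlgebraicClosure ℚ

/-- a level `H`: `M` and `Δ ∋ -1` -/
structure Lvl where
  M : ℕ
  [neM : NeZero M]
  Δ : Subgroup (ZMod M)ˣ
  neg_mem : (-1 : (ZMod M)ˣ) ∈ Δ

attribute [instance] Lvl.neM

namespace Lvl

/-- `ℚ̄(X_H)` as a subfield of `ℚ̄((q))` -/
abbrev fieldB (N : Lvl) : IntermediateField Kb (LaurentSeries Kb) := FBH N.M N.Δ

instance fnFieldH (N : Lvl) : RR.FnField Kb ↥(FBH N.M N.Δ) where
  exists_transcendental := ⟨jBarH N.M N.Δ, transcendental_jBarH, finite_FBH N.neg_mem⟩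

/-- the level `(M p, Δ')` -/
def up (N : Lvl) (p : ℕ) [NeZero p] : Lvl where
  M := N.M * p
  Δ := N.Δ.comap (ZMod.unitsMap (dvd_mul_right N.M p))
  neg_mem := by
    rw [Subgroup.mem_comap]
    convert N.neg_mem
    refine Units.ext ?_
    rw [ZMod.unitsMap_def, Units.coe_map, Units.val_neg, Units.val_one, Units.val_neg, Units.val_one]
    simp

variable (N : Lvl) (p : ℕ) [NeZero p]

theorem up_M : (N.up p).M = N.M * p := rfl

theorem mem_up_iff {u : (ZMod (N.M * p))ˣ} :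
    u ∈ (N.up p).Δ ↔ ZMod.unitsMap (dvd_mul_right N.M p) u ∈ N.Δ := Iff.rfl

theorem grpH_up_le : grpH (N.up p).M (N.up p).Δ ≤ grpH N.M N.Δ :=
  grpH_le_of_dvd (dvd_mul_right N.M p) fun _ h => h

/-- the inclusion -/
def alpha : ↥(FBH N.M N.Δ) →ₐ[Kb] ↥(FBH (N.up p).M (N.up p).Δ) :=
  IntermediateField.inclusion (E := FBH N.M N.Δ) (F := FBH (N.up p).M (N.up p).Δ)
    (FBH_mono (N.grpH_up_le p))

theorem coe_alpha (x : ↥(FBH N.M N.Δ)) :
    (N.alpha p x : LaurentSeries Kb) = (x : LaurentSeries Kb) :=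
  IntermediateField.coe_inclusion _ x

theorem qExpand_mem_up {x : LaurentSeries Kb} (hx : x ∈ FBH N.M N.Δ) :
    qExpand Kb p x ∈ FBH (N.up p).M (N.up p).Δ :=
  qExpand_mem_FBH p (M' := (N.up p).M) (mul_comm p N.M ▸ dvd_rfl : p * N.M ∣ N.M * p)
    (fun _ h => h) hx

/-- `f ↦ f(pτ)` -/
def beta : ↥(FBH N.M N.Δ) →ₐ[Kb] ↥(FBH (N.up p).M (N.up p).Δ) where
  toFun x := ⟨qExpand Kb p (x : LaurentSeries Kb), N.qExpand_mem_up p x.2⟩
  map_one' := Subtype.ext (map_one (qExpand Kb p))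
  map_mul' _ _ := Subtype.ext (map_mul (qExpand Kb p) _ _)
  map_zero' := Subtype.ext (map_zero (qExpand Kb p))
  map_add' _ _ := Subtype.ext (map_add (qExpand Kb p) _ _)
  commutes' r := Subtype.ext (by
    show qExpand Kb p (algebraMap Kb (LaurentSeries Kb) r) = algebraMap Kb (LaurentSeries Kb) r
    exact qExpand_algebraMap p r)

theorem coe_beta (x : ↥(FBH N.M N.Δ)) :
    (N.beta p x : LaurentSeries Kb) = qExpand Kb p (x : LaurentSeries Kb) := rfl

/-- `f ↦ (<d> f)(pτ)` -/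
def phi (d : (ZMod N.M)ˣ) : ↥(FBH N.M N.Δ) →ₐ[Kb] ↥(FBH (N.up p).M (N.up p).Δ) :=
  (N.beta p).comp (diamond N.neg_mem d : ↥(FBH N.M N.Δ) →ₐ[Kb] ↥(FBH N.M N.Δ))

theorem coe_phi (d : (ZMod N.M)ˣ) (x : ↥(FBH N.M N.Δ)) :
    (N.phi p d x : LaurentSeries Kb) =
      qExpand Kb p (diamond N.neg_mem d x : LaurentSeries Kb) := rfl

end Lvl

end FLTAgent.DS.Red

end
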