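import Fermat.Agent.DS.Red.Atkin
import Fermat.Agent.DS.Red.Frob
import Fermat.Agent.Reduction.Twist

/-!
The norm from `X_{H'}` to `X_H` of `(<ℓ> f)(ℓτ)`, and its reduction modulo `ℓ`.
-/

set_option autoImplicit false
set_option linter.unusedSectionVars false
set_option linter.style.haveILetI false
set_option synthInstance.maxHeartbeats 200000

noncomputable section

open ModularCurve AlgebraicCurve IsLocalRing

namespace FLTAgent.DS.Red

open FLTAgent.Reduction
open Genus (embC)

variable {N : Lvl} {ℓ : ℕ} [NeZero ℓ]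

/-- the norm is the product over the conjugates, given in any field -/
theorem norm_eq_prod_homsH {F L M : Type*} [Field F] [Field L] [Field M] [Algebra F L]
    [Module.Finite F L] [Algebra.IsSeparable F L] (b : F →+* M) {I : Type*} [Fintype I]
    (e : I → (L →+* M)) (he : ∀ i g, e i (algebraMap F L g) = b g) (hinj : Function.Injective e)
    (hcard : Fintype.card I = Module.finrank F L) (x : L) :
    b (Algebra.norm F x) = ∏ i, e i x := by
  classical
  letI : Algebra F (AlgebraicClosure M) := ((algebraMap M (AlgebraicClosure M)).comp b).toAlgebra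
  let E : I → (L →ₐ[F] AlgebraicClosure M) := fun i =>
    { toRingHom := (algebraMap M (AlgebraicClosure M)).comp (e i)
      commutes' := fun g => congrArg (algebraMap M (AlgebraicClosure M)) (he i g) }
  have hE : Function.Injective E := fun i j h => hinj (RingHom.ext fun y =>
    (algebraMap M (AlgebraicClosure M)).injective (DFunLike.congr_fun h y))
  have hbij : Function.Bijective E :=
    (Fintype.bijective_iff_injective_and_card E).mpr ⟨hE, by rw [AlgHom.card, hcard]⟩
  refine (algebraMap M (AlgebraicClosure M)).injective ?_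
  refine (Algebra.norm_eq_prod_embeddings F (AlgebraicClosure M) x).trans ?_
  rw [← Fintype.prod_bijective E hbij (fun i => E i x) _ (fun i => rfl), map_prod]
  rfl

/-- the norm along `α` of the image under `φ` -/
def normPhiW (N : Lvl) (ℓ : ℕ) [NeZero ℓ] (u : (ZMod N.M)ˣ) (f : FB N) : FB N :=
  letI := algebraAlong (N.alpha ℓ)
  Algebra.norm (FB N) (N.phi ℓ u f)

theorem coeffMap_embC_jqModC : coeffMap embC (jqModC Qb) = jqModC ℂ := coeffMap_jqModC _

theorem twist_jqModC_neg_one (u : ℂˣ) :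
    (twist u (jqModC ℂ)).coeff (-1) = ((u ^ (-1 : ℤ) : ℂˣ) : ℂ) := by
  rw [twist_coeff, coeff_jqModC_neg_one, mul_one]

set_option maxHeartbeats 1600000 in
/-- the norm as a product over the `ℓ + 1` conjugates, after substituting `q ↦ q^ℓ` -/
theorem qExpand_normPhiW (hℓ : ℓ.Prime) (hℓN : ¬ ℓ ∣ N.M) {u : (ZMod N.M)ˣ}
    (hu' : (u : ZMod N.M) = ℓ) {ζ : Qbˣ} (hζ : IsPrimitiveRoot ζ ℓ) (f : FB N) :
    qExpand Qb ℓ ((normPhiW N ℓ u f : FB N) : LaurentSeries Qb) =
      qExpand Qb ℓ (qExpand Qb ℓ (diamond N.neg_mem u f : LaurentSeries Qb)) *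
        ∏ i : Fin ℓ, twist (ζ ^ (i : ℕ)) (f : LaurentSeries Qb) := by
  classical
  obtain ⟨T⟩ := nonempty_atk hℓ hℓN
  letI := algebraAlong (N.alpha ℓ)
  haveI := isScalarTower_along (N.alpha ℓ)
  haveI hfin : Module.Finite (FB N) (FB (N.up ℓ)) := HeckeJ.finiteAlong (N.alpha ℓ)
  haveI : CharZero (FB N) := charZero_of_injective_algebraMap (algebraMap Qb (FB N)).injective
  haveI : Algebra.IsIntegral (FB N) (FB (N.up ℓ)) := Algebra.IsIntegral.of_finite _ _
  haveI : Algebra.IsSeparable (FB N) (FB (N.up ℓ)) := Algebra.IsSeparable.of_integral _ _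
  let cC : LaurentSeries Qb →+* LaurentSeries ℂ := coeffMap embC
  let vN : FB N →+* LaurentSeries ℂ := cC.comp (FBH N.M N.Δ).val.toRingHom
  let vM : FB (N.up ℓ) →+* LaurentSeries ℂ := cC.comp (FBH (N.up ℓ).M (N.up ℓ).Δ).val.toRingHom
  have hvN : ∀ g, vN g = coeffMap embC (g : LaurentSeries Qb) := fun g => rfl
  have hα : ∀ g : FB N, algebraMap (FB N) (FB (N.up ℓ)) g = N.alpha ℓ g := fun g => rfl
  set uC : ℂˣ := Units.map (embC : Qb →* ℂ) ζ with huC
  have huC' : IsPrimitiveRoot uC ℓ := hζ.map_of_injective (Units.map_injective embC.injective)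
  let e : Option (Fin ℓ) → (FB (N.up ℓ) →+* LaurentSeries ℂ) := fun o =>
    o.elim ((qExpand ℂ ℓ).comp vM) fun i => (twist (uC ^ (i : ℕ))).comp T.wHom
  have he₀ : ∀ x, e none x = qExpand ℂ ℓ (coeffMap embC (x : LaurentSeries Qb)) := fun x => rfl
  have he₁ : ∀ i x, e (some i) x = twist (uC ^ (i : ℕ)) (T.wHom x) := fun i x => rfl
  have he : ∀ o g, e o (algebraMap (FB N) (FB (N.up ℓ)) g) = ((qExpand ℂ ℓ).comp vN) g := by
    rintro (_ | i) g
    · rw [he₀, hα, N.coe_alpha, RingHom.comp_apply, hvN]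
    · rw [he₁, hα, T.wHom_alpha, RingHom.comp_apply, hvN,
        twist_qExpand _ _ (by rw [← pow_mul, mul_comm, pow_mul, huC'.pow_eq_one, one_pow])]
  -- the conjugates of `j(ℓτ)` are distinct
  have hj : ((jBarH N.M N.Δ : FB N) : LaurentSeries Qb) = jqModC Qb := by
    rw [jqModC_eq_coeffEmb]; rfl
  have hE0 : e none (N.phi ℓ u (jBarH N.M N.Δ)) = qExpand ℂ ℓ (qExpand ℂ ℓ (jqModC ℂ)) := by
    rw [he₀, N.coe_phi, diamond_jBarH, hj, ModFun.coeffMap_qExpand, coeffMap_embC_jqModC]
  have hE1 : ∀ i, e (some i) (N.phi ℓ u (jBarH N.M N.Δ)) =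
      twist (uC ^ (i : ℕ)) (jqModC ℂ) := fun i => by
    rw [he₁, T.wHom_phi hu', hj, coeffMap_embC_jqModC]
  have hnd : ¬ (ℓ : ℤ) ∣ -1 := fun h => hℓ.one_lt.ne' (Nat.eq_one_of_dvd_one
    (by exact_mod_cast (dvd_neg.mp h)))
  have hinj : Function.Injective e := by
    have hne : ∀ i, e none ≠ e (some i) := fun i h => by
      have h1 := congrArg (fun s : LaurentSeries ℂ => s.coeff (-1))
        ((hE0.symm.trans (DFunLike.congr_fun h _)).trans (hE1 i))
      simp only [twist_jqModC_neg_one, qExpand_coeff_of_not_dvd ℓ _ hnd] at h1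
      exact ((uC ^ (i : ℕ)) ^ (-1 : ℤ)).ne_zero h1.symm
    rintro (_ | i) (_ | j) h
    · rfl
    · exact absurd h (hne j)
    · exact absurd h.symm (hne i)
    · have h1 := congrArg (fun s : LaurentSeries ℂ => s.coeff (-1))
        (((hE1 i).symm.trans (DFunLike.congr_fun h _)).trans (hE1 j))
      simp only [twist_jqModC_neg_one] at h1
      have h2 : uC ^ (i : ℕ) = uC ^ (j : ℕ) := by
        simpa using Units.ext h1
      rw [Fin.ext (huC'.pow_inj i.2 j.2 h2)]
  have hcard : Fintype.card (Option (Fin ℓ)) = Module.finrank (FB N) (FB (N.up ℓ)) := by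
    rw [Fintype.card_option, Fintype.card_fin]
    exact (finrankAlong_alpha hℓ hℓN).symm
  have hn := norm_eq_prod_homsH ((qExpand ℂ ℓ).comp vN) e he hinj hcard (N.phi ℓ u f)
  rw [RingHom.comp_apply, hvN, Fintype.prod_option, he₀, N.coe_phi, ModFun.coeffMap_qExpand] at hn
  refine coeffMap_embC_inj ?_
  rw [ModFun.coeffMap_qExpand, map_mul, map_prod, ModFun.coeffMap_qExpand, ModFun.coeffMap_qExpand]
  refine hn.trans (congrArg _ (Finset.prod_congr rfl fun i _ => ?_))
  rw [he₁, T.wHom_phi hu', coeffMap_twist, map_pow]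

variable {A : ValuationSubring Qb} (C : Ctx A N ℓ)
include C

/-- the diamond on the special fibre -/
def diaS : (ZMod N.M)ˣ →* (FS A N ≃ₐ[kA A] FS A N) :=
  (exists_diamondRes A C.prime C.not_dvd C.lies N.neg_mem).choose

theorem BT_diamond {b : FB N} (hb : BT A N false b) (d : (ZMod N.M)ˣ) :
    BT A N false (diamond N.neg_mem d b) :=
  (BT_fin_iff A N _).mpr (inFinH_diamond N.neg_mem A d b ((BT_fin_iff A N b).mp hb))

theorem red_diamond {b : FB N} (hb : BT A N false b) (d : (ZMod N.M)ˣ) :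
    red A N (diamond N.neg_mem d b) = diaS C d (red A N b) := by
  obtain ⟨G, x, hG, hx, -⟩ := exists_series_BT C false hb
  obtain ⟨G', x', hG', hx', -⟩ := exists_series_BT C false (BT_diamond C hb d)
  refine Subtype.ext ?_
  rw [coe_red C (mem_GR_of_series hG'), redS_series hG']
  refine ((exists_diamondRes A C.prime C.not_dvd C.lies N.neg_mem).choose_spec d b G G' _
    ((BT_fin_iff A N b).mp hb) hG hG' ?_).symm
  rw [coe_red C (mem_GR_of_series hG), redS_series hG]

set_option maxHeartbeats 800000 in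
/-- Kronecker: the norm reduces to `Φ ȳ · (Φ⁻¹ <ℓ> ȳ)^ℓ` -/
theorem red_normPhiW (hst : Stable A N (frobK C)) {u : (ZMod N.M)ˣ} (hu' : (u : ZMod N.M) = ℓ)
    {f : FB N} (hf : BT A N false f) :
    normPhiW N ℓ u f ∈ GR A N ∧
      red A N (normPhiW N ℓ u f) =
        fullAut hst • red A N f * ((fullAut hst)⁻¹ • diaS C u (red A N f)) ^ ℓ := by
  classical
  haveI := Fact.mk C.prime
  haveI := charP_residue A C.prime C.lies
  haveI : NeZero (ℓ : Qb) := ⟨Nat.cast_ne_zero.mpr C.prime.ne_zero⟩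
  obtain ⟨G, x, hG, hx, -⟩ := exists_series_BT C false hf
  obtain ⟨G', x', hG', hx', -⟩ := exists_series_BT C false (BT_diamond C hf u)
  have hfr : (red A N f : LaurentSeries (kA A)) = dn A G := by
    rw [coe_red C (mem_GR_of_series hG), redS_series hG]
  have hfr' : (diaS C u (red A N f) : LaurentSeries (kA A)) = dn A G' := by
    rw [← red_diamond C hf u, coe_red C (mem_GR_of_series hG'), redS_series hG']
  obtain ⟨ζ, hζ⟩ := HasEnoughRootsOfUnity.exists_primitiveRoot Qb ℓ
  have hζA : ζ ∈ A := mem_A_of_isIntegral A ⟨Polynomial.X ^ ℓ - 1,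
    Polynomial.monic_X_pow_sub_C 1 C.prime.ne_zero, by simp [hζ.pow_eq_one]⟩
  have hζ' : (⟨ζ, hζA⟩ : A) ^ ℓ = 1 := Subtype.ext hζ.pow_eq_one
  set uA : Aˣ := Units.ofPowEqOne ⟨ζ, hζA⟩ ℓ hζ' C.prime.ne_zero with huA
  have hu : IsPrimitiveRoot (Units.map (A.subtype : A →* Qb) uA) ℓ :=
    IsPrimitiveRoot.coe_units_iff.mp (by simpa [huA] using hζ)
  have hu1 : Units.map (residue A : A →* kA A) uA = 1 := by
    refine Units.ext ?_
    have h1 : (residue A ⟨ζ, hζA⟩ - 1) ^ ℓ = 0 := by
      rw [sub_pow_char, ← map_pow, hζ', map_one, one_pow, sub_self]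
    simpa [huA, sub_eq_zero] using eq_zero_of_pow_eq_zero h1
  set H : LaurentSeries A := qExpand A ℓ (qExpand A ℓ G') * ∏ i : Fin ℓ, twist (uA ^ (i : ℕ)) G
    with hH
  have hupH : up A H = qExpand Qb ℓ ((normPhiW N ℓ u f : FB N) : LaurentSeries Qb) := by
    rw [qExpand_normPhiW C.prime C.not_dvd hu' hu, hH, map_mul, map_prod, coeffMap_qExpand,
      coeffMap_qExpand, hG']
    refine congrArg _ (Finset.prod_congr rfl fun i _ => ?_)
    rw [coeffMap_twist, hG, map_pow]
  have hdiv : ∀ k : ℤ, ¬ (ℓ : ℤ) ∣ k → H.coeff k = 0 := fun k hk => Subtype.ext (by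
    have h1 := congrArg (fun s : LaurentSeries Qb => s.coeff k) hupH
    simpa [qExpand_coeff_of_not_dvd ℓ _ hk] using h1)
  have hN' : up A (deflate ℓ H) = ((normPhiW N ℓ u f : FB N) : LaurentSeries Qb) := by
    refine qExpand_injective (R := Qb) (N := ℓ) ?_
    rw [← coeffMap_qExpand, qExpand_deflate ℓ H hdiv, hupH]
  refine ⟨mem_GR_of_series hN', Subtype.ext ?_⟩
  rw [coe_red C (mem_GR_of_series hN'), redS_series hN', MulMemClass.coe_mul,
    SubmonoidClass.coe_pow, coe_fullAut_smul, coe_fullAut_inv_smul, hfr, hfr']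
  refine qExpand_injective (R := kA A) (N := ℓ) ?_
  rw [← coeffMap_qExpand, qExpand_deflate ℓ H hdiv, hH, map_mul, map_prod, coeffMap_qExpand,
    coeffMap_qExpand, map_mul, map_pow]
  have hp : ∀ i : Fin ℓ, coeffMap (residue A) (twist (uA ^ (i : ℕ)) G) = dn A G := fun i => by
    rw [coeffMap_twist, map_pow, hu1, one_pow, twist_one_apply]
  rw [Finset.prod_congr rfl fun i _ => hp i, Finset.prod_const, Finset.card_univ, Fintype.card_fin]
  have hfrob : ∀ z : LaurentSeries (kA A),
      z ^ ℓ = qExpand (kA A) ℓ (coeffMap (frobK C : kA A →+* kA A) z) := fun z =>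
    (pow_char_eq ℓ z).trans (congrArg _ (coeffMap_congr (RingHom.ext fun _ => rfl) z))
  have hinv : ∀ z : LaurentSeries (kA A),
      coeffMap (frobK C : kA A →+* kA A) (coeffMap ((frobK C).symm : kA A →+* kA A) z) = z := fun z => by
    rw [coeffMap_coeffMap, coeffMap_congr (g := RingHom.id _)
      (RingHom.ext fun a => (frobK C).apply_symm_apply a) z, coeffMap_id]
  have hz : coeffMap ((frobK C).symm : kA A →+* kA A) (dn A G') ^ ℓ = qExpand (kA A) ℓ (dn A G') := by
    rw [hfrob, hinv]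
  rw [← map_pow (qExpand (kA A) ℓ), hz, hfrob (dn A G)]
  exact mul_comm _ _

end FLTAgent.DS.Red
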