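import Fermat.Agent.DS.Red.Hecke
import Fermat.Agent.DS.TorsOp
import Fermat.Agent.DS.CuspVal
import Fermat.Agent.Reduction.Twist

/-!
The norm defining `T_p` as a product over the `p + 1` conjugates, after `q ↦ q ^ p`.
-/

set_option autoImplicit false
set_option synthInstance.maxHeartbeats 200000
set_option linter.unusedSectionVars false
set_option linter.style.haveILetI false

noncomputable section

open UpperHalfPlane CongruenceSubgroup ModularCurve ModularForm AlgebraicCurve
  Matrix.SpecialLinearGroup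
open scoped MatrixGroups Manifold

namespace FLTAgent.DS.Red

open Genus (embC)
open ModFun (qx Good qp dil scale)
open JTors (HolH MeroH ofH pullSL pull)
open Reduction (twist)
open scoped Genus

local notation "Qb" => AlgebraicClosure ℚ
local notation "ps" => HahnSeries.ofPowerSeries ℤ ℂ

/-- products over the powers of a primitive root do not depend on the root -/
theorem prod_pow_primitiveRoot {K A : Type*} [Field K] [CommMonoid A] {n : ℕ} [NeZero n] {u v : K}
    (hu : IsPrimitiveRoot u n) (hv : IsPrimitiveRoot v n) (Φ : K → A) :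
    ∏ i : Fin n, Φ (v ^ (i : ℕ)) = ∏ i : Fin n, Φ (u ^ (i : ℕ)) := by
  choose e he1 he2 using fun i : Fin n => hu.eq_pow_of_pow_eq_one
    (ξ := v ^ (i : ℕ)) (by rw [← pow_mul, mul_comm, pow_mul, hv.pow_eq_one, one_pow])
  refine Fintype.prod_bijective (fun i => (⟨e i, he1 i⟩ : Fin n))
    ((Fintype.bijective_iff_injective_and_card _).mpr ⟨fun i j h => ?_, rfl⟩) _ _ fun i => ?_
  · refine Fin.ext (hv.pow_inj i.2 j.2 ?_)
    rw [← he2 i, ← he2 j, show e i = e j from congrArg Fin.val h]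
  · rw [← he2 i]

/-! ### translates -/

/-- `τ ↦ f (τ + b / p)` -/
def trn (p b : ℕ) [NeZero p] (f : ℍ → ℂ) : ℍ → ℂ :=
  dil p fun τ => f (ModularForm.heckeMatrix p b • τ)

theorem qp_heckeMatrix_scale (p b : ℕ) [NeZero p] (τ : ℍ) :
    qp (ModularForm.heckeMatrix p b • scale p τ) =
      Complex.exp (2 * Real.pi * Complex.I / p) ^ b * qp τ := by
  have hp : (p : ℂ) ≠ 0 := Nat.cast_ne_zero.mpr (NeZero.ne p)
  simp only [qp, Function.Periodic.qParam]
  rw [coe_heckeMatrix_smul (NeZero.ne p), ModFun.coe_scale, ← Complex.exp_nat_mul, ← Complex.exp_add]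
  congr 1
  field_simp
  push_cast
  ring

theorem hasSum_trn (p b : ℕ) [NeZero p] {f : ℍ → ℂ} (hf : Good f) (τ : ℍ) :
    HasSum (fun m => (qx f).coeff m * (Complex.exp (2 * Real.pi * Complex.I / p) ^ b) ^ m *
      qp τ ^ m) (trn p b f τ) := by
  convert hf.hasSum (ModularForm.heckeMatrix p b • scale p τ) using 1
  · funext m
    rw [qp_heckeMatrix_scale, mul_pow]
    ring
  · rfl

theorem good_trn (p b : ℕ) [NeZero p] {f : ℍ → ℂ} (hf : Good f) : Good (trn p b f) :=
  Good.good_of_hasSum (ModFun.mdiff_dil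
    (JTors.pullHol (ModularForm.heckeMatrix p b) (ModularForm.det_heckeMatrix_pos p b)
      ⟨f, hf.holo⟩).2 p) (hasSum_trn p b hf)

/-- the expansion of a translate is a twist -/
theorem qx_trn (p b : ℕ) [NeZero p] {f : ℍ → ℂ} (hf : Good f) (ξ : ℂˣ)
    (hξ : (ξ : ℂ) = Complex.exp (2 * Real.pi * Complex.I / p) ^ b) :
    ps (qx (trn p b f)) = twist ξ (ps (qx f)) := by
  rw [ModFun.coeff_unique' (good_trn p b hf) (hasSum_trn p b hf)]
  ext k
  rw [Reduction.twist_coeff]
  rcases lt_or_ge k 0 with hk | hk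
  · rw [ofPowerSeries_coeff_of_neg _ hk, ofPowerSeries_coeff_of_neg _ hk, mul_zero]
  lift k to ℕ using hk
  rw [HahnSeries.ofPowerSeries_apply_coeff, HahnSeries.ofPowerSeries_apply_coeff,
    PowerSeries.coeff_mk, zpow_natCast, Units.val_pow_eq_pow_val, hξ, mul_comm]

/-! ### expansions of products -/

theorem good_qx_prod {ι : Type*} (s : Finset ι) {F : ι → ℍ → ℂ} (h : ∀ i ∈ s, Good (F i)) :
    Good (∏ i ∈ s, F i) ∧ qx (∏ i ∈ s, F i) = ∏ i ∈ s, qx (F i) := by
  classical
  induction s using Finset.induction_on with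
  | empty => exact ⟨Good.one, by simpa using qExpansion_one 1⟩
  | insert a s ha ih =>
    obtain ⟨h1, h2⟩ := ih fun i hi => h i (Finset.mem_insert_of_mem hi)
    have h0 := h a (Finset.mem_insert_self _ _)
    rw [Finset.prod_insert ha, Finset.prod_insert ha]
    exact ⟨h0.mul h1, by rw [Good.qx_mul h0 h1, h2]⟩

/-! ### the norm -/

variable (N : Lvl)

/-- the norm along `α` of the image under `φ` -/
def normPhi (p : ℕ) [NeZero p] (d : (ZMod N.M)ˣ) (f : ↥(FBH N.M N.Δ)) : ↥(FBH N.M N.Δ) :=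
  letI := algebraAlong (N.alpha p)
  Algebra.norm ↥(FBH N.M N.Δ) (N.phi p d f)

variable (p : {p : Nat.Primes // ¬ (p : ℕ) ∣ N.M})

theorem normPhi_eq (d : (ZMod N.M)ˣ) (f : ↥(FBH N.M N.Δ)) :
    normPhi N (p.1 : ℕ) d f =
      (letI := algebraAlong (incH N.Δ (p.1 : ℕ))
       Algebra.norm ↥(FBH N.M N.Δ) (expandH N.Δ (p.1 : ℕ) (diamond N.neg_mem d f))) := rfl

/-- the element `bezElt` of `Γ₀(M)` -/
def bezG : Gamma0 N.M := ⟨bezElt p, by rw [Gamma0_mem]; simp [bezElt]⟩

theorem dHom_bezG : dHom N.M (bezG N p) * unitP N p = 1 := by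
  refine Units.ext ?_
  have h := congrArg (Int.cast : ℤ → ZMod N.M) (bez_eq p)
  push_cast at h
  rw [ZMod.natCast_self, zero_mul, sub_zero] at h
  rw [Units.val_mul, coe_dHom, coe_unitP, Units.val_one, mul_comm]
  simpa [bezG, bezElt] using h

theorem diag_mul_cosetRep (b : ZMod (p.1 : ℕ)) :
    ModularForm.heckeDiagMatrix (p.1 : ℕ) * mapGL ℝ (cosetRep p (some b)) =
      mapGL ℝ (bezElt p) * ModularForm.heckeMatrix (p.1 : ℕ) b.val := by
  have h : (((p.1 : ℕ) : ℝ)) * bezK p - (N.M : ℝ) * bezX p = 1 := by exact_mod_cast bez_eq p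
  have hm : ∀ g : SL(2, ℤ), ((mapGL ℝ g : GL (Fin 2) ℝ) : Matrix (Fin 2) (Fin 2) ℝ) =
      (g : Matrix (Fin 2) (Fin 2) ℤ).map (Int.castRingHom ℝ) := fun g => rfl
  refine Units.ext ?_
  rw [Units.val_mul, Units.val_mul, hm, hm,
    ModularForm.val_heckeDiagMatrix (NeZero.ne _), ModularForm.val_heckeMatrix (NeZero.ne _)]
  ext i j
  fin_cases i <;> fin_cases j <;>
    simp [cosetRep, bezElt, Matrix.mul_apply, Fin.sum_univ_two, -ZMod.natCast_val,
      Matrix.map_apply] <;>
    first | ring1 | linear_combination h | linear_combination -h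

set_option maxHeartbeats 1600000 in
/-- the norm as a product over the `p + 1` conjugates, after substituting `q ↦ q ^ p` -/
theorem qExpand_normPhi {u : Qbˣ} (hu : IsPrimitiveRoot u (p.1 : ℕ)) (f : ↥(FBH N.M N.Δ)) :
    qExpand Qb (p.1 : ℕ) (normPhi N (p.1 : ℕ) (unitP N p) f : LaurentSeries Qb) =
      qExpand Qb (p.1 : ℕ)
          (qExpand Qb (p.1 : ℕ) (diamond N.neg_mem (unitP N p) f : LaurentSeries Qb)) *
        ∏ i : Fin (p.1 : ℕ), twist (u ^ (i : ℕ)) (f : LaurentSeries Qb) := by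
  classical
  set P : ℕ := (p.1 : ℕ)
  set d := unitP N p
  set x := diamond N.neg_mem d f with hx
  obtain ⟨w, F, G, hf⟩ := exists_isQuotH f.2
  obtain ⟨w', F', G', hx'⟩ := exists_isQuotH x.2
  obtain ⟨v, A, B, hn⟩ := exists_isQuotH (normPhi N P d f).2
  -- the identity of meromorphic functions
  have key := evQ_norm (Δ := N.Δ) p N.neg_mem x
  rw [← normPhi_eq, Fintype.prod_option] at key
  have e0 : pull (ModularForm.heckeDiagMatrix P * mapGL ℝ (cosetRep p none))
      (JTors.det_pos_mul (JTors.det_diag_pos _) (JTors.det_pos_SL _)) (evQ N.M N.Δ x) =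
      ofH (JTors.pullHol _ (JTors.det_diag_pos P) ⟨F', hx'.num.holo⟩) /
        ofH (JTors.pullHol _ (JTors.det_diag_pos P) ⟨G', hx'.den.holo⟩) := by
    rw [JTors.pull_congr _ (JTors.det_diag_pos P) (show _ = ModularForm.heckeDiagMatrix P by
        rw [cosetRep, map_one, mul_one]), evQ_apply, evC_eq (X := toC N.M N.Δ x) hx', map_div₀,
      JTors.pull_ofH, JTors.pull_ofH]
  have e1 : ∀ b : ZMod P, pull (ModularForm.heckeDiagMatrix P * mapGL ℝ (cosetRep p (some b)))
      (JTors.det_pos_mul (JTors.det_diag_pos _) (JTors.det_pos_SL _)) (evQ N.M N.Δ x) =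
      ofH (JTors.pullHol _ (ModularForm.det_heckeMatrix_pos P b.val) ⟨F, hf.num.holo⟩) /
        ofH (JTors.pullHol _ (ModularForm.det_heckeMatrix_pos P b.val) ⟨G, hf.den.holo⟩) := fun b => by
    rw [JTors.pull_congr _ (JTors.det_pos_mul (JTors.det_pos_SL (bezElt p))
        (ModularForm.det_heckeMatrix_pos P b.val)) (diag_mul_cosetRep N p b), JTors.pull_mul]
    have hd : pullSL (bezElt p) (evQ N.M N.Δ x) = evQ N.M N.Δ f := by
      rw [show bezElt p = ((bezG N p : Gamma0 N.M) : SL(2, ℤ)) from rfl,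
        pullSL_evQ N.neg_mem (bezG N p) x, hx, ← AlgEquiv.mul_apply, ← map_mul, dHom_bezG, map_one]
      rfl
    show pull _ _ (pullSL (bezElt p) (evQ N.M N.Δ x)) = _
    rw [hd, evQ_apply, evC_eq (X := toC N.M N.Δ f) hf, map_div₀, JTors.pull_ofH, JTors.pull_ofH]
  rw [e0, Finset.prod_congr rfl fun b _ => e1 b, evQ_apply,
    evC_eq (X := toC N.M N.Δ (normPhi N P d f)) hn, Finset.prod_div_distrib, div_mul_div_comm,
    ← map_prod, ← map_prod, ← map_mul, ← map_mul] at key
  have hne : ∀ (g : GL (Fin 2) ℝ) (hg : 0 < g.det.val) {H : ℍ → ℂ} (hH : MDiff H), H ≠ 0 →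
      JTors.pullHol g hg ⟨H, hH⟩ ≠ 0 := fun g hg H hH h0 e => h0 (funext fun τ => by
    have h : H (g • (g⁻¹ • τ)) = 0 := congrFun (congrArg Subtype.val e) (g⁻¹ • τ)
    simpa [smul_inv_smul] using h)
  rw [div_eq_div_iff (JTors.ofH_ne_zero fun e => hn.den_ne (congrArg Subtype.val e))
      (JTors.ofH_ne_zero (mul_ne_zero (hne _ _ _ hx'.den_ne)
        (Finset.prod_ne_zero_iff.mpr fun b _ => hne _ _ _ hf.den_ne))),
    ← map_mul, ← map_mul, JTors.ofH_injective.eq_iff] at key
  -- evaluate at `p τ`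
  have coe_prod : ∀ (φ : ZMod P → HolH) (τ : ℍ), ((∏ b, φ b : HolH) : ℍ → ℂ) τ =
      ∏ b, (φ b : ℍ → ℂ) τ := fun φ τ => by
    rw [SubmonoidClass.coe_finsetProd, Finset.prod_apply]
  have hfun : dil P A * (dil P (dil P G') * ∏ b : ZMod P, trn P b.val G) =
      dil P B * (dil P (dil P F') * ∏ b : ZMod P, trn P b.val F) := by
    funext τ
    have h := congrFun (congrArg Subtype.val key) (scale P τ)
    have e : ModularForm.heckeDiagMatrix P • scale P τ = scale P (scale P τ) := UpperHalfPlane.ext (by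
      rw [ModularForm.coe_heckeDiagMatrix_smul (NeZero.ne P), ModFun.coe_scale, ModFun.coe_scale,
        ModFun.coe_scale])
    simp only [Pi.mul_apply, Finset.prod_apply, MulMemClass.coe_mul, coe_prod] at h ⊢
    have hpull : ∀ (g : GL (Fin 2) ℝ) (hg : 0 < g.det.val) (H : HolH) (σ : ℍ),
        ((JTors.pullHol g hg H : HolH) : ℍ → ℂ) σ = (H : ℍ → ℂ) (g • σ) := fun _ _ _ _ => rfl
    simp only [hpull, e] at h
    simp only [dil, trn]
    linear_combination h
  -- expansions
  set ζ : ℂ := Complex.exp (2 * Real.pi * Complex.I / P) with hζdef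
  have hζ : IsPrimitiveRoot ζ P := Complex.isPrimitiveRoot_exp P (NeZero.ne P)
  set z : ℂˣ := (hζ.isUnit (NeZero.ne P)).unit
  have hgp : ∀ {H : ℍ → ℂ}, Good H → Good (∏ b : ZMod P, trn P b.val H) ∧
      ps (qx (∏ b : ZMod P, trn P b.val H)) = ∏ i : Fin P, twist (z ^ (i : ℕ)) (ps (qx H)) := by
    intro H hH
    obtain ⟨h1, h2⟩ := good_qx_prod Finset.univ fun (b : ZMod P) _ => good_trn P b.val hH
    refine ⟨h1, ?_⟩
    rw [h2, map_prod]
    refine Fintype.prod_bijective (fun b : ZMod P => (⟨b.val, ZMod.val_lt b⟩ : Fin P))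
      ((Fintype.bijective_iff_injective_and_card _).mpr ⟨fun a b h =>
        ZMod.val_injective P (congrArg Fin.val h), by simp⟩) _ _ fun b => ?_
    exact qx_trn P b.val hH _ (by rw [Units.val_pow_eq_pow_val, IsUnit.unit_spec])
  obtain ⟨hG1, hG2⟩ := hgp hf.den.good
  obtain ⟨hF1, hF2⟩ := hgp hf.num.good
  have gA := ModFun.good_dil hn.num.good P
  have gB := ModFun.good_dil hn.den.good P
  have gG := ModFun.good_dil (ModFun.good_dil hx'.den.good P) P
  have gF := ModFun.good_dil (ModFun.good_dil hx'.num.good P) P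
  have hs := congrArg (fun g : ℍ → ℂ => ps (qx g)) hfun
  simp only [Good.qx_mul gA (gG.mul hG1), Good.qx_mul gG hG1, Good.qx_mul gB (gF.mul hF1),
    Good.qx_mul gF hF1, map_mul, hG2, hF2, qx_dil_series hn.num.good, qx_dil_series hn.den.good,
    qx_dil_series (ModFun.good_dil hx'.den.good P), qx_dil_series (ModFun.good_dil hx'.num.good P),
    qx_dil_series hx'.den.good, qx_dil_series hx'.num.good, ← hn.eq, ← hx'.eq, ← hf.eq, map_mul,
    Finset.prod_mul_distrib] at hs
  have hC : qExpand ℂ P (coeffMap embC (normPhi N P d f : LaurentSeries Qb)) =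
      qExpand ℂ P (qExpand ℂ P (coeffMap embC (x : LaurentSeries Qb))) *
        ∏ i : Fin P, twist (z ^ (i : ℕ)) (coeffMap embC (f : LaurentSeries Qb)) := by
    have h1 : qExpand ℂ P (ps (qx B)) ≠ 0 :=
      (map_ne_zero _).mpr (hn.den.qx_ne_zero hn.den_ne)
    have h2 : qExpand ℂ P (qExpand ℂ P (ps (qx G'))) ≠ 0 :=
      (map_ne_zero _).mpr ((map_ne_zero _).mpr (hx'.den.qx_ne_zero hx'.den_ne))
    have h3 : ∏ i : Fin P, twist (z ^ (i : ℕ)) (ps (qx G)) ≠ 0 :=
      Finset.prod_ne_zero_iff.mpr fun i _ => (map_ne_zero _).mpr (hf.den.qx_ne_zero hf.den_ne)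
    refine mul_right_cancel₀ (mul_ne_zero h1 (mul_ne_zero h2 h3)) ?_
    linear_combination hs
  -- descend the constants
  have hu' : IsPrimitiveRoot (embC (u : Qb)) P :=
    (IsPrimitiveRoot.coe_units_iff.mpr hu).map_of_injective embC.injective
  set uC : ℂˣ := Units.map (embC : Qb →* ℂ) u
  have hchange : ∏ i : Fin P, twist (z ^ (i : ℕ)) (coeffMap embC (f : LaurentSeries Qb)) =
      ∏ i : Fin P, twist (uC ^ (i : ℕ)) (coeffMap embC (f : LaurentSeries Qb)) := by
    have key : ∀ (r : ℂˣ) (i : ℕ), twist (r ^ i) (coeffMap embC (f : LaurentSeries Qb)) =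
        twist (if h : ((r : ℂ) ^ i) = 0 then 1 else Units.mk0 _ h)
          (coeffMap embC (f : LaurentSeries Qb)) := fun r i => by
      rw [dif_neg (pow_ne_zero _ r.ne_zero)]
      exact congrArg (fun e : ℂˣ => twist e (coeffMap embC (f : LaurentSeries Qb)))
        (Units.ext (Units.val_pow_eq_pow_val r i))
    simp only [key]
    exact prod_pow_primitiveRoot (u := (uC : ℂ)) (v := (z : ℂ)) hu'
      (by rwa [IsUnit.unit_spec]) (fun r : ℂ =>
      twist (if h : r = 0 then 1 else Units.mk0 _ h) (coeffMap embC (f : LaurentSeries Qb)))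
  refine RingHom.injective (coeffMap embC) ?_
  rw [map_mul, map_prod, ModFun.coeffMap_qExpand, ModFun.coeffMap_qExpand, ModFun.coeffMap_qExpand,
    hC, hchange]
  refine congrArg _ (Finset.prod_congr rfl fun i _ => ?_)
  rw [Reduction.coeffMap_twist, map_pow]

end FLTAgent.DS.Red

end
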