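import Fermat.Agent.DS.Red.Compat

/-!
An `m`-th root of a function whose reduction is an `m`-th power, to arbitrary precision, chartwise.
-/

set_option autoImplicit false
set_option linter.unusedSectionVars false
set_option synthInstance.maxHeartbeats 100000

noncomputable section

open ModularCurve AlgebraicCurve Polynomial IsLocalRing
open FLTAgent.RR (Bd KK)

namespace FLTAgent.DS.Red

open FLTAgent.Reduction

variable {A : ValuationSubring Qb} {N : Lvl} {ℓ : ℕ}

/-- functions on the chart of `t` with order at least `D` -/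
def Lat (s : Bool) (D : Divisor Qb (FB N)) : Submodule Qb (FB N) :=
  RR.boundedOn (fun v => Bd v (tB N s) 0) (fun v => -D v)

theorem mem_Lat {s : Bool} {D : Divisor Qb (FB N)} {x : FB N} :
    x ∈ Lat s D ↔ ∀ v : PB N, Bd v (tB N s) 0 → Bd v x (-D v) := RR.mem_boundedOn

theorem ord_le_of_mem_Lat {s : Bool} {D : Divisor Qb (FB N)} {x : FB N} (hx : x ∈ Lat s D)
    (hx0 : x ≠ 0) {v : PB N} (hv : Bd v (tB N s) 0) : D v ≤ v.ord x := by
  have := (RR.bd_iff_ord hx0).mp (mem_Lat.mp hx v hv)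
  omega

theorem regOn_mul_mem_Lat {s : Bool} {D : Divisor Qb (FB N)} {x y : FB N}
    (hy : y ∈ regOn Qb (tB N s)) (hx : x ∈ Lat s D) : y * x ∈ Lat s D :=
  mem_Lat.mpr fun v hv => by simpa using (hy v hv).mul (mem_Lat.mp hx v hv)

variable (A) in
/-- `y` is divisible by `a` in the Gauss valuation ring -/
def Sm (a : Qb) (y : FB N) : Prop := ∃ z ∈ GR A N, y = cB N a * z

theorem Sm.add {a : Qb} {y z : FB N} (h : Sm A a y) (h' : Sm A a z) : Sm A a (y + z) := by
  obtain ⟨y', hy', rfl⟩ := h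
  obtain ⟨z', hz', rfl⟩ := h'
  exact ⟨y' + z', add_mem hy' hz', (mul_add _ _ _).symm⟩

theorem Sm_zero (a : Qb) : Sm A a (0 : FB N) := ⟨0, zero_mem _, (mul_zero _).symm⟩

theorem Sm.sum {ι : Type*} {a : Qb} (S : Finset ι) (f : ι → FB N) (h : ∀ i ∈ S, Sm A a (f i)) :
    Sm A a (∑ i ∈ S, f i) := by
  classical
  induction S using Finset.induction_on with
  | empty => simpa using Sm_zero (A := A) (N := N) a
  | insert i S hi ih =>
      rw [Finset.sum_insert hi]
      exact (h i (Finset.mem_insert_self i S)).add (ih fun j hj => h j (Finset.mem_insert_of_mem hj))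

theorem Sm.mono {a b : Qb} {y : FB N} (h : Sm A a y) (hab : A.valuation a ≤ A.valuation b) :
    Sm A b y := by
  obtain ⟨z, hz, rfl⟩ := h
  rcases eq_or_ne b 0 with rfl | hb
  · rw [map_zero, le_zero_iff, map_eq_zero] at hab
    subst hab
    exact ⟨z, hz, rfl⟩
  · have hq : a / b ∈ A := (A.valuation_le_one_iff _).mp (by
      rw [map_div₀, div_le_one₀ (zero_lt_iff.mpr ((Valuation.ne_zero_iff _).mpr hb))]
      exact hab)
    refine ⟨cB N (a / b) * z, mul_mem (cB_mem hq) hz, ?_⟩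
    rw [← mul_assoc]
    simp only [cB, ← map_mul, mul_div_cancel₀ _ hb]

theorem Sm.const_mul {a : Qb} {y : FB N} (c : Qb) (h : Sm A a y) : Sm A (c * a) (cB N c * y) := by
  obtain ⟨z, hz, rfl⟩ := h
  exact ⟨z, hz, by simp only [cB, map_mul]; ring⟩

theorem Sm.mul_mem {a : Qb} {y z : FB N} (h : Sm A a y) (hz : z ∈ GR A N) : Sm A a (y * z) := by
  obtain ⟨w, hw, rfl⟩ := h
  exact ⟨w * z, MulMemClass.mul_mem hw hz, by ring⟩

theorem Sm.mem_GR {a : Qb} {y : FB N} (h : Sm A a y) (ha : A.valuation a ≤ 1) : y ∈ GR A N := by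
  obtain ⟨z, hz, rfl⟩ := h
  exact MulMemClass.mul_mem (cB_mem ((A.valuation_le_one_iff a).mp ha)) hz

theorem exists_sq_rem {R : Type*} [CommRing R] (y : R) :
    ∀ m : ℕ, ∃ r : R, (1 + y) ^ m = 1 + (m : R) * y + y ^ 2 * r
  | 0 => ⟨0, by simp⟩
  | m + 1 => by
      obtain ⟨r, hr⟩ := exists_sq_rem y m
      exact ⟨r + r * y + m, by rw [pow_succ, hr]; push_cast; ring⟩

variable (C : Ctx A N ℓ)
include C

theorem Sm.red_eq_zero {a : Qb} {y : FB N} (h : Sm A a y) (ha : A.valuation a < 1) :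
    red A N y = 0 := by
  obtain ⟨z, hz, rfl⟩ := h
  have haA := (A.valuation_le_one_iff a).mp ha.le
  rw [red_mul C (cB_mem haA) hz, red_cB C ⟨a, haA⟩,
    show residue A ⟨a, haA⟩ = 0 from (res_eq_zero_iff A _).mpr ha, map_zero, zero_mul]

set_option maxHeartbeats 1000000 in
/-- a lattice element reducing to a given function with divisor the reduction of `D` -/
theorem exists_base {s : Bool} {D : Divisor Qb (FB N)} {n : ℕ}
    (hn : ∀ P : PB N, Bd P (tB N s) 0 → 0 ≤ D P + n * P.ord (tB N s))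
    {φ : FS A N} (hφ : φ ≠ 0) (hdiv : ∀ Q, Finsupp.mapDomain (rP C) D Q = Q.ord φ) :
    ∃ x : FB N, x ∈ Lat s D ∧ x ∈ GR A N ∧ red A N x = φ := by
  classical
  haveI := finite_tS C s
  haveI := separable_tS C s
  let J : Ideal (regOn (kA A) (tS A N s)) :=
    { carrier := {u | ∃ x : FB N, x ∈ Lat s D ∧ x ∈ GR A N ∧ red A N x = (u : FS A N) * φ}
      add_mem' := by
        rintro u u' ⟨x, hx, hxG, hxr⟩ ⟨x', hx', hxG', hxr'⟩
        refine ⟨x + x', add_mem hx hx', add_mem hxG hxG', ?_⟩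
        rw [red_add C hxG hxG', hxr, hxr', ← add_mul]
        rfl
      zero_mem' := ⟨0, zero_mem _, zero_mem _, by rw [red_zero C]; simp⟩
      smul_mem' := by
        rintro ⟨y, hy⟩ u ⟨x, hx, hxG, hxr⟩
        obtain ⟨b, hb, hbr⟩ := exists_lift C ((BS_iff C).mpr hy)
        refine ⟨b * x, regOn_mul_mem_Lat hb.mem_regOn hx, MulMemClass.mul_mem (BT.mem_GR C hb) hxG, ?_⟩
        rw [red_mul C (BT.mem_GR C hb) hxG, hbr, hxr, ← mul_assoc]
        rfl }
  suffices hJ : J = ⊤ by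
    obtain ⟨x, hx, hxG, hxr⟩ := (Ideal.eq_top_iff_one J).mp hJ
    exact ⟨x, hx, hxG, by rw [hxr]; simp⟩
  by_contra hJ
  obtain ⟨Q, hQ, hQJ⟩ := exists_place_of_ideal (transcendental_tS A N s) J hJ
  set t := tB N s with ht
  set S := (D.support ∪ (dv t).support).filter (fun P => Bd P t 0) with hS
  obtain ⟨X, hX, hXU, hXo, hXQ⟩ := exists_prod_elem C hQ S
    (fun P hP => (Finset.mem_filter.mp hP).2) (fun P => (D P + n * P.ord t).toNat)
  set x := X * tB N (!s) ^ n with hx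
  have hxU : UG A N x := hXU.mul C (UG_pow C (UG_tB C (!s)) n)
  have hordx : ∀ P : PB N, P.ord x = P.ord X - n * P.ord t := fun P => by
    rw [hx, P.ord_mul (hXU.ne_zero C) (pow_ne_zero _ (tB_ne_zero N _)), RR.ord_pow, tB_not,
      P.ord_inv]
    ring
  have hsupp : ∀ P : PB N, Bd P t 0 → P ∉ S → D P = 0 ∧ P.ord t = 0 := by
    intro P hP hPS
    simp only [hS, Finset.mem_filter, Finset.mem_union, Finsupp.mem_support_iff, hP, and_true,
      not_or, not_not, dv_apply] at hPS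
    exact hPS
  have hxL : x ∈ Lat s D := mem_Lat.mpr fun P hP => by
    rw [RR.bd_iff_ord (hxU.ne_zero C), hordx]
    by_cases hPS : P ∈ S
    · have h1 := hXo P hPS
      have h2 := hn P hP
      omega
    · obtain ⟨h1, h2⟩ := hsupp P hP hPS
      have h3 : 0 ≤ P.ord X := by
        have := (RR.bd_iff_ord (hXU.ne_zero C)).mp (hX.mem_regOn P hP)
        simpa using this
      rw [h1, h2]
      omega
  have hcompat := defect_eq_zero C hxU
  have hu : red A N x / φ ∈ regOn (kA A) (tS A N s) := by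
    intro Q' hQ'
    rw [RR.bd_iff_ord (div_ne_zero hxU.2 hφ), div_eq_mul_inv, Q'.ord_mul hxU.2 (inv_ne_zero hφ),
      Q'.ord_inv, ← hdiv Q']
    have h1 := hcompat Q'
    rw [defect, sub_eq_zero] at h1
    rw [← h1, mapDomain_apply_eq_sum (rP C) (dv x) Q' ((dv x).support ∪ D.support)
      Finset.subset_union_left, mapDomain_apply_eq_sum (rP C) D Q' ((dv x).support ∪ D.support)
      Finset.subset_union_right]
    have h2 : ∑ P ∈ ((dv x).support ∪ D.support).filter (fun P => rP C P = Q'), D P ≤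
        ∑ P ∈ ((dv x).support ∪ D.support).filter (fun P => rP C P = Q'), dv x P := by
      refine Finset.sum_le_sum fun P hP => ?_
      obtain ⟨d, -, hd⟩ := (fin_rP_iff C).mp ((Finset.mem_filter.mp hP).2 ▸ hQ')
      rw [dv_apply]
      exact ord_le_of_mem_Lat hxL (hxU.ne_zero C) hd.bd
    omega
  have huJ : (⟨_, hu⟩ : regOn (kA A) (tS A N s)) ∈ J :=
    ⟨x, hxL, hxU.1, (div_mul_cancel₀ _ hφ).symm⟩
  have hbad := hQJ _ huJ
  rw [RR.bd_iff_ord (div_ne_zero hxU.2 hφ), div_eq_mul_inv, Q.ord_mul hxU.2 (inv_ne_zero hφ),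
    Q.ord_inv] at hbad
  have hrx : red A N x = red A N X * tS A N (!s) ^ n := by
    rw [hx, red_mul C hXU.1 (pow_mem (tB_mem _) n), red_pow C (tB_mem _), red_tB C]
  rw [hrx, Q.ord_mul hXU.2 (pow_ne_zero _ (tS_ne_zero A N _)), RR.ord_pow, tS_not, Q.ord_inv,
    hXQ] at hbad
  have hsum : ∑ P ∈ S.filter (fun P => rP C P = Q), ((D P + n * P.ord t).toNat : ℤ) =
      Finsupp.mapDomain (rP C) D Q + n * Q.ord (tS A N s) := by
    have h1 := defect_eq_zero C (UG_tB C s) Q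
    rw [defect, sub_eq_zero, red_tB C] at h1
    rw [← h1, mapDomain_apply_eq_sum (rP C) D Q (D.support ∪ (dv t).support)
        Finset.subset_union_left,
      mapDomain_apply_eq_sum (rP C) (dv (tB N s)) Q (D.support ∪ (dv t).support)
        (by rw [← ht]; exact Finset.subset_union_right),
      Finset.mul_sum, ← Finset.sum_add_distrib, hS, Finset.filter_filter]
    refine Finset.sum_congr (Finset.filter_congr fun P _ => ⟨fun h => h.2, fun h => ⟨?_, h⟩⟩)
      fun P hP => ?_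
    · obtain ⟨d, -, hd⟩ := (fin_rP_iff C).mp (h ▸ hQ : Bd (rP C P) (tS A N s) 0)
      exact hd.bd
    · rw [Finset.mem_filter] at hP
      obtain ⟨d, -, hd⟩ := (fin_rP_iff C).mp (hP.2 ▸ hQ : Bd (rP C P) (tS A N s) 0)
      rw [dv_apply, Int.toNat_of_nonneg (hn P hd.bd), ← ht]
  rw [hsum, hdiv] at hbad
  linarith

variable {m : ℕ} (hm : ¬ ℓ ∣ m)

omit C in
theorem valuation_inv_natCast (C : Ctx A N ℓ) (hm : ¬ ℓ ∣ m) :
    A.valuation ((m : Qb)⁻¹) = 1 := by
  rw [map_inv₀, valuation_natCast A C.prime C.lies hm, inv_one]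

include hm in
/-- one Newton step -/
theorem root_step {s : Bool} {D : Divisor Qb (FB N)} {f : FB N} (hf : UG A N f)
    (hfD : ∀ P : PB N, P.ord f = m * D P) {γ : Qb} (hγ : A.valuation γ < 1)
    {x : FB N} (hx : x ∈ Lat s D) (hxG : x ∈ GR A N) (hsm : Sm A γ (x ^ m * f⁻¹ - 1)) :
    ∃ x' : FB N, x' ∈ Lat s D ∧ x' ∈ GR A N ∧ red A N x' = red A N x ∧
      Sm A (γ ^ 2) (x' ^ m * f⁻¹ - 1) := by
  obtain ⟨w, hw, hwe⟩ := hsm
  have hf0 := hf.ne_zero C
  have hreg : x ^ m * f⁻¹ - 1 ∈ regOn Qb (tB N s) := by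
    refine Subalgebra.sub_mem _ (fun P hP => ?_) (Subalgebra.one_mem _)
    have h := (RR.Bd.pow (mem_Lat.mp hx P hP) m).mul
      (show Bd P f⁻¹ (m * D P) from RR.bd_iff.mpr (Or.inr (by rw [P.ord_inv, hfD])))
    exact h.mono (by rw [mul_neg, neg_add_cancel])
  set y := cB N (-(m : Qb)⁻¹) * (x ^ m * f⁻¹ - 1) with hy
  have hvm := valuation_inv_natCast C hm
  have hmA : (-(m : Qb)⁻¹) ∈ A := (A.valuation_le_one_iff _).mp (by rw [Valuation.map_neg, hvm])
  have hysm : Sm A γ y := by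
    refine (Sm.const_mul (-(m : Qb)⁻¹) ⟨w, hw, hwe⟩).mono ?_
    rw [map_mul, Valuation.map_neg, hvm, one_mul]
  have hyG : y ∈ GR A N := hysm.mem_GR hγ.le
  have hyreg : y ∈ regOn Qb (tB N s) :=
    Subalgebra.mul_mem _ ((regOn Qb (tB N s)).algebraMap_mem _) hreg
  refine ⟨(1 + y) * x, regOn_mul_mem_Lat (Subalgebra.add_mem _ (Subalgebra.one_mem _) hyreg) hx,
    MulMemClass.mul_mem (add_mem (one_mem _) hyG) hxG, ?_, ?_⟩
  · rw [red_mul C (add_mem (one_mem _) hyG) hxG, red_add C (one_mem _) hyG, red_one C,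
      hysm.red_eq_zero C hγ, add_zero, one_mul]
  · obtain ⟨r, hr⟩ := exists_sq_rem (⟨y, hyG⟩ : GR A N) m
    have hr' : (1 + y) ^ m = 1 + (m : FB N) * y + y ^ 2 * (r : FB N) := by
      have := congrArg Subtype.val hr
      push_cast at this
      exact this
    have hmne : (m : Qb) ≠ 0 := Nat.cast_ne_zero.mpr fun h0 => hm (h0 ▸ dvd_zero ℓ)
    have hmy : (m : FB N) * y = -(x ^ m * f⁻¹ - 1) := by
      rw [hy, ← mul_assoc, ← map_natCast (algebraMap Qb (FB N)) m]
      simp only [cB, ← map_mul, mul_neg, mul_inv_cancel₀ hmne, map_neg, map_one, neg_mul, one_mul]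
    have hid : ((1 + y) * x) ^ m * f⁻¹ - 1 =
        cB N (γ ^ 2) * (-(w * w)) + y * (y * ((r : FB N) * (x ^ m * f⁻¹))) := by
      rw [mul_pow, mul_assoc, hr', hmy, hwe, show x ^ m * f⁻¹ = cB N γ * w + 1 by rw [← hwe]; ring]
      simp only [cB, map_pow]
      ring
    rw [hid]
    refine Sm.add ⟨_, neg_mem (MulMemClass.mul_mem hw hw), rfl⟩ ?_
    obtain ⟨z, hz, hze⟩ := hysm
    refine ⟨z * (z * ((r : FB N) * (x ^ m * f⁻¹))), MulMemClass.mul_mem hz (MulMemClass.mul_mem hz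
      (MulMemClass.mul_mem r.2 (MulMemClass.mul_mem (pow_mem hxG m) (hf.inv C).1.1))), ?_⟩
    rw [hze]
    simp only [cB, map_pow]
    ring

include hm in
/-- approximate roots in one chart -/
theorem exists_root {s : Bool} {D : Divisor Qb (FB N)} {f : FB N} (hf : UG A N f)
    (hfD : ∀ P : PB N, P.ord f = m * D P) {φ : FS A N} (hφ : red A N f = φ ^ m) (hφ0 : φ ≠ 0)
    {x : FB N} (hx : x ∈ Lat s D) (hxG : x ∈ GR A N) (hxr : red A N x = φ)
    {a : Qb} (ha : a ≠ 0) :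
    ∃ y : FB N, y ∈ Lat s D ∧ y ∈ GR A N ∧ red A N y = φ ∧ Sm A a (y ^ m * f⁻¹ - 1) := by
  obtain ⟨hfi, hfir⟩ := hf.inv C
  have h1G : x ^ m * f⁻¹ - 1 ∈ GR A N :=
    sub_mem (MulMemClass.mul_mem (pow_mem hxG m) hfi.1) (one_mem _)
  obtain ⟨γ, w, hγ, hw, hwe⟩ := exists_small C h1G (by
    rw [red_sub C (MulMemClass.mul_mem (pow_mem hxG m) hfi.1) (one_mem _),
      red_mul C (pow_mem hxG m) hfi.1, red_pow C hxG, hfir, hφ, hxr, red_one C,
      mul_inv_cancel₀ (pow_ne_zero _ hφ0), sub_self])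
  have key : ∀ k : ℕ, ∃ y : FB N, y ∈ Lat s D ∧ y ∈ GR A N ∧ red A N y = φ ∧
      Sm A (γ ^ 2 ^ k) (y ^ m * f⁻¹ - 1) := by
    intro k
    induction k with
    | zero => exact ⟨x, hx, hxG, hxr, w, hw, by rw [pow_zero, pow_one]; exact hwe⟩
    | succ k ih =>
        obtain ⟨y, hy, hyG, hyr, hys⟩ := ih
        obtain ⟨y', hy', hyG', hyr', hys'⟩ := root_step C hm hf hfD (γ := γ ^ 2 ^ k) (by
          rw [map_pow]; exact pow_lt_one₀ zero_le hγ (by positivity)) hy hyG hys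
        exact ⟨y', hy', hyG', hyr'.trans hyr, by rwa [← pow_mul, ← pow_succ] at hys'⟩
  obtain ⟨n, hn⟩ := exists_pow_le A C.prime C.lies hγ ha
  obtain ⟨y, hy, hyG, hyr, hys⟩ := key n
  refine ⟨y, hy, hyG, hyr, hys.mono ?_⟩
  rw [map_pow]
  exact (pow_le_pow_of_le_one zero_le hγ.le (Nat.lt_two_pow_self).le).trans hn

/-- two approximate roots with the same reduction are close -/
theorem roots_close {f x y : FB N} (hf : UG A N f) (hm : ¬ ℓ ∣ m) (hx : x ∈ GR A N)
    (hy : y ∈ GR A N) (h : red A N x = red A N y) (h0 : red A N x ≠ 0) {a : Qb}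
    (hxa : Sm A a (x ^ m * f⁻¹ - 1)) (hya : Sm A a (y ^ m * f⁻¹ - 1)) : Sm A a (x - y) := by
  set S := ∑ i ∈ Finset.range m, x ^ i * y ^ (m - 1 - i) with hS
  have hSG : S ∈ GR A N := sum_mem fun i _ => MulMemClass.mul_mem (pow_mem hx _) (pow_mem hy _)
  have hSr : red A N S = (m : FS A N) * red A N x ^ (m - 1) := by
    have h1 : redS A N S = ∑ i ∈ Finset.range m,
        redS A N (x ^ i * y ^ (m - 1 - i)) :=
      redS_sum C _ _ fun i _ => MulMemClass.mul_mem (pow_mem hx _) (pow_mem hy _)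
    refine Subtype.ext ?_
    rw [coe_red C hSG, h1]
    have h2 : ∀ i ∈ Finset.range m, redS A N (x ^ i * y ^ (m - 1 - i)) =
        ((red A N x ^ (m - 1) : FS A N) : LaurentSeries (kA A)) := by
      intro i hi
      rw [Finset.mem_range] at hi
      rw [← coe_red C (MulMemClass.mul_mem (pow_mem hx _) (pow_mem hy _)),
        red_mul C (pow_mem hx _) (pow_mem hy _), red_pow C hx, red_pow C hy, ← h, ← pow_add,
        show i + (m - 1 - i) = m - 1 by omega]
    rw [Finset.sum_congr rfl h2, Finset.sum_const, Finset.card_range, nsmul_eq_mul]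
    push_cast
    ring
  have hSU : UG A N S := ⟨hSG, by
    rw [hSr, ← map_natCast (algebraMap (kA A) (FS A N)) m]
    exact mul_ne_zero ((_root_.map_ne_zero _).mpr (natCast_residue_ne_zero A C.prime C.lies hm))
      (pow_ne_zero _ h0)⟩
  obtain ⟨u, hu, hue⟩ := hxa
  obtain ⟨w, hw, hwe⟩ := hya
  refine ⟨(u - w) * f * S⁻¹, MulMemClass.mul_mem (MulMemClass.mul_mem (sub_mem hu hw) hf.1) (hSU.inv C).1.1, ?_⟩
  have hgeom : S * (x - y) = x ^ m - y ^ m := geom_sum₂_mul x y m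
  have hf0 := hf.ne_zero C
  have hS0 := hSU.ne_zero C
  have hd : x ^ m - y ^ m = cB N a * (u - w) * f := by
    rw [mul_sub, ← hue, ← hwe]
    field_simp
    ring
  field_simp
  rw [mul_comm, hgeom, hd]

end FLTAgent.DS.Red
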